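import Mathlib
import Fermat.Prelude.Def_ClassGroup_GaloisAction

/-!
Basic facts on the `p`-th cyclotomic field: Galois action, eigen-elements for the square of the
cyclotomic character, congruences modulo powers of `ζ - 1`.
-/

set_option autoImplicit false
set_option maxSynthPendingDepth 3

open NumberField
open scoped nonZeroDivisors

noncomputable section

namespace Fermat.Agent.ExtVanish

variable (p : ℕ) [Fact p.Prime]

/-- The exponent `a² mod p`. -/
abbrev ex (a : (ZMod p)ˣ) : ℕ := ((a : ZMod p) ^ 2).val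

lemma natCast_ex (a : (ZMod p)ˣ) : ((ex p a : ℕ) : ZMod p) = (a : ZMod p) ^ 2 := by
  simp [ex]

lemma natCast_ex_mul (a b : (ZMod p)ˣ) :
    ((ex p (a * b) : ℕ) : ZMod p) = ((ex p a * ex p b : ℕ) : ZMod p) := by
  simp [ex, mul_pow]

variable (K : Type*) [Field K] [NumberField K] [IsCyclotomicExtension {p} ℚ K]

/-- The chosen primitive root of unity in `K`. -/
abbrev zF : K := IsCyclotomicExtension.zeta p ℚ K

lemma zF_spec : IsPrimitiveRoot (zF p K) p := IsCyclotomicExtension.zeta_spec p ℚ K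

/-- The chosen primitive root of unity as an integer. -/
abbrev zK : 𝓞 K := (zF_spec p K).toInteger

lemma zK_spec : IsPrimitiveRoot (zK p K) p := (zF_spec p K).toInteger_isPrimitiveRoot

/-- The prime element `ζ - 1`. -/
abbrev piK : 𝓞 K := zK p K - 1

lemma prime_piK : Prime (piK p K) := (zF_spec p K).zeta_sub_one_prime'

/-- The automorphism `ζ ↦ ζ ^ a`. -/
def sg (a : (ZMod p)ˣ) : K ≃ₐ[ℚ] K := (JacobiSumStickelberger.cycloGalEquiv p K).symm a

/-- The automorphism `ζ ↦ ζ ^ a` of the ring of integers. -/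
def sgI (a : (ZMod p)ˣ) : 𝓞 K ≃+* 𝓞 K := JacobiSumStickelberger.clRingAction p K a

@[simp] lemma coe_sgI (a : (ZMod p)ˣ) (x : 𝓞 K) : ((sgI p K a x : 𝓞 K) : K) = sg p K a x := by
  exact algebraMap_galRestrict_apply ℤ (sg p K a) x

lemma sg_mul (a b : (ZMod p)ˣ) : sg p K (a * b) = sg p K a * sg p K b := map_mul _ _ _

lemma sgI_mul (a b : (ZMod p)ˣ) (x : 𝓞 K) : sgI p K (a * b) x = sgI p K a (sgI p K b x) := by
  apply RingOfIntegers.ext
  simp [sg_mul]

lemma sg_one : sg p K 1 = 1 := map_one _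

lemma sg_surjective : Function.Surjective (sg p K) :=
  (JacobiSumStickelberger.cycloGalEquiv p K).symm.surjective

lemma sg_zF (a : (ZMod p)ˣ) : sg p K a (zF p K) = zF p K ^ (a : ZMod p).val := by
  have h := (zF_spec p K).autToPow_spec ℚ (sg p K a)
  have h2 : (zF_spec p K).autToPow ℚ (sg p K a) = a :=
    (JacobiSumStickelberger.cycloGalEquiv p K).apply_symm_apply a
  rw [h2] at h
  exact h.symm

lemma sgI_zK (a : (ZMod p)ˣ) : sgI p K a (zK p K) = zK p K ^ (a : ZMod p).val := by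
  apply RingOfIntegers.ext
  rw [coe_sgI]
  simpa using sg_zF p K a

variable {K} in
/-- `x` is an eigenvector for the square of the cyclotomic character, modulo `p`-th powers. -/
def IsEigen (x : K) : Prop := ∀ a : (ZMod p)ˣ, ∃ y : K, sg p K a x = x ^ ex p a * y ^ p

variable {p K}

omit [NumberField K] [IsCyclotomicExtension {p} ℚ K] in
lemma exists_pow_eq_of_modEq {x : K} (hx : x ≠ 0) {m n : ℕ} (h : (m : ZMod p) = n) :
    ∃ y : K, y ≠ 0 ∧ x ^ m = x ^ n * y ^ p := by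
  obtain ⟨k, hk⟩ := (ZMod.natCast_eq_natCast_iff m n p).1 h |>.symm |> Nat.modEq_iff_dvd.1
  refine ⟨x ^ k, zpow_ne_zero _ hx, ?_⟩
  rw [← zpow_natCast x m, ← zpow_natCast x n, ← zpow_natCast (x ^ k) p, ← zpow_mul,
    ← zpow_add₀ hx]
  congr 1
  linarith

lemma IsEigen.mul {x y : K} (hx : IsEigen p x) (hy : IsEigen p y) : IsEigen p (x * y) := fun a => by
  obtain ⟨u, hu⟩ := hx a
  obtain ⟨v, hv⟩ := hy a
  exact ⟨u * v, by rw [map_mul, hu, hv, mul_pow, mul_pow]; ring⟩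

lemma IsEigen.inv {x : K} (hx : IsEigen p x) : IsEigen p x⁻¹ := fun a => by
  obtain ⟨u, hu⟩ := hx a
  exact ⟨u⁻¹, by rw [map_inv₀, hu, mul_inv, inv_pow, inv_pow]⟩

lemma isEigen_pow_p {x : K} (hx : x ≠ 0) : IsEigen p (x ^ p) := fun a => by
  refine ⟨sg p K a x / x ^ ex p a, ?_⟩
  rw [map_pow, div_pow, ← pow_mul x, ← pow_mul x, mul_comm p (ex p a), mul_div_cancel₀]
  exact pow_ne_zero _ hx

lemma IsEigen.pow {x : K} (hx : IsEigen p x) (n : ℕ) : IsEigen p (x ^ n) := fun a => by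
  obtain ⟨u, hu⟩ := hx a
  exact ⟨u ^ n, by rw [map_pow, hu, mul_pow, ← pow_mul, ← pow_mul, ← pow_mul, ← pow_mul,
    mul_comm n (ex p a), mul_comm n p]⟩

lemma IsEigen.zpow {x : K} (hx : IsEigen p x) (n : ℤ) : IsEigen p (x ^ n) := by
  cases n with
  | ofNat n => simpa using hx.pow n
  | negSucc n => simpa [zpow_negSucc] using (hx.pow (n + 1)).inv

omit [IsCyclotomicExtension {p} ℚ K] [NumberField K] in
/-- A unit which is a `p`-th power in `K` is a `p`-th power of a unit. -/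
lemma exists_unit_pow_eq {u : (𝓞 K)ˣ} {y : K} (h : ((u : 𝓞 K) : K) = y ^ p) :
    ∃ w : (𝓞 K)ˣ, ((w : 𝓞 K) : K) = y ∧ u = w ^ p := by
  have hp : p.Prime := Fact.out
  have hy : IsIntegral ℤ y := IsIntegral.of_pow hp.pos (h ▸ RingOfIntegers.isIntegral_coe _)
  obtain ⟨yI, rfl⟩ : ∃ yI : 𝓞 K, (yI : K) = y := ⟨⟨y, hy⟩, rfl⟩
  have h' : (u : 𝓞 K) = yI ^ p := RingOfIntegers.ext (by simpa using h)
  have hu : IsUnit yI := (isUnit_pow_iff hp.ne_zero).1 (h' ▸ u.isUnit)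
  exact ⟨hu.unit, rfl, Units.ext (by simpa using h')⟩

variable (p K)

lemma piK_dvd_intCast_iff {n : ℤ} : piK p K ∣ (n : 𝓞 K) ↔ (p : ℤ) ∣ n :=
  IsCyclotomicExtension.Rat.zeta_sub_one_dvd_intCast_iff' p (zF_spec p K)

lemma piK_dvd_natCast_p : piK p K ∣ (p : 𝓞 K) := by
  simpa using (piK_dvd_intCast_iff p K (n := (p : ℤ))).2 dvd_rfl

lemma piK_pow_sub_one_associated : Associated (piK p K ^ (p - 1)) (p : 𝓞 K) :=
  IsCyclotomicExtension.Rat.associated_zeta_sub_one_pow_prime p (zF_spec p K)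

lemma piK_sq_dvd_natCast_p (hp : 3 ≤ p) : piK p K ^ 2 ∣ (p : 𝓞 K) :=
  (pow_dvd_pow _ (by omega)).trans (piK_pow_sub_one_associated p K).dvd

lemma piK_cube_dvd_natCast_p (hp : 5 ≤ p) : piK p K ^ 3 ∣ (p : 𝓞 K) :=
  (pow_dvd_pow _ (by omega)).trans (piK_pow_sub_one_associated p K).dvd

/-- Every integer of `K` is congruent to a rational integer modulo `ζ - 1`. -/
lemma exists_int_piK_dvd_sub (x : 𝓞 K) : ∃ n : ℤ, piK p K ∣ x - n := by
  have hp : p.Prime := Fact.out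
  set I : Ideal (𝓞 K) := Ideal.span {piK p K} with hI
  have hcard : Nat.card (𝓞 K ⧸ I) = p := by
    haveI : IsCyclotomicExtension {p ^ (0 + 1)} ℚ K := by simpa using ‹IsCyclotomicExtension {p} ℚ K›
    have hz : IsPrimitiveRoot (zF p K) (p ^ (0 + 1)) := by simpa using zF_spec p K
    have h := IsCyclotomicExtension.Rat.absNorm_span_zeta_sub_one p 0 hz
    rw [Ideal.absNorm_apply, Submodule.cardQuot_apply] at h
    exact h
  haveI : Finite (𝓞 K ⧸ I) := Nat.finite_of_card_ne_zero (hcard ▸ hp.ne_zero)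
  haveI : CharP (𝓞 K ⧸ I) p := by
    refine ⟨fun m => ?_⟩
    rw [← map_natCast (Ideal.Quotient.mk I), Ideal.Quotient.eq_zero_iff_mem, hI,
      Ideal.mem_span_singleton, ← Int.cast_natCast, piK_dvd_intCast_iff, Int.natCast_dvd_natCast]
  have hsurj : Function.Surjective (ZMod.castHom dvd_rfl (𝓞 K ⧸ I)) := by
    refine ((Nat.bijective_iff_injective_and_card _).2 ⟨ZMod.castHom_injective _, ?_⟩).surjective
    rw [hcard, Nat.card_zmod]
  obtain ⟨m, hm⟩ := hsurj (Ideal.Quotient.mk I x)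
  refine ⟨(m.val : ℤ), ?_⟩
  rw [← Ideal.mem_span_singleton, ← hI, ← Ideal.Quotient.eq_zero_iff_mem, map_sub, map_intCast,
    Int.cast_natCast, ← hm, ZMod.castHom_apply, ZMod.natCast_val, sub_self]

/-- `p`-th powers are constants modulo `(ζ - 1) ^ 3`. -/
lemma piK_cube_dvd_pow_sub (hp : 3 ≤ p) {x : 𝓞 K} {n : ℤ} (h : piK p K ∣ x - n) :
    piK p K ^ 3 ∣ x ^ p - (n : 𝓞 K) ^ p := by
  obtain ⟨t, ht⟩ := h
  have hx : x = n + piK p K * t := by rw [← ht]; ring
  obtain ⟨r, hr⟩ := exists_add_pow_prime_eq (Fact.out : p.Prime) (n : 𝓞 K) (piK p K * t)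
  obtain ⟨c, hc⟩ := piK_sq_dvd_natCast_p p K hp
  rw [hx, hr]
  have h1 : (n : 𝓞 K) ^ p + (piK p K * t) ^ p + p * (n : 𝓞 K) * (piK p K * t) * r - (n : 𝓞 K) ^ p =
      piK p K ^ p * t ^ p + piK p K ^ 3 * (c * n * t * r) := by
    rw [hc, mul_pow]; ring
  rw [h1]
  exact dvd_add ((pow_dvd_pow _ hp).mul_right _) (dvd_mul_right _ _)

end Fermat.Agent.ExtVanish
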