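import Mathlib
import Fermat.Agent.ExtVanish.Basic

/-!
From a Kummer radical with valuations divisible by `p` to an eigen ideal class, and an eigen
character on the class group detecting it.
-/

set_option autoImplicit false
set_option maxSynthPendingDepth 3

open NumberField IsDedekindDomain
open scoped nonZeroDivisors

noncomputable section

namespace Fermat.Agent.ExtVanish

variable (p : ℕ) [Fact p.Prime] (K : Type*) [Field K] [NumberField K] [IsCyclotomicExtension {p} ℚ K]

/-- The Galois action on ideal classes. -/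
def clAct (a : (ZMod p)ˣ) : ClassGroup (𝓞 K) ≃* ClassGroup (𝓞 K) := ClassGroup.mulEquiv (sgI p K a)

lemma clAct_mk0 (a : (ZMod p)ˣ) (I : (Ideal (𝓞 K))⁰) :
    clAct p K a (ClassGroup.mk0 I) = ClassGroup.mk0 (Ideal.mapNonZero (sgI p K a) I) :=
  ClassGroup.mulEquiv_mk0 _ _

lemma clAct_mul (a b : (ZMod p)ˣ) (C : ClassGroup (𝓞 K)) :
    clAct p K (a * b) C = clAct p K a (clAct p K b C) := by
  rw [clAct, clAct, clAct, ← ClassGroup.mulEquiv_trans_apply]
  congr 2
  ext x
  simp [sgI_mul]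

variable {p K}

lemma exists_char_of_ne_one {A : Type*} [CommGroup A] [Finite A] {k : ℕ} (h : ∀ a : A, a ^ p ^ k = 1)
    (hA : ∃ a : A, a ≠ 1) : ∃ f : A →* Multiplicative (ZMod p), f ≠ 1 := by
  classical
  have hp : p.Prime := Fact.out
  obtain ⟨a, ha⟩ := hA
  have hnsurj : (powMonoidHom p : A →* A).range ≠ ⊤ := by
    intro htop
    have hsurj : Function.Surjective (powMonoidHom p : A →* A) := MonoidHom.range_eq_top.1 htop
    have hinj := Finite.injective_iff_surjective.2 hsurj
    have hk : ∀ j : ℕ, ∀ x : A, x ^ p ^ j = 1 → x = 1 := by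
      intro j
      induction j with
      | zero => simp
      | succ j ih =>
        intro x hx
        apply ih
        apply hinj
        rw [powMonoidHom_apply, ← pow_mul, ← pow_succ, hx, map_one]
    exact ha (hk k a (h a))
  set N := (powMonoidHom p : A →* A).range
  obtain ⟨x, hx⟩ : ∃ x : A, x ∉ N := by
    by_contra hh
    push Not at hh
    exact hnsurj (eq_top_iff.2 fun x _ => hh x)
  have hp0 : ∀ z : Additive (A ⧸ N), p • z = 0 := fun z => by
    obtain ⟨w, rfl⟩ := Additive.ofMul.surjective z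
    obtain ⟨y, rfl⟩ := QuotientGroup.mk_surjective w
    rw [← ofMul_pow, ← ofMul_one, ← QuotientGroup.mk_pow]
    exact congrArg Additive.ofMul ((QuotientGroup.eq_one_iff _).2 ⟨y, rfl⟩)
  haveI : Module (ZMod p) (Additive (A ⧸ N)) := AddCommGroup.zmodModule hp0
  have hx' : Additive.ofMul (QuotientGroup.mk x : A ⧸ N) ≠ 0 := by
    rw [Ne, ofMul_eq_zero, QuotientGroup.eq_one_iff]
    exact hx
  let B := Module.Basis.ofVectorSpace (ZMod p) (Additive (A ⧸ N))
  obtain ⟨i, hi⟩ : ∃ i, B.repr (Additive.ofMul (QuotientGroup.mk x : A ⧸ N)) i ≠ 0 := by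
    by_contra hh
    push Not at hh
    exact hx' (B.repr.map_eq_zero_iff.1 (Finsupp.ext hh))
  obtain ⟨l, hl⟩ : ∃ l : Additive (A ⧸ N) →ₗ[ZMod p] ZMod p,
      l (Additive.ofMul (QuotientGroup.mk x : A ⧸ N)) ≠ 0 := ⟨B.coord i, hi⟩
  refine ⟨(AddMonoidHom.toMultiplicativeRight l.toAddMonoidHom).comp (QuotientGroup.mk' N), ?_⟩
  intro h1
  apply hl
  have := DFunLike.congr_fun h1 x
  simpa using congrArg Multiplicative.toAdd this

/-- An eigen class of order `p` is detected by an eigen character. -/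
theorem exists_eigen_char (hp : 3 ≤ p) {x : ClassGroup (𝓞 K)} (hx1 : x ≠ 1) (hxp : x ^ p = 1)
    (heig : ∀ a, clAct p K a x = x ^ ex p a) :
    ∃ π : ClassGroup (𝓞 K) →* Multiplicative (ZMod p), π ≠ 1 ∧
      ∀ a C, Multiplicative.toAdd (π (clAct p K a C)) =
        (a : ZMod p) ^ 2 * Multiplicative.toAdd (π C) := by
  classical
  have hpp : p.Prime := Fact.out
  set h := Fintype.card (ClassGroup (𝓞 K))
  have hh : h ≠ 0 := Fintype.card_ne_zero
  obtain ⟨k, m, hm, hhkm⟩ : ∃ k m, ¬ p ∣ m ∧ h = p ^ k * m :=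
    Nat.exists_eq_pow_mul_and_not_dvd hh p hpp.one_lt.ne'
  set W : (ZMod p)ˣ → ℕ := fun a => ((a : ZMod p).val) ^ (2 * p ^ k) with hW
  have hWmul : ∀ a b, (W (a * b) : ℤ) ≡ (W a * W b : ℕ) [ZMOD (p ^ k : ℕ)] := by
    intro a b
    have h0 : (p : ℤ) ∣ (((a : ZMod p).val * (b : ZMod p).val) ^ 2 : ℤ) -
        (((a * b : (ZMod p)ˣ) : ZMod p).val : ℤ) ^ 2 := by
      rw [← ZMod.intCast_zmod_eq_zero_iff_dvd]
      simp
    have h1 := dvd_sub_pow_of_dvd_sub h0 k
    rw [Int.modEq_iff_dvd]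
    refine dvd_trans ⟨(p : ℤ), by push_cast; ring⟩ (h1.trans (dvd_of_eq ?_))
    simp only [W, pow_mul]
    push_cast
    ring
  have hkill : ∀ C : ClassGroup (𝓞 K), (C ^ m) ^ p ^ k = 1 := fun C => by
    rw [← pow_mul, mul_comm, ← hhkm, pow_card_eq_one]
  have hpow : ∀ (C : ClassGroup (𝓞 K)) (i j : ℕ), (i : ℤ) ≡ j [ZMOD (p ^ k : ℕ)] →
      (C ^ m) ^ i = (C ^ m) ^ j := fun C i j hij =>
    pow_eq_pow_iff_modEq.2 ((Int.natCast_modEq_iff.1 hij).of_dvd (orderOf_dvd_of_pow_eq_one (hkill C)))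
  let E : ClassGroup (𝓞 K) →* ClassGroup (𝓞 K) :=
    { toFun := fun C => ∏ a, (clAct p K a C ^ m) ^ W a⁻¹
      map_one' := by simp
      map_mul' := fun C D => by simp [mul_pow, Finset.prod_mul_distrib] }
  have hE : ∀ C, E C = ∏ a, (clAct p K a C ^ m) ^ W a⁻¹ := fun C => rfl
  have hEkill : ∀ C, E C ^ p ^ k = 1 := fun C => by
    rw [hE, ← Finset.prod_pow]
    exact Finset.prod_eq_one fun a _ => by rw [← pow_mul, mul_comm (W _), pow_mul, hkill, one_pow]
  have hEact : ∀ b C, E (clAct p K b C) = E C ^ W b := by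
    intro b C
    rw [hE, hE, ← Finset.prod_pow, ← Equiv.prod_comp (Equiv.mulRight b⁻¹)]
    refine Finset.prod_congr rfl fun a _ => ?_
    rw [Equiv.coe_mulRight, ← clAct_mul, inv_mul_cancel_right, ← pow_mul ((clAct p K a) C ^ m),
      mul_inv_rev, inv_inv]
    apply hpow
    rw [mul_comm b a⁻¹]
    exact hWmul a⁻¹ b
  have hWp : ∀ a, (W a : ZMod p) = (a : ZMod p) ^ 2 := by
    intro a
    simp only [W, Nat.cast_pow, ZMod.natCast_val, ZMod.cast_id', id, pow_mul, ZMod.pow_card_pow]
  have hEx : E x ≠ 1 := by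
    have hxa : ∀ a, (clAct p K a x ^ m) ^ W a⁻¹ = x ^ m := by
      intro a
      rw [heig, ← pow_mul, ← pow_mul]
      refine pow_eq_pow_iff_modEq.2 (Nat.ModEq.of_dvd (orderOf_dvd_of_pow_eq_one hxp) ?_)
      rw [← ZMod.natCast_eq_natCast_iff]
      push_cast
      rw [hWp, natCast_ex, Units.val_inv_eq_inv_val]
      have := a.ne_zero
      field_simp
    rw [hE, Finset.prod_congr rfl fun a _ => hxa a, Finset.prod_const, Finset.card_univ,
      ZMod.card_units, ← pow_mul]
    intro h1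
    have hord : orderOf x = p := orderOf_eq_prime hxp hx1
    have := orderOf_dvd_of_pow_eq_one h1
    rw [hord, hpp.dvd_mul] at this
    rcases this with h2 | h2
    · exact hm h2
    · have := Nat.le_of_dvd (by omega) h2
      omega
  obtain ⟨f, hf⟩ := exists_char_of_ne_one (p := p) (A := E.range) (k := k)
    (fun ⟨_, C, rfl⟩ => Subtype.ext (hEkill C)) ⟨⟨E x, x, rfl⟩, fun h1 => hEx (congrArg Subtype.val h1)⟩
  refine ⟨f.comp E.rangeRestrict, ?_, fun a C => ?_⟩
  · intro h1
    apply hf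
    refine MonoidHom.ext fun y => ?_
    obtain ⟨C, rfl⟩ := E.rangeRestrict_surjective y
    exact DFunLike.congr_fun h1 C
  · have : E.rangeRestrict (clAct p K a C) = E.rangeRestrict C ^ W a := Subtype.ext (hEact a C)
    rw [MonoidHom.comp_apply, this, map_pow, toAdd_pow, nsmul_eq_mul, hWp]
    rfl

omit [NumberField K] [IsCyclotomicExtension {p} ℚ K] in
lemma normalizedFactors_pow_inj {R : Type*} [CommRing R] [IsDedekindDomain R] {I J : Ideal R}
    (hI : I ≠ 0) (hJ : J ≠ 0) (h : I ^ p = J ^ p) : I = J := by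
  have hp : p.Prime := Fact.out
  have := congrArg UniqueFactorizationMonoid.normalizedFactors h
  rw [UniqueFactorizationMonoid.normalizedFactors_pow,
    UniqueFactorizationMonoid.normalizedFactors_pow] at this
  rw [← associated_iff_eq,
    UniqueFactorizationMonoid.associated_iff_normalizedFactors_eq_normalizedFactors hI hJ]
  exact nsmul_right_injective hp.ne_zero this

/-- A radical with valuations divisible by `p` gives an eigen class or is a unit times a power. -/
theorem exists_class_or_unit {α : K} (hα : α ≠ 0) (heig : IsEigen p α)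
    (hval : ∀ v : HeightOneSpectrum (𝓞 K), ∃ n : ℤ, v.valuation K α = WithZero.exp ((p : ℤ) * n)) :
    (∃ x : ClassGroup (𝓞 K), x ≠ 1 ∧ x ^ p = 1 ∧ ∀ a, clAct p K a x = x ^ ex p a) ∨
      ∃ (u : (𝓞 K)ˣ) (y : K), y ≠ 0 ∧ α = ((u : 𝓞 K) : K) * y ^ p := by
  classical
  have hp : p.Prime := Fact.out
  obtain ⟨n, d, hd, rfl⟩ := IsFractionRing.div_surjective (A := 𝓞 K) α
  set A : 𝓞 K := n * d ^ (p - 1) with hA
  have hd0 : (d : K) ≠ 0 := IsFractionRing.to_map_ne_zero_of_mem_nonZeroDivisors hd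
  have hAα : ((A : 𝓞 K) : K) = (n : K) / d * (d : K) ^ p := by
    obtain ⟨q, hq⟩ := Nat.exists_eq_succ_of_ne_zero hp.ne_zero
    simp only [hA, map_mul, map_pow, hq, Nat.succ_sub_one, pow_succ]
    field_simp
  have hA0 : A ≠ 0 := by
    intro h
    rcases mul_eq_zero.1 (show (n : K) / d * (d : K) ^ p = 0 by rw [← hAα]; simp [h]) with h1 | h1
    · exact hα h1
    · exact pow_ne_zero _ hd0 h1
  clear_value A
  set cnt : HeightOneSpectrum (𝓞 K) → ℕ := fun v =>
    (Associates.mk v.asIdeal).count (Associates.mk (Ideal.span {A})).factors with hcnt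
  have hdvd : ∀ v, p ∣ cnt v := by
    intro v
    obtain ⟨e, he⟩ := hval v
    obtain ⟨s, hs⟩ : ∃ s : ℤ, v.valuation K (d : K) = WithZero.exp s :=
      ⟨WithZero.log (v.valuation K (d : K)), (WithZero.exp_log (by simpa using hd0)).symm⟩
    have h1 := congrArg (v.valuation K) hAα
    rw [map_mul, map_pow, he, hs, ← WithZero.exp_nsmul, ← WithZero.exp_add,
      HeightOneSpectrum.valuation_of_algebraMap, v.intValuation_if_neg hA0] at h1
    have h2 := WithZero.exp_injective h1
    rw [nsmul_eq_mul] at h2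
    exact Int.natCast_dvd_natCast.1 ⟨-(e + s), by push_cast [cnt] at h2 ⊢; linarith⟩
  have hI0 : Ideal.span {A} ≠ 0 := by simpa using hA0
  set J : Ideal (𝓞 K) := ∏ᶠ v : HeightOneSpectrum (𝓞 K), v.asIdeal ^ (cnt v / p) with hJ
  have hJp : J ^ p = Ideal.span {A} := by
    have hfin : (Function.mulSupport fun v : HeightOneSpectrum (𝓞 K) =>
        v.asIdeal ^ (cnt v / p)).Finite := by
      refine (Ideal.finite_factors hI0).subset fun v hv => ?_
      rw [Function.mem_mulSupport] at hv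
      exact (Associates.count_ne_zero_iff_dvd hI0 v.irreducible).1
        fun h0 => hv (by simp [cnt, h0])
    rw [hJ, finprod_pow hfin]
    refine Eq.trans (finprod_congr fun v => ?_) (Ideal.finprod_heightOneSpectrum_factorization hI0)
    rw [← pow_mul, Nat.div_mul_cancel (hdvd v)]
    rfl
  have hJ0 : J ≠ 0 := fun h => hI0 (by rw [← hJp, h, zero_pow hp.ne_zero])
  set J' : (Ideal (𝓞 K))⁰ := ⟨J, mem_nonZeroDivisors_iff_ne_zero.2 hJ0⟩
  by_cases hx : ClassGroup.mk0 J' = 1
  · right
    obtain ⟨b, hb⟩ : ∃ b, J = Ideal.span {b} :=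
      ((ClassGroup.mk0_eq_one_iff J'.2).1 hx).principal
    rw [hb, Ideal.span_singleton_pow, Ideal.span_singleton_eq_span_singleton] at hJp
    obtain ⟨u, hu⟩ := hJp
    have hb0 : (b : K) ≠ 0 := by
      intro h0
      apply hJ0
      rw [hb, Ideal.zero_eq_bot, Ideal.span_singleton_eq_bot]
      exact RingOfIntegers.ext (by simpa using h0)
    refine ⟨u, (b : K) / d, div_ne_zero hb0 hd0, ?_⟩
    have h1 := congrArg (algebraMap (𝓞 K) K) hu
    rw [map_mul, map_pow] at h1
    replace h1 : (b : K) ^ p * ((u : 𝓞 K) : K) = (n : K) / d * (d : K) ^ p := h1.trans hAα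
    rw [div_pow, ← mul_div_assoc, eq_div_iff (pow_ne_zero _ hd0)]
    linear_combination -h1
  · left
    refine ⟨_, hx, ?_, fun a => ?_⟩
    · rw [← map_pow]
      refine (ClassGroup.mk0_eq_one_iff (J' ^ p).2).2 ⟨⟨A, ?_⟩⟩
      rw [SubmonoidClass.coe_pow]
      exact hJp
    · have heA : IsEigen p ((A : 𝓞 K) : K) := hAα ▸ heig.mul (isEigen_pow_p hd0)
      obtain ⟨y, hy⟩ := heA a
      obtain ⟨r, s, hs, rfl⟩ := IsFractionRing.div_surjective (A := 𝓞 K) y
      have hs0 : (s : K) ≠ 0 := IsFractionRing.to_map_ne_zero_of_mem_nonZeroDivisors hs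
      have hmul : sgI p K a A * s ^ p = A ^ ex p a * r ^ p := by
        refine FaithfulSMul.algebraMap_injective (𝓞 K) K ?_
        simp only [map_mul, map_pow]
        rw [show algebraMap (𝓞 K) K (sgI p K a A) = _ from (coe_sgI p K a A).trans hy, div_pow,
          mul_assoc, div_mul_cancel₀ _ (pow_ne_zero _ hs0)]
      have hmap0 : J.map (sgI p K a : 𝓞 K →+* 𝓞 K) ≠ 0 := fun h0 => hJ0
        ((Ideal.map_eq_bot_iff_of_injective (sgI p K a).injective).1 h0)
      have hs' : s ≠ 0 := nonZeroDivisors.ne_zero hs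
      have hr' : r ≠ 0 := by
        rintro rfl
        rw [zero_pow hp.ne_zero, mul_zero, mul_eq_zero, or_iff_left (pow_ne_zero _ hs')] at hmul
        exact hA0 ((sgI p K a).injective (hmul.trans (map_zero _).symm))
      have hid : J.map (sgI p K a : 𝓞 K →+* 𝓞 K) * Ideal.span {s} = J ^ ex p a * Ideal.span {r} := by
        apply normalizedFactors_pow_inj (p := p)
        · exact mul_ne_zero hmap0 (by simpa using hs')
        · exact mul_ne_zero (pow_ne_zero _ hJ0) (by simpa using hr')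
        · rw [mul_pow, mul_pow, ← Ideal.map_pow, ← pow_mul, mul_comm (ex p a), pow_mul, hJp,
            Ideal.map_span, Set.image_singleton, Ideal.span_singleton_pow,
            Ideal.span_singleton_pow, Ideal.span_singleton_pow,
            Ideal.span_singleton_mul_span_singleton, Ideal.span_singleton_mul_span_singleton]
          exact congrArg (fun z => Ideal.span {z}) hmul
      rw [clAct_mk0, ← map_pow, ClassGroup.mk0_eq_mk0_iff]
      exact ⟨s, r, hs', hr', by
        rw [Ideal.coe_mapNonZero, SubmonoidClass.coe_pow, mul_comm, mul_comm (Ideal.span {r})]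
        exact hid⟩

end Fermat.Agent.ExtVanish
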