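import Mathlib
import Fermat.Agent.Density.EulerSum

/-!
Partial zeta functions of ideal classes differ by bounded amounts as `s → 1⁺`.

A function on the mixed space of the shape `norm ^ (-s) * weight`, where `weight` is a hat-function
partition of unity for the action of the units, is slowly varying, so its sums over an ideal
and over the whole ring of integers differ by the index up to `O(1)`.
-/

set_option autoImplicit false
set_option maxSynthPendingDepth 3

open NumberField NumberField.mixedEmbedding NumberField.InfinitePlace Module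
open NumberField.Units NumberField.Units.dirichletUnitTheorem
open scoped nonZeroDivisors Topology
open Fermat.Agent.Density
open scoped Classical

noncomputable section


namespace Fermat.Agent.ExtVanish

/-- The hat function. -/
def tri (t : ℝ) : ℝ := max 0 (1 - |t|)

lemma tri_nonneg (t : ℝ) : 0 ≤ tri t := le_max_left _ _

lemma tri_le_one (t : ℝ) : tri t ≤ 1 :=
  max_le zero_le_one (by linarith [abs_nonneg t])

lemma tri_eq_zero {t : ℝ} (h : 1 ≤ |t|) : tri t = 0 :=
  max_eq_left (by linarith)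

lemma abs_tri_sub_le (a b : ℝ) : |tri a - tri b| ≤ |a - b| := by
  refine (abs_max_sub_max_le_max _ _ _ _).trans (max_le (by simp) ?_)
  rw [sub_sub_sub_cancel_left, abs_sub_comm a b]
  exact abs_abs_sub_abs_le_abs_sub b a

lemma hasSum_tri (t : ℝ) : HasSum (fun k : ℤ => tri (t + k)) 1 := by
  have h0 : ∀ k : ℤ, k ∉ ({-⌊t⌋, -⌊t⌋ - 1} : Finset ℤ) → tri (t + k) = 0 := by
    intro k hk
    simp only [Finset.mem_insert, Finset.mem_singleton, not_or] at hk
    apply tri_eq_zero
    have h1 := Int.floor_le t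
    have h2 := Int.lt_floor_add_one t
    rcases lt_or_gt_of_ne hk.1 with h | h
    · have : k ≤ -⌊t⌋ - 2 := by omega
      have : (k : ℝ) ≤ -(⌊t⌋ : ℝ) - 2 := by exact_mod_cast this
      exact le_abs.2 (Or.inr (by linarith))
    · have : -⌊t⌋ + 1 ≤ k := by omega
      have : -(⌊t⌋ : ℝ) + 1 ≤ k := by exact_mod_cast this
      exact le_abs.2 (Or.inl (by linarith))
  have h : HasSum (fun k : ℤ => tri (t + k))
      (∑ k ∈ ({-⌊t⌋, -⌊t⌋ - 1} : Finset ℤ), tri (t + (k : ℝ))) := hasSum_sum_of_ne_finset_zero h0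
  rw [Finset.sum_pair (by omega)] at h
  have e : tri (t + ((-⌊t⌋ : ℤ) : ℝ)) + tri (t + ((-⌊t⌋ - 1 : ℤ) : ℝ)) = 1 := by
    push_cast
    have h1 := Int.floor_le t
    have h2 := Int.lt_floor_add_one t
    unfold tri
    rw [abs_of_nonneg (by linarith : (0 : ℝ) ≤ t + -(⌊t⌋ : ℝ)),
      abs_of_nonpos (by linarith : t + (-(⌊t⌋ : ℝ) - 1) ≤ 0),
      max_eq_right (by linarith), max_eq_right (by linarith)]
    ring
  rwa [e] at h

/-- Products of `[0,1]`-valued numbers are Lipschitz. -/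
lemma abs_prod_sub_prod_le {ι : Type*} (s : Finset ι) (f g : ι → ℝ)
    (hf : ∀ i, 0 ≤ f i ∧ f i ≤ 1) (hg : ∀ i, 0 ≤ g i ∧ g i ≤ 1) :
    |∏ i ∈ s, f i - ∏ i ∈ s, g i| ≤ ∑ i ∈ s, |f i - g i| := by
  classical
  induction s using Finset.induction with
  | empty => simp
  | @insert j s hj ih =>
    rw [Finset.prod_insert hj, Finset.prod_insert hj, Finset.sum_insert hj]
    have hF : |∏ i ∈ s, f i| ≤ 1 := by
      rw [abs_of_nonneg (Finset.prod_nonneg fun i _ => (hf i).1)]
      exact Finset.prod_le_one (fun i _ => (hf i).1) (fun i _ => (hf i).2)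
    have hG : |g j| ≤ 1 := by rw [abs_of_nonneg (hg j).1]; exact (hg j).2
    calc |f j * ∏ i ∈ s, f i - g j * ∏ i ∈ s, g i|
        = |(f j - g j) * ∏ i ∈ s, f i + g j * (∏ i ∈ s, f i - ∏ i ∈ s, g i)| := by ring_nf
      _ ≤ |(f j - g j) * ∏ i ∈ s, f i| + |g j * (∏ i ∈ s, f i - ∏ i ∈ s, g i)| := abs_add_le _ _
      _ ≤ |f j - g j| * 1 + 1 * ∑ i ∈ s, |f i - g i| := by
          rw [abs_mul, abs_mul]
          gcongr
      _ = _ := by ring

lemma abs_exp_sub_exp_le {a b M : ℝ} (ha : a ≤ M) (hb : b ≤ M) :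
    |Real.exp a - Real.exp b| ≤ Real.exp M * |a - b| := by
  wlog h : b ≤ a generalizing a b
  · rw [abs_sub_comm, abs_sub_comm a b]
    exact this hb ha (le_of_not_ge h)
  rw [abs_of_nonneg (sub_nonneg.2 (Real.exp_le_exp.2 h)), abs_of_nonneg (sub_nonneg.2 h)]
  have h1 : Real.exp b = Real.exp a * Real.exp (b - a) := by
    rw [← Real.exp_add]; ring_nf
  have h2 := Real.add_one_le_exp (b - a)
  have h3 : Real.exp a ≤ Real.exp M := Real.exp_le_exp.2 ha
  rw [h1]
  nlinarith [Real.exp_pos a, Real.exp_pos (b - a)]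

section Zeta

variable {K : Type*} [Field K] [NumberField K]

local notation "𝔼" => mixedSpace K

/-- Coordinates on the log space with respect to the unit lattice. -/
def coord : logSpace K →ₗ[ℝ] (Fin (Units.rank K) → ℝ) :=
  LinearMap.pi fun i => ((basisUnitLattice K).ofZLatticeBasis ℝ (unitLattice K)).coord i

lemma coord_logEmbedding (u : (𝓞 K)ˣ) (i : Fin (Units.rank K)) :
    coord (logEmbedding K (Additive.ofMul u)) i =
      ((basisModTorsion K).repr (Additive.ofMul (QuotientGroup.mk u)) i : ℝ) := by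
  have hmem : logEmbedding K (Additive.ofMul u) ∈ unitLattice K :=
    ⟨Additive.ofMul u, trivial, rfl⟩
  simp only [coord, LinearMap.pi_apply, Basis.coord_apply]
  rw [(basisUnitLattice K).ofZLatticeBasis_repr_apply ℝ (unitLattice K) ⟨_, hmem⟩ i]
  congr 1
  rw [basisUnitLattice, Basis.map_repr, LinearEquiv.trans_apply]
  congr 2
  rw [LinearEquiv.symm_apply_eq]
  apply Subtype.ext
  rw [logEmbeddingEquiv_apply]

/-- The weight: a partition of unity for the units. -/
def weight (x : 𝔼) : ℝ := ∏ i, tri (coord (logMap x) i)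

lemma weight_nonneg (x : 𝔼) : 0 ≤ weight x := Finset.prod_nonneg fun _ _ => tri_nonneg _

lemma weight_le_one (x : 𝔼) : weight x ≤ 1 :=
  Finset.prod_le_one (fun _ _ => tri_nonneg _) (fun _ _ => tri_le_one _)

/-- The summand. -/
def term (s : ℝ) (x : 𝔼) : ℝ := mixedEmbedding.norm x ^ (-s) * weight x

lemma term_zero {s : ℝ} (hs : s ≠ 0) : term s (0 : 𝔼) = 0 := by
  simp [term, Real.zero_rpow (neg_ne_zero.2 hs)]

lemma term_nonneg (s : ℝ) (x : 𝔼) : 0 ≤ term s x :=
  mul_nonneg (Real.rpow_nonneg (mixedEmbedding.norm_nonneg x) _) (weight_nonneg x)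

lemma hasSum_prod_tri {r : ℕ} (t : Fin r → ℝ) :
    HasSum (fun k : Fin r → ℤ => ∏ i, tri (t i + k i)) 1 := by
  induction r with
  | zero =>
    simpa using hasSum_single (α := ℝ) (default : Fin 0 → ℤ) (f := fun _ => (1 : ℝ))
      (fun b hb => absurd (Subsingleton.elim b default) hb)
  | succ r ih =>
    have h1 := hasSum_tri (t 0)
    have h2 := ih (fun i => t i.succ)
    have hs : Summable fun x : ℤ × (Fin r → ℤ) =>
        tri (t 0 + x.1) * ∏ i : Fin r, tri (t i.succ + x.2 i) :=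
      Summable.mul_of_nonneg (f := fun k : ℤ => tri (t 0 + k))
        (g := fun k : Fin r → ℤ => ∏ i, tri (t i.succ + k i)) h1.summable h2.summable
        (fun _ => tri_nonneg _) (fun _ => Finset.prod_nonneg fun _ _ => tri_nonneg _)
    have h := h1.mul h2 hs
    rw [one_mul] at h
    rw [← (Fin.consEquiv fun _ : Fin (r + 1) => ℤ).hasSum_iff]
    refine h.congr_fun fun x => ?_
    simp [Fin.prod_univ_succ, Fin.consEquiv]

/-- Units as torsion times a free part. -/
def unitsEquiv : torsion K × (Fin (Units.rank K) → ℤ) ≃ (𝓞 K)ˣ :=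
  Equiv.ofBijective (fun ζe => ζe.1 * ∏ i, (fundSystem K i) ^ (ζe.2 i))
    ⟨fun a b hab => (exist_unique_eq_mul_prod K _).unique rfl hab,
      fun u => ⟨(exist_unique_eq_mul_prod K u).exists.choose,
        ((exist_unique_eq_mul_prod K u).exists.choose_spec).symm⟩⟩

lemma hasSum_weight_unit_smul {x : 𝔼} (hx : mixedEmbedding.norm x ≠ 0) :
    HasSum (fun u : (𝓞 K)ˣ => weight (u • x)) (torsionOrder K) := by
  rw [← unitsEquiv.hasSum_iff]
  have he : ∀ ζe : torsion K × (Fin (Units.rank K) → ℤ),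
      weight (unitsEquiv ζe • x) = ∏ i, tri (coord (logMap x) i + ζe.2 i) := by
    intro ζe
    unfold weight
    refine Finset.prod_congr rfl fun i _ => ?_
    rw [logMap_unit_smul _ hx, map_add, Pi.add_apply, add_comm, coord_logEmbedding,
      ← fun_eq_repr K ζe.1.2 (x := unitsEquiv ζe) (f := ζe.2) rfl]
  simp only [Function.comp_def, he]
  have h1 : HasSum (fun _ : torsion K => (1 : ℝ)) (torsionOrder K) := by
    let := Fintype.ofFinite (torsion K)
    have h := hasSum_fintype (fun _ : torsion K => (1 : ℝ))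
    simp only [Finset.sum_const, nsmul_eq_mul, mul_one, Finset.card_univ] at h
    rwa [torsionOrder, Nat.card_eq_fintype_card]
  have h2 := hasSum_prod_tri (fun i => coord (logMap x) i)
  have hs : Summable fun x' : torsion K × (Fin (Units.rank K) → ℤ) =>
      (1 : ℝ) * ∏ i, tri (coord (logMap x) i + x'.2 i) :=
    Summable.mul_of_nonneg (f := fun _ : torsion K => (1 : ℝ))
      (g := fun k : Fin (Units.rank K) → ℤ => ∏ i, tri (coord (logMap x) i + k i)) h1.summable
      h2.summable (fun _ => zero_le_one) (fun _ => Finset.prod_nonneg fun _ _ => tri_nonneg _)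
  simpa using h1.mul h2 hs

lemma hasSum_term_unit_smul (s : ℝ) {x : 𝔼} (hx : mixedEmbedding.norm x ≠ 0) :
    HasSum (fun u : (𝓞 K)ˣ => term s (u • x))
      (mixedEmbedding.norm x ^ (-s) * torsionOrder K) := by
  simpa only [term, norm_unit_smul] using
    (hasSum_weight_unit_smul hx).mul_left (mixedEmbedding.norm x ^ (-s))

lemma normAtPlace_le_norm (w : InfinitePlace K) (x : 𝔼) : normAtPlace w x ≤ ‖x‖ := by
  classical
  rw [norm_eq_sup'_normAtPlace]
  exact Finset.le_sup' (fun w => normAtPlace w x) (Finset.mem_univ w)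

lemma abs_normAtPlace_sub_le (w : InfinitePlace K) (x y : 𝔼) :
    |normAtPlace w x - normAtPlace w y| ≤ ‖x - y‖ := by
  rw [abs_sub_le_iff]
  constructor
  · have := normAtPlace_add_le w (x - y) y
    rw [sub_add_cancel] at this
    linarith [normAtPlace_le_norm w (x - y)]
  · have := normAtPlace_add_le w (y - x) x
    rw [sub_add_cancel] at this
    have h2 := normAtPlace_le_norm w (y - x)
    rw [norm_sub_rev] at h2
    linarith

lemma log_norm_eq {x : 𝔼} (hx : ∀ w, normAtPlace w x ≠ 0) :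
    Real.log (mixedEmbedding.norm x) = ∑ w, (mult w : ℝ) * Real.log (normAtPlace w x) := by
  rw [mixedEmbedding.norm_apply, Real.log_prod (fun w _ => pow_ne_zero _ (hx w))]
  simp [Real.log_pow]

/-- On the support of the weight all places have comparable size. -/
lemma exists_cone_bound : ∃ δ : ℝ, 0 < δ ∧ δ ≤ 1 ∧ ∀ x : 𝔼, mixedEmbedding.norm x ≠ 0 →
    weight x ≠ 0 → ∀ w, δ * ‖x‖ ≤ normAtPlace w x := by
  classical
  -- a bound on `logMap`
  let e : logSpace K ≃ₗ[ℝ] (Fin (Units.rank K) → ℝ) :=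
    ((basisUnitLattice K).ofZLatticeBasis ℝ (unitLattice K)).equivFun
  obtain ⟨M, hM0, hM⟩ : ∃ M : ℝ, 0 ≤ M ∧ ∀ x : 𝔼, weight x ≠ 0 → ‖logMap x‖ ≤ M := by
    let T := LinearMap.toContinuousLinearMap e.symm.toLinearMap
    refine ⟨‖T‖, norm_nonneg _, fun x hx => ?_⟩
    have h1 : ∀ i, ‖e (logMap x) i‖ ≤ 1 := by
      intro i
      rw [Real.norm_eq_abs]
      by_contra h
      refine hx (Finset.prod_eq_zero (Finset.mem_univ i) (tri_eq_zero ?_))
      have he : coord (logMap x) i = e (logMap x) i := rfl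
      rw [he]
      exact (not_le.1 h).le
    have h2 := T.le_opNorm (e (logMap x))
    have h3 : ‖e (logMap x)‖ ≤ 1 := (pi_norm_le_iff_of_nonneg zero_le_one).2 h1
    simp only [T, LinearMap.coe_toContinuousLinearMap', LinearEquiv.coe_coe,
      e.symm_apply_apply] at h2
    exact h2.trans (by nlinarith [norm_nonneg T])
  set N : ℕ := Fintype.card (InfinitePlace K)
  refine ⟨Real.exp (-(2 * (2 * N * M + M))), Real.exp_pos _,
    Real.exp_le_one_iff.2 (by have : (0:ℝ) ≤ N := Nat.cast_nonneg _; nlinarith), fun x hx hw w => ?_⟩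
  have hne := mixedEmbedding.norm_ne_zero_iff.1 hx
  set L := Real.log (mixedEmbedding.norm x) * (finrank ℚ K : ℝ)⁻¹ with hL
  have hoff : ∀ v : InfinitePlace K, v ≠ w₀ →
      |(mult v : ℝ) * (Real.log (normAtPlace v x) - L)| ≤ M := by
    intro v hv
    have := norm_le_pi_norm (logMap x) ⟨v, hv⟩
    rw [logMap_apply, Real.norm_eq_abs] at this
    exact this.trans (hM x hw)
  have hsum : ∑ v, (mult v : ℝ) * (Real.log (normAtPlace v x) - L) = 0 := by
    simp only [mul_sub, Finset.sum_sub_distrib, ← Finset.sum_mul, ← log_norm_eq hne]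
    rw [← Nat.cast_sum, sum_mult_eq, hL, mul_comm (Real.log _), ← mul_assoc,
      mul_inv_cancel₀ (Nat.cast_ne_zero.2 finrank_pos.ne'), one_mul, sub_self]
  have hall : ∀ v : InfinitePlace K, |Real.log (normAtPlace v x) - L| ≤ 2 * N * M + M := by
    intro v
    have hN : (0 : ℝ) ≤ N := Nat.cast_nonneg _
    have h1 : (1 : ℝ) ≤ mult v := by exact_mod_cast mult_pos (w := v)
    have habs : |(mult v : ℝ) * (Real.log (normAtPlace v x) - L)| ≤ 2 * N * M + M := by
      by_cases hv : v = w₀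
      · rw [← Finset.add_sum_erase _ _ (Finset.mem_univ v), add_eq_zero_iff_eq_neg] at hsum
        rw [hsum, abs_neg]
        refine (Finset.abs_sum_le_sum_abs _ _).trans ?_
        refine (Finset.sum_le_card_nsmul _ _ M fun y hy => hoff y
          (hv ▸ Finset.ne_of_mem_erase hy)).trans ?_
        rw [nsmul_eq_mul]
        have hc : ((Finset.univ.erase v).card : ℝ) ≤ N := by
          exact_mod_cast (Finset.card_le_univ _)
        nlinarith
      · exact (hoff v hv).trans (by nlinarith)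
    rw [abs_mul, abs_of_nonneg (by linarith : (0 : ℝ) ≤ mult v)] at habs
    nlinarith [abs_nonneg (Real.log (normAtPlace v x) - L)]
  obtain ⟨v, -, hv⟩ := Finset.exists_mem_eq_sup' Finset.univ_nonempty fun w => normAtPlace w x
  rw [norm_eq_sup'_normAtPlace, hv]
  have hposv : 0 < normAtPlace v x := lt_of_le_of_ne (normAtPlace_nonneg _ _) (hne v).symm
  have hposw : 0 < normAtPlace w x := lt_of_le_of_ne (normAtPlace_nonneg _ _) (hne w).symm
  calc _ = Real.exp (-(2 * (2 * N * M + M)) + Real.log (normAtPlace v x)) := by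
        rw [Real.exp_add, Real.exp_log hposv]
    _ ≤ Real.exp (Real.log (normAtPlace w x)) := by
        refine Real.exp_le_exp.2 ?_
        linarith [(abs_sub_le_iff.1 (hall v)).1, (abs_sub_le_iff.1 (hall w)).2]
    _ = normAtPlace w x := Real.exp_log hposw

lemma finrank_pos' : (0 : ℝ) < finrank ℚ K := Nat.cast_pos.2 finrank_pos

lemma rpow_log_norm_le {x : 𝔼} {c : ℝ} (hc : 0 < c) (hx0 : x ≠ 0)
    (hcone : ∀ w, c * ‖x‖ ≤ normAtPlace w x) :
    (∀ w, 0 < normAtPlace w x) ∧
      (finrank ℚ K : ℝ) * Real.log (c * ‖x‖) ≤ Real.log (mixedEmbedding.norm x) := by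
  have hp : 0 < c * ‖x‖ := mul_pos hc (norm_pos_iff.2 hx0)
  have hpos : ∀ w, 0 < normAtPlace w x := fun w => hp.trans_le (hcone w)
  refine ⟨hpos, ?_⟩
  rw [log_norm_eq fun w => (hpos w).ne', ← sum_mult_eq, Nat.cast_sum, Finset.sum_mul]
  exact Finset.sum_le_sum fun w _ =>
    mul_le_mul_of_nonneg_left (Real.log_le_log hp (hcone w)) (Nat.cast_nonneg _)

/-- Global bound for the summand. -/
lemma exists_term_le : ∃ C : ℝ, 0 < C ∧ ∀ s ∈ Set.Ioc (1 : ℝ) 2, ∀ x : 𝔼,
    term s x ≤ (C * ‖x‖) ^ (-(finrank ℚ K : ℝ) * s) := by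
  obtain ⟨δ, hδ0, -, hδ⟩ := exists_cone_bound (K := K)
  refine ⟨δ, hδ0, fun s hs x => ?_⟩
  have h0 : (0 : ℝ) ≤ (δ * ‖x‖) ^ (-(finrank ℚ K : ℝ) * s) :=
    Real.rpow_nonneg (by positivity) _
  by_cases hx : mixedEmbedding.norm x = 0
  · rw [term, hx, Real.zero_rpow (by linarith [hs.1]), zero_mul]; exact h0
  by_cases hw : weight x = 0
  · rw [term, hw, mul_zero]; exact h0
  have hx0 : x ≠ 0 := fun h => hx (by rw [h, map_zero])
  obtain ⟨-, hl⟩ := rpow_log_norm_le hδ0 hx0 (hδ x hx hw)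
  refine (mul_le_of_le_one_right (Real.rpow_nonneg (mixedEmbedding.norm_nonneg x) _)
    (weight_le_one x)).trans ?_
  rw [Real.rpow_def_of_pos (lt_of_le_of_ne (mixedEmbedding.norm_nonneg x) (Ne.symm hx)),
    Real.rpow_def_of_pos (mul_pos hδ0 (norm_pos_iff.2 hx0))]
  refine Real.exp_le_exp.2 ?_
  have : 0 ≤ s := by linarith [hs.1]
  nlinarith [mul_le_mul_of_nonneg_left hl this]

/-- The summand varies slowly. -/
lemma exists_term_sub_le (V : ℝ) : ∃ C R : ℝ, ∀ s ∈ Set.Ioc (1 : ℝ) 2, ∀ x v : 𝔼,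
    ‖v‖ ≤ V → R ≤ ‖x‖ → |term s (x + v) - term s x| ≤ C * ‖x‖ ^ (-((finrank ℚ K : ℝ) + 1)) := by
  obtain ⟨δ, hδ0, hδ1, hδ⟩ := exists_cone_bound (K := K)
  let T : logSpace K →L[ℝ] (Fin (Units.rank K) → ℝ) := LinearMap.toContinuousLinearMap coord
  set n : ℝ := (finrank ℚ K : ℝ) with hn
  have hn1 : 1 ≤ n := by rw [hn]; exact_mod_cast (finrank_pos : 0 < finrank ℚ K)
  set V' := max V 0 + 1 with hV'
  set c := δ / 2 with hc
  have hc0 : 0 < c := by positivity
  set D : ℝ := V' / c with hD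
  have hD0 : 0 ≤ D := by positivity
  set A : ℝ := (Units.rank K : ℝ) * (‖T‖ * (4 * D)) + 2 * n * D with hA
  refine ⟨A * c ^ (-n), max (8 * V' / δ) (2 / c), fun s hs x v hv hR => ?_⟩
  have hV0 : 0 < V' := by positivity
  have hR1 : 8 * V' / δ ≤ ‖x‖ := (le_max_left _ _).trans hR
  have hR2 : 2 / c ≤ ‖x‖ := (le_max_right _ _).trans hR
  rw [div_le_iff₀ hδ0] at hR1
  rw [div_le_iff₀ hc0] at hR2
  have hx0 : 0 < ‖x‖ := by
    rcases (norm_nonneg x).lt_or_eq with h | h
    · exact h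
    · rw [← h] at hR2; linarith
  have hx0' : x ≠ 0 := norm_pos_iff.1 hx0
  have hvV : ‖v‖ ≤ V' := by linarith [le_max_left V 0]
  have hA0 : 0 ≤ A * c ^ (-n) * ‖x‖ ^ (-(n + 1)) := by positivity
  have hzero : ∀ y : 𝔼, (mixedEmbedding.norm y = 0 ∨ weight y = 0) → term s y = 0 := by
    rintro y (hy | hy)
    · rw [term, hy, Real.zero_rpow (by linarith [hs.1]), zero_mul]
    · rw [term, hy, mul_zero]
  by_cases hboth : (mixedEmbedding.norm x = 0 ∨ weight x = 0) ∧
      (mixedEmbedding.norm (x + v) = 0 ∨ weight (x + v) = 0)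
  · rw [hzero x hboth.1, hzero (x + v) hboth.2]
    simpa using hA0
  -- both points lie in a slightly larger cone
  have hclose : ∀ w, |normAtPlace w (x + v) - normAtPlace w x| ≤ V' := fun w =>
    (abs_normAtPlace_sub_le w _ _).trans (by simpa using hvV)
  have hnv : ‖x‖ - V' ≤ ‖x + v‖ := by
    have := norm_sub_le (x + v) v
    rw [add_sub_cancel_right] at this
    linarith
  have hcone : (∀ w, c * ‖x‖ ≤ normAtPlace w x) ∧ (∀ w, c * ‖x‖ ≤ normAtPlace w (x + v)) := by
    rw [not_and_or, not_or, not_or] at hboth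
    rcases hboth with h | h
    · have := hδ x h.1 h.2
      refine ⟨fun w => ?_, fun w => ?_⟩ <;>
      · rw [hc]; nlinarith [this w, (abs_sub_le_iff.1 (hclose w)).2]
    · have := hδ (x + v) h.1 h.2
      refine ⟨fun w => ?_, fun w => ?_⟩ <;>
      · rw [hc]; nlinarith [this w, (abs_sub_le_iff.1 (hclose w)).1,
          mul_le_mul_of_nonneg_left hnv hδ0.le]
  have hcx : 0 < c * ‖x‖ := mul_pos hc0 hx0
  have hpx : ∀ w, 0 < normAtPlace w x := fun w => hcx.trans_le (hcone.1 w)
  have hpy : ∀ w, 0 < normAtPlace w (x + v) := fun w => hcx.trans_le (hcone.2 w)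
  set ε : ℝ := D / ‖x‖ with hε
  have hε0 : 0 ≤ ε := by positivity
  have hlog : ∀ w, |Real.log (normAtPlace w (x + v)) - Real.log (normAtPlace w x)| ≤ ε := by
    intro w
    have hh := (abs_sub_le_iff.1 (hclose w))
    have e : ε = V' / (c * ‖x‖) := by rw [hε, hD, div_div]
    have key : ∀ a b : ℝ, c * ‖x‖ ≤ b → 0 < a → a - b ≤ V' →
        Real.log a - Real.log b ≤ ε := by
      intro a b hb ha hab
      have hb0 : 0 < b := hcx.trans_le hb
      rw [← Real.log_div ha.ne' hb0.ne', e]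
      refine (Real.log_le_sub_one_of_pos (div_pos ha hb0)).trans ?_
      rw [div_sub_one hb0.ne', div_le_div_iff₀ hb0 hcx]
      nlinarith
    exact abs_sub_le_iff.2 ⟨key _ _ (hcone.1 w) (hpy w) hh.1, key _ _ (hcone.2 w) (hpx w) hh.2⟩
  set Lx := Real.log (mixedEmbedding.norm x) with hLx
  set Ly := Real.log (mixedEmbedding.norm (x + v)) with hLy
  have hnormlog : |Ly - Lx| ≤ n * ε := by
    rw [hLx, hLy, log_norm_eq fun w => (hpy w).ne', log_norm_eq fun w => (hpx w).ne',
      ← Finset.sum_sub_distrib, hn, ← sum_mult_eq, Nat.cast_sum, Finset.sum_mul]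
    refine (Finset.abs_sum_le_sum_abs _ _).trans (Finset.sum_le_sum fun w _ => ?_)
    rw [← mul_sub, abs_mul, Nat.abs_cast]
    exact mul_le_mul_of_nonneg_left (hlog w) (Nat.cast_nonneg _)
  have hmap : ‖logMap (x + v) - logMap x‖ ≤ 4 * ε := by
    refine (pi_norm_le_iff_of_nonneg (by positivity)).2 fun w => ?_
    rw [Pi.sub_apply, logMap_apply, logMap_apply, ← hLx, ← hLy, Real.norm_eq_abs, ← mul_sub,
      abs_mul, Nat.abs_cast]
    have h2 : (mult w.1 : ℝ) ≤ 2 := by
      rw [mult]; split_ifs <;> norm_num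
    have h3 : |Ly * n⁻¹ - Lx * n⁻¹| ≤ ε := by
      rw [← sub_mul, abs_mul, abs_of_pos (inv_pos.2 (by linarith : (0:ℝ) < n)),
        ← div_eq_mul_inv, div_le_iff₀ (by linarith : (0:ℝ) < n)]
      linarith
    have h4 : |(Real.log (normAtPlace w.1 (x + v)) - Ly * n⁻¹) -
        (Real.log (normAtPlace w.1 x) - Lx * n⁻¹)| ≤ 2 * ε := by
      have := abs_sub (Real.log (normAtPlace w.1 (x + v)) - Real.log (normAtPlace w.1 x))
        (Ly * n⁻¹ - Lx * n⁻¹)
      rw [show ∀ a b c d : ℝ, (a - b) - (c - d) = (a - c) - (b - d) from fun _ _ _ _ => by ring]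
      linarith [hlog w.1]
    calc _ ≤ (2 : ℝ) * (2 * ε) :=
          mul_le_mul h2 h4 (abs_nonneg _) (by norm_num)
      _ = 4 * ε := by ring
  have hweight : |weight (x + v) - weight x| ≤ (Units.rank K : ℝ) * (‖T‖ * (4 * ε)) := by
    refine (abs_prod_sub_prod_le _ _ _ (fun i => ⟨tri_nonneg _, tri_le_one _⟩)
      (fun i => ⟨tri_nonneg _, tri_le_one _⟩)).trans ?_
    refine (Finset.sum_le_card_nsmul _ _ (‖T‖ * (4 * ε)) fun i _ => ?_).trans (by simp)
    refine (abs_tri_sub_le _ _).trans ?_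
    rw [← Pi.sub_apply, ← map_sub, ← Real.norm_eq_abs]
    refine (norm_le_pi_norm _ i).trans ?_
    exact (T.le_opNorm _).trans (mul_le_mul_of_nonneg_left hmap (norm_nonneg _))
  -- lower bound for the logarithm of the norm
  have hlc : 0 ≤ Real.log (c * ‖x‖) := Real.log_nonneg (by linarith [mul_comm c ‖x‖])
  have low : ∀ y : 𝔼, (∀ w, c * ‖x‖ ≤ normAtPlace w y) →
      -s * Real.log (mixedEmbedding.norm y) ≤ -n * Real.log (c * ‖x‖) := by
    intro y hy
    rw [log_norm_eq fun w => (hcx.trans_le (hy w)).ne']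
    have h1 : n * Real.log (c * ‖x‖) ≤ ∑ w, (mult w : ℝ) * Real.log (normAtPlace w y) := by
      rw [hn, ← sum_mult_eq, Nat.cast_sum, Finset.sum_mul]
      exact Finset.sum_le_sum fun w _ =>
        mul_le_mul_of_nonneg_left (Real.log_le_log hcx (hy w)) (Nat.cast_nonneg _)
    have hs1 := hs.1
    nlinarith [mul_le_mul_of_nonneg_left h1 (by linarith : (0 : ℝ) ≤ s),
      mul_nonneg (mul_nonneg (by linarith : (0 : ℝ) ≤ n) hlc) (by linarith : (0 : ℝ) ≤ s - 1)]
  have hNx : 0 < mixedEmbedding.norm x := by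
    rw [mixedEmbedding.norm_apply]; exact Finset.prod_pos fun w _ => pow_pos (hpx w) _
  have hNy : 0 < mixedEmbedding.norm (x + v) := by
    rw [mixedEmbedding.norm_apply]; exact Finset.prod_pos fun w _ => pow_pos (hpy w) _
  set E := Real.exp (-n * Real.log (c * ‖x‖)) with hE
  have hexp : |mixedEmbedding.norm (x + v) ^ (-s) - mixedEmbedding.norm x ^ (-s)| ≤
      E * (2 * n * ε) := by
    rw [Real.rpow_def_of_pos hNy, Real.rpow_def_of_pos hNx]
    refine (abs_exp_sub_exp_le (M := -n * Real.log (c * ‖x‖))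
      (by have := low _ hcone.2; linarith) (by have := low _ hcone.1; linarith)).trans ?_
    refine mul_le_mul_of_nonneg_left ?_ (Real.exp_pos _).le
    rw [← hLy, ← hLx, ← sub_mul, abs_mul, abs_neg, abs_of_pos (by linarith [hs.1] : 0 < s)]
    nlinarith [abs_nonneg (Ly - Lx), hs.2, hnormlog]
  have hexp2 : mixedEmbedding.norm x ^ (-s) ≤ E := by
    rw [Real.rpow_def_of_pos hNx]
    exact Real.exp_le_exp.2 (by have := low _ hcone.1; linarith)
  have htot : |term s (x + v) - term s x| ≤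
      E * ((Units.rank K : ℝ) * (‖T‖ * (4 * ε)) + 2 * n * ε) := by
    have e : term s (x + v) - term s x = mixedEmbedding.norm x ^ (-s) *
        (weight (x + v) - weight x) + weight (x + v) *
        (mixedEmbedding.norm (x + v) ^ (-s) - mixedEmbedding.norm x ^ (-s)) := by
      simp only [term]; ring
    rw [e]
    refine (abs_add_le _ _).trans ?_
    rw [abs_mul, abs_mul, abs_of_nonneg (Real.rpow_nonneg hNx.le _),
      abs_of_nonneg (weight_nonneg _), mul_add]
    refine add_le_add (mul_le_mul hexp2 hweight (abs_nonneg _) (Real.exp_pos _).le) ?_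
    exact (mul_le_of_le_one_left (abs_nonneg _) (weight_le_one _)).trans hexp
  refine htot.trans (le_of_eq ?_)
  have hEe : E = c ^ (-n) * ‖x‖ ^ (-n) := by
    rw [hE, ← Real.mul_rpow hc0.le (norm_nonneg x), Real.rpow_def_of_pos hcx]
    ring_nf
  rw [hEe, hA, hε, neg_add, Real.rpow_add hx0, Real.rpow_neg_one]
  ring

/-- The integral points. -/
abbrev pt (a : 𝓞 K) : 𝔼 := mixedEmbedding K (a : K)

lemma pt_injective : Function.Injective (pt (K := K)) :=
  (mixedEmbedding_injective K).comp RingOfIntegers.coe_injective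

/-- The integral points as elements of the integer lattice. -/
def ptEquiv : 𝓞 K ≃ mixedEmbedding.integerLattice K :=
  Equiv.ofBijective (fun a => ⟨pt a, a, rfl⟩)
    ⟨fun _ _ h => pt_injective (congrArg Subtype.val h),
      fun ⟨_, a, ha⟩ => ⟨a, Subtype.ext ha⟩⟩

lemma finrank_integerLattice :
    finrank ℤ (mixedEmbedding.integerLattice K) = finrank ℚ K := by
  rw [ZLattice.rank ℝ, mixedEmbedding.finrank]

lemma summable_norm_pt {r : ℝ} (hr : r < -(finrank ℚ K : ℝ)) :
    Summable fun a : 𝓞 K => ‖pt a‖ ^ r := by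
  have h := ZLattice.summable_norm_rpow (mixedEmbedding.integerLattice K) r
    (by rwa [finrank_integerLattice])
  exact (ptEquiv.summable_iff.2 h : _)

lemma summable_term {s : ℝ} (hs : s ∈ Set.Ioc (1 : ℝ) 2) :
    Summable fun a : 𝓞 K => term s (pt a) := by
  obtain ⟨C, hC, hle⟩ := exists_term_le (K := K)
  refine Summable.of_nonneg_of_le (fun a => term_nonneg _ _) (fun a => hle s hs _) ?_
  have hr : -(finrank ℚ K : ℝ) * s < -(finrank ℚ K : ℝ) := by
    nlinarith [finrank_pos' (K := K), hs.1]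
  simpa [Real.mul_rpow hC.le (norm_nonneg _)] using (summable_norm_pt hr).mul_left
    (C ^ (-(finrank ℚ K : ℝ) * s))

lemma finite_norm_pt_le (R : ℝ) : {a : 𝓞 K | ‖pt a‖ ≤ R}.Finite := by
  have h : ((mixedEmbedding.integerLattice K : Set 𝔼) ∩ Metric.closedBall 0 R).Finite := by
    have hc : IsClosed (mixedEmbedding.integerLattice K : Set 𝔼) :=
      @AddSubgroup.isClosed_of_discrete _ _ _ _ _
        (mixedEmbedding.integerLattice K).toAddSubgroup
        (inferInstanceAs (DiscreteTopology (mixedEmbedding.integerLattice K)))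
    have : DiscreteTopology ↥(mixedEmbedding.integerLattice K : Set 𝔼) :=
      inferInstanceAs (DiscreteTopology (mixedEmbedding.integerLattice K))
    rw [Set.inter_comm]
    exact Metric.finite_isBounded_inter_isClosed DiscreteTopology.isDiscrete
      Metric.isBounded_closedBall hc
  refine (h.preimage pt_injective.injOn).subset fun a ha => ?_
  exact ⟨⟨a, rfl⟩, by simpa using ha⟩

/-- The sum over a subset of the integers. -/
def latticeSum (b : Ideal (𝓞 K)) (s : ℝ) : ℝ := ∑' a : b, term s (pt (a : 𝓞 K))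

/-- The shifted sums differ from the original ones by a bounded amount. -/
lemma exists_shift_bound (r : 𝓞 K) : ∃ B : ℝ, ∀ s ∈ Set.Ioc (1 : ℝ) 2, ∀ b : Ideal (𝓞 K),
    |(∑' a : b, term s (pt (r + (a : 𝓞 K)))) - ∑' a : b, term s (pt (a : 𝓞 K))| ≤ B := by
  classical
  obtain ⟨C0, hC0, hle⟩ := exists_term_le (K := K)
  obtain ⟨C, R, hsub⟩ := exists_term_sub_le (K := K) ‖pt r‖
  set n : ℝ := (finrank ℚ K : ℝ) with hn
  set F := (finite_norm_pt_le (K := K) R).toFinset with hF
  let U : 𝓞 K → ℝ := fun a =>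
    max ((C0 * ‖pt a‖) ^ (-n * 1)) ((C0 * ‖pt a‖) ^ (-n * 2))
  have hU : ∀ a : 𝓞 K, ∀ s ∈ Set.Ioc (1 : ℝ) 2, term s (pt a) ≤ U a := by
    intro a s hs
    refine (hle s hs _).trans ?_
    rcases eq_or_lt_of_le (by positivity : 0 ≤ C0 * ‖pt a‖) with h | h
    · rw [← h, Real.zero_rpow (by nlinarith [finrank_pos' (K := K), hs.1])]
      exact le_max_of_le_left (Real.rpow_nonneg h.le _)
    rcases le_total 1 (C0 * ‖pt a‖) with h1 | h1
    · exact le_max_of_le_left (Real.rpow_le_rpow_of_exponent_le h1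
        (by nlinarith [finrank_pos' (K := K), hs.1]))
    · exact le_max_of_le_right (Real.rpow_le_rpow_of_exponent_ge h h1
        (by nlinarith [finrank_pos' (K := K), hs.2]))
  have hU0 : ∀ a, 0 ≤ U a := fun a => le_max_of_le_left (Real.rpow_nonneg (by positivity) _)
  let G : 𝓞 K → ℝ := fun a =>
    (if a ∈ F then U (r + a) + U a else 0) + max C 0 * ‖pt a‖ ^ (-(n + 1))
  have hG : Summable G := by
    refine Summable.add (summable_of_ne_finset_zero (s := F) fun a ha => if_neg ha) ?_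
    exact (summable_norm_pt (by rw [hn]; linarith)).mul_left _
  have hG0 : ∀ a, 0 ≤ G a := by
    intro a
    refine add_nonneg ?_ (by positivity)
    split_ifs
    · exact add_nonneg (hU0 _) (hU0 _)
    · exact le_rfl
  refine ⟨∑' a, G a, fun s hs b => ?_⟩
  have hpw : ∀ a : 𝓞 K, |term s (pt (r + a)) - term s (pt a)| ≤ G a := by
    intro a
    have h2 : 0 ≤ max C 0 * ‖pt a‖ ^ (-(n + 1)) := by positivity
    by_cases ha : a ∈ F
    · simp only [G, if_pos ha]
      rw [abs_sub_le_iff]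
      constructor <;> linarith [hU (r + a) s hs, hU a s hs, term_nonneg s (pt a),
        term_nonneg s (pt (r + a)), hU0 a, hU0 (r + a)]
    · simp only [G, if_neg ha, zero_add]
      have hR : R ≤ ‖pt a‖ := by
        by_contra h
        exact ha (by rw [hF, Set.Finite.mem_toFinset]; exact (not_le.1 h).le)
      have h3 := hsub s hs (pt a) (pt r) le_rfl hR
      have he : pt (r + a) = pt a + pt r := by simp [pt, add_comm]
      rw [he]
      exact h3.trans (mul_le_mul_of_nonneg_right (le_max_left _ _) (by positivity))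
  have hsum := summable_term (K := K) hs
  have hs1 : Summable fun a : b => term s (pt (r + (a : 𝓞 K))) :=
    hsum.comp_injective (i := fun a : b => r + (a : 𝓞 K))
      (fun _ _ h => Subtype.ext (add_left_cancel h))
  have hs2 : Summable fun a : b => term s (pt (a : 𝓞 K)) :=
    hsum.comp_injective Subtype.val_injective
  rw [← hs1.tsum_sub hs2, ← Real.norm_eq_abs]
  refine (norm_tsum_le_tsum_norm (hs1.sub hs2).norm).trans ?_
  refine le_trans (Summable.tsum_le_tsum (g := fun a : b => G a) (fun a => hpw a)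
    (hs1.sub hs2).norm (hG.comp_injective Subtype.val_injective)) ?_
  exact tsum_comp_le_tsum_of_inj hG hG0 Subtype.val_injective

/-- The sum over an ideal, multiplied by the index, is the sum over the integers up to `O(1)`. -/
lemma exists_latticeSum_bound (b : Ideal (𝓞 K)) (hb : b ≠ ⊥) :
    ∃ B : ℝ, ∀ s ∈ Set.Ioc (1 : ℝ) 2,
      |(Ideal.absNorm b : ℝ) * latticeSum b s - ∑' a : 𝓞 K, term s (pt a)| ≤ B := by
  classical
  have : Finite (𝓞 K ⧸ b) := Ideal.finiteQuotientOfFreeOfNeBot b hb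
  have : Fintype (𝓞 K ⧸ b) := Fintype.ofFinite _
  choose B hB using fun q : 𝓞 K ⧸ b => exists_shift_bound (K := K) q.out
  refine ⟨∑ q, B q, fun s hs => ?_⟩
  let e : (𝓞 K ⧸ b) × b ≃ 𝓞 K :=
    { toFun := fun x => x.1.out + (x.2 : 𝓞 K)
      invFun := fun a => (Ideal.Quotient.mk b a,
        ⟨a - (Ideal.Quotient.mk b a).out, by
          rw [← Ideal.Quotient.eq_zero_iff_mem, map_sub, Ideal.Quotient.mk_out, sub_self]⟩)
      left_inv := fun x => by
        have h1 : Ideal.Quotient.mk b (x.1.out + (x.2 : 𝓞 K)) = x.1 := by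
          rw [map_add, Ideal.Quotient.mk_out, Ideal.Quotient.eq_zero_iff_mem.2 x.2.2, add_zero]
        refine Prod.ext h1 (Subtype.ext ?_)
        simp [h1]
      right_inv := fun a => by simp }
  have hsum := summable_term (K := K) hs
  have hs' : Summable fun x => term s (pt (e x)) :=
    (e.summable_iff (f := fun a => term s (pt a))).2 hsum
  rw [← e.tsum_eq, hs'.tsum_prod, tsum_fintype]
  have hN : (Ideal.absNorm b : ℝ) * latticeSum b s = ∑ _q : 𝓞 K ⧸ b, latticeSum b s := by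
    rw [Finset.sum_const, nsmul_eq_mul, Ideal.absNorm_apply, Submodule.cardQuot_apply,
      Nat.card_eq_fintype_card]
    rfl
  rw [hN, ← Finset.sum_sub_distrib]
  refine (Finset.abs_sum_le_sum_abs _ _).trans (Finset.sum_le_sum fun q _ => ?_)
  rw [abs_sub_comm]
  exact hB q s hs b

/-- The partial zeta function of an ideal class. -/
def classSum (C : ClassGroup (𝓞 K)) (s : ℝ) : ℝ :=
  ∑' I : {I : (Ideal (𝓞 K))⁰ // ClassGroup.mk0 I = C},
    (Ideal.absNorm ((I.1 : Ideal (𝓞 K))) : ℝ) ^ (-s)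

lemma classSum_aux (b : (Ideal (𝓞 K))⁰) {s : ℝ} (hs : s ∈ Set.Ioc (1 : ℝ) 2) :
    Summable (fun I : {I : (Ideal (𝓞 K))⁰ // ClassGroup.mk0 I = (ClassGroup.mk0 b)⁻¹} =>
      (Ideal.absNorm ((I.1 : Ideal (𝓞 K))) : ℝ) ^ (-s)) ∧
    latticeSum (b : Ideal (𝓞 K)) s = torsionOrder K *
      ((Ideal.absNorm (b : Ideal (𝓞 K)) : ℝ) ^ (-s) * classSum (ClassGroup.mk0 b)⁻¹ s) := by
  classical
  let J := {I : (Ideal (𝓞 K))⁰ // ClassGroup.mk0 I = (ClassGroup.mk0 b)⁻¹}
  have hp : ∀ I : J, ∃ g : 𝓞 K, (I.1 : Ideal (𝓞 K)) * b = Ideal.span {g} := by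
    intro I
    have h : ClassGroup.mk0 (I.1 * b) = 1 := by rw [map_mul, I.2, inv_mul_cancel]
    obtain ⟨g, hg⟩ := (ClassGroup.mk0_eq_one_iff (I.1 * b).2).1 h
    exact ⟨g, hg⟩
  choose g hg using hp
  have hg0 : ∀ I, g I ≠ 0 := by
    intro I h
    have h1 := hg I
    rw [h, Ideal.span_singleton_zero] at h1
    exact (I.1 * b).2 |> mem_nonZeroDivisors_iff_ne_zero.1 |> fun hh => hh h1
  let φ : J × (𝓞 K)ˣ → {a : (b : Ideal (𝓞 K)) // (a : 𝓞 K) ≠ 0} := fun x =>
    ⟨⟨x.2 * g x.1, Ideal.mul_mem_left _ _ (by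
      have : g x.1 ∈ Ideal.span {g x.1} := Ideal.mem_span_singleton_self _
      rw [← hg x.1] at this
      exact (Ideal.mul_le_inf this).2)⟩, mul_ne_zero (Units.ne_zero _) (hg0 _)⟩
  have hφ : Function.Bijective φ := by
    constructor
    · rintro ⟨I, u⟩ ⟨I', u'⟩ h
      have h' : (u : 𝓞 K) * g I = u' * g I' := congrArg (fun a => (a.1 : 𝓞 K)) h
      have hII : I = I' := by
        have h1 : Ideal.span {g I} = Ideal.span {g I'} := by
          rw [← Ideal.span_singleton_mul_left_unit u.isUnit, h',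
            Ideal.span_singleton_mul_left_unit u'.isUnit]
        rw [← hg, ← hg] at h1
        exact Subtype.ext (Subtype.ext (mul_right_cancel₀
          (mem_nonZeroDivisors_iff_ne_zero.1 b.2) h1))
      subst hII
      exact Prod.ext rfl (Units.ext (mul_right_cancel₀ (hg0 I) h'))
    · rintro ⟨⟨a, ha⟩, ha0⟩
      obtain ⟨I, hI⟩ := Ideal.dvd_iff_le.2 ((Ideal.span_singleton_le_iff_mem _).2 ha)
      have hI0 : I ∈ (Ideal (𝓞 K))⁰ := mem_nonZeroDivisors_iff_ne_zero.2 (by
        rintro rfl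
        rw [mul_zero] at hI
        exact ha0 (Ideal.span_singleton_eq_bot.1 hI))
      have hcl : ClassGroup.mk0 ⟨I, hI0⟩ = (ClassGroup.mk0 b)⁻¹ := by
        rw [eq_inv_iff_mul_eq_one, ← map_mul]
        exact (ClassGroup.mk0_eq_one_iff _).2 ⟨a, by
          simpa [mul_comm] using hI.symm⟩
      have h2 := hg ⟨⟨I, hI0⟩, hcl⟩
      rw [mul_comm, ← hI, Ideal.span_singleton_eq_span_singleton] at h2
      obtain ⟨u, hu⟩ := h2.symm
      exact ⟨(⟨⟨I, hI0⟩, hcl⟩, u), Subtype.ext (Subtype.ext (by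
        simpa [φ, mul_comm] using hu))⟩
  let eφ := Equiv.ofBijective φ hφ
  let T := fun a : (b : Ideal (𝓞 K)) => term s (pt (a : 𝓞 K))
  have hT : Summable T := (summable_term (K := K) hs).comp_injective Subtype.val_injective
  have hsupp : Function.support T ⊆ {a : (b : Ideal (𝓞 K)) | (a : 𝓞 K) ≠ 0} := by
    intro a ha h0
    refine ha ?_
    simp [T, h0, pt, term_zero (K := K) (by linarith [hs.1] : s ≠ 0)]
  have h1 : latticeSum (b : Ideal (𝓞 K)) s = ∑' x : J × (𝓞 K)ˣ, T (φ x) := by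
    rw [latticeSum, ← tsum_subtype_eq_of_support_subset hsupp]
    exact (eφ.tsum_eq fun a => T a).symm
  have h2 : Summable fun x : J × (𝓞 K)ˣ => T (φ x) :=
    (hT.comp_injective (Subtype.val_injective.comp hφ.injective) : _)
  have hN : ∀ I : J, mixedEmbedding.norm (pt (g I)) =
      (Ideal.absNorm (I.1 : Ideal (𝓞 K)) : ℝ) * Ideal.absNorm (b : Ideal (𝓞 K)) := by
    intro I
    rw [pt, norm_eq_norm, ← Nat.cast_mul, ← map_mul, hg, Ideal.absNorm_span_singleton,
      ← Algebra.coe_norm_int, Rat.cast_abs, Rat.cast_intCast, Nat.cast_natAbs, Int.cast_abs]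
  have hinner : ∀ I : J, HasSum (fun u : (𝓞 K)ˣ => T (φ (I, u)))
      ((torsionOrder K : ℝ) * ((Ideal.absNorm (b : Ideal (𝓞 K)) : ℝ) ^ (-s) *
        (Ideal.absNorm (I.1 : Ideal (𝓞 K)) : ℝ) ^ (-s))) := by
    intro I
    have hne : mixedEmbedding.norm (pt (g I)) ≠ 0 := by
      rw [Ne, norm_eq_zero_iff' ⟨_, rfl⟩, map_eq_zero]
      exact_mod_cast hg0 I
    convert hasSum_term_unit_smul s hne using 1
    · funext u
      simp [T, φ, pt, unitSMul_smul]
    · rw [hN, Real.mul_rpow (Nat.cast_nonneg _) (Nat.cast_nonneg _)]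
      ring
  have h3 := h2.prod
  simp only [(hinner _).tsum_eq] at h3
  have hne : (torsionOrder K : ℝ) * (Ideal.absNorm (b : Ideal (𝓞 K)) : ℝ) ^ (-s) ≠ 0 := by
    refine mul_ne_zero (Nat.cast_ne_zero.2 (torsionOrder_pos K).ne') ?_
    exact (Real.rpow_pos_of_pos (Nat.cast_pos.2 (Nat.pos_of_ne_zero
      (Ideal.absNorm_eq_zero_iff.not.2 (mem_nonZeroDivisors_iff_ne_zero.1 b.2)))) _).ne'
  simp only [← mul_assoc] at h3
  refine ⟨(summable_mul_left_iff hne).1 h3, ?_⟩
  rw [h1, h2.tsum_prod, classSum]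
  simp only [(hinner _).tsum_eq]
  rw [← tsum_mul_left, ← tsum_mul_left]

lemma exists_mk0_eq_inv (C : ClassGroup (𝓞 K)) :
    ∃ b : (Ideal (𝓞 K))⁰, (ClassGroup.mk0 b)⁻¹ = C := by
  obtain ⟨b, hb⟩ := ClassGroup.mk0_surjective C⁻¹
  exact ⟨b, by rw [hb, inv_inv]⟩

lemma summable_classSum (C : ClassGroup (𝓞 K)) {s : ℝ} (hs : s ∈ Set.Ioc (1 : ℝ) 2) :
    Summable fun I : {I : (Ideal (𝓞 K))⁰ // ClassGroup.mk0 I = C} =>
      (Ideal.absNorm ((I.1 : Ideal (𝓞 K))) : ℝ) ^ (-s) := by
  obtain ⟨b, rfl⟩ := exists_mk0_eq_inv C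
  exact (classSum_aux b hs).1

lemma classSum_nonneg (C : ClassGroup (𝓞 K)) (s : ℝ) : 0 ≤ classSum C s :=
  tsum_nonneg fun _ => Real.rpow_nonneg (Nat.cast_nonneg _) _

lemma classSum_le_zetaSum (C : ClassGroup (𝓞 K)) {s : ℝ} (hs : 1 < s) :
    classSum C s ≤ zetaSum K s :=
  tsum_comp_le_tsum_of_inj (summable_normPow hs) (fun _ => Real.rpow_nonneg (Nat.cast_nonneg _) _)
    (Subtype.val_injective (p := fun I => ClassGroup.mk0 I = C))

/-- The partial zeta functions of two classes differ by a bounded amount near `1`. -/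
theorem exists_classSum_sub_bound (C : ClassGroup (𝓞 K)) :
    ∃ B : ℝ, ∀ᶠ s in 𝓝[>] (1 : ℝ), |classSum C s - classSum (1 : ClassGroup (𝓞 K)) s| ≤ B := by
  obtain ⟨b, rfl⟩ := exists_mk0_eq_inv C
  obtain ⟨B, hB⟩ := exists_latticeSum_bound (b : Ideal (𝓞 K))
    (mem_nonZeroDivisors_iff_ne_zero.1 b.2)
  obtain ⟨c, C', -, hζ⟩ := exists_zeta_bounds (K := K)
  set N : ℝ := (Ideal.absNorm (b : Ideal (𝓞 K)) : ℝ) with hN
  have hN1 : 1 ≤ N := by
    rw [hN]; exact_mod_cast Nat.pos_of_ne_zero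
      (Ideal.absNorm_eq_zero_iff.not.2 (mem_nonZeroDivisors_iff_ne_zero.1 b.2))
  set w : ℝ := (torsionOrder K : ℝ) with hw
  have hw1 : 1 ≤ w := by rw [hw]; exact_mod_cast torsionOrder_pos K
  refine ⟨N * B + N * N * max C' 0, ?_⟩
  filter_upwards [hζ, Ioc_mem_nhdsGT (show (1 : ℝ) < 2 by norm_num)] with s hζs hs
  have hs2 : s ∈ Set.Ioc (1 : ℝ) 2 := hs
  obtain ⟨-, hb⟩ := classSum_aux b hs2
  obtain ⟨-, h1⟩ := classSum_aux (1 : (Ideal (𝓞 K))⁰) hs2
  simp only [map_one, inv_one] at h1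
  have hone : latticeSum ((1 : (Ideal (𝓞 K))⁰) : Ideal (𝓞 K)) s = ∑' a : 𝓞 K, term s (pt a) := by
    rw [latticeSum]
    exact (Equiv.subtypeUnivEquiv (fun a => by simp)).tsum_eq fun a : 𝓞 K => term s (pt a)
  rw [hone] at h1
  have hN1' : (Ideal.absNorm ((1 : (Ideal (𝓞 K))⁰) : Ideal (𝓞 K)) : ℝ) = 1 := by simp
  rw [hN1', Real.one_rpow, one_mul] at h1
  have h := hB s hs2
  rw [hb, h1, ← hN] at h
  set X := classSum (ClassGroup.mk0 b)⁻¹ s
  set Y := classSum (1 : ClassGroup (𝓞 K)) s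
  set P := N ^ (s - 1) with hP
  have hP1 : 1 ≤ P := Real.one_le_rpow hN1 (by linarith [hs.1])
  have hPN : P ≤ N := by
    calc N ^ (s - 1) ≤ N ^ (1 : ℝ) := Real.rpow_le_rpow_of_exponent_le hN1 (by linarith [hs2.2])
      _ = N := Real.rpow_one N
  have e : N * (w * (N ^ (-s) * X)) = w * (P⁻¹ * X) := by
    rw [hP, ← Real.rpow_neg (by linarith), neg_sub]
    have : N * N ^ (-s) = N ^ (1 - s) := by
      rw [sub_eq_add_neg, Real.rpow_add (by linarith), Real.rpow_one]
    rw [← this]; ring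
  rw [← hw] at h
  rw [e, ← mul_sub, abs_mul, abs_of_nonneg (by linarith : (0:ℝ) ≤ w)] at h
  have h' : |P⁻¹ * X - Y| ≤ B := le_trans (le_mul_of_one_le_left (abs_nonneg _) hw1) h
  -- `P - 1 = O(s - 1)` while `Y = O(1/(s-1))`
  have hPs : P - 1 ≤ N * N * (s - 1) := by
    have hpos : (0 : ℝ) < N := by linarith
    have h1 : P = Real.exp (Real.log N * (s - 1)) := Real.rpow_def_of_pos hpos _
    have h2 := abs_exp_sub_exp_le (a := Real.log N * (s - 1)) (b := 0) (M := Real.log N)
      (by nlinarith [Real.log_nonneg hN1, hs2.2]) (Real.log_nonneg hN1)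
    rw [Real.exp_zero, Real.exp_log hpos, sub_zero, ← h1, abs_of_nonneg (by linarith : 0 ≤ P - 1),
      abs_of_nonneg (mul_nonneg (Real.log_nonneg hN1) (by linarith [hs.1]))] at h2
    have := Real.log_le_sub_one_of_pos hpos
    have : Real.log N * (s - 1) ≤ N * (s - 1) := by nlinarith [hs.1]
    nlinarith
  have hY : (P - 1) * Y ≤ N * N * max C' 0 := by
    have hY0 : 0 ≤ Y := classSum_nonneg _ _
    have hY1 : Y ≤ max C' 0 / (s - 1) :=
      ((classSum_le_zetaSum _ hs.1).trans hζs.2).trans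
        (div_le_div_of_nonneg_right (le_max_left _ _) (by linarith [hs.1]))
    rw [le_div_iff₀ (by linarith [hs.1])] at hY1
    calc (P - 1) * Y ≤ N * N * (s - 1) * Y := mul_le_mul_of_nonneg_right hPs hY0
      _ = N * N * (Y * (s - 1)) := by ring
      _ ≤ N * N * max C' 0 := mul_le_mul_of_nonneg_left hY1 (by positivity)
  have e2 : X - Y = P * (P⁻¹ * X - Y) + (P - 1) * Y := by
    field_simp
    ring
  rw [e2]
  refine (abs_add_le _ _).trans (add_le_add ?_ ?_)
  · rw [abs_mul, abs_of_nonneg (by linarith : 0 ≤ P)]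
    exact mul_le_mul hPN h' (abs_nonneg _) (by linarith)
  · rw [abs_of_nonneg (mul_nonneg (by linarith) (classSum_nonneg _ _))]
    exact hY

end Zeta

end Fermat.Agent.ExtVanish
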