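import Mathlib
import Fermat.Agent.Density.DecompositionCount
import Fermat.Agent.ExtVanish.ZetaLattice

/-!
A class-group character cannot be trivial on all the primes not splitting completely in a given
extension of prime degree `p ≥ 3`.
-/

set_option autoImplicit false
set_option maxSynthPendingDepth 3

open NumberField Module IsDedekindDomain Filter
open scoped nonZeroDivisors Topology
open Fermat.Agent.Density

noncomputable section

namespace Fermat.Agent.ExtVanish

variable {K : Type*} [Field K] [NumberField K]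

/-- The L-series of a class group character. -/
def classLSum (μ : ClassGroup (𝓞 K) →* ℂ) (s : ℝ) : ℂ :=
  ∑' I : (Ideal (𝓞 K))⁰, μ (ClassGroup.mk0 I) * (normPow (K := K) s I : ℂ)

/-- The Dirichlet character on ideals attached to a class group character. -/
def classTerm (μ : ClassGroup (𝓞 K) →* ℂ) (s : ℝ) : (Ideal (𝓞 K))⁰ →* ℂ :=
  (μ.comp ClassGroup.mk0) * Complex.ofRealHom.toMonoidHom.comp (normPow (K := K) s)

lemma classTerm_apply (μ : ClassGroup (𝓞 K) →* ℂ) (s : ℝ) (I : (Ideal (𝓞 K))⁰) :
    classTerm μ s I = μ (ClassGroup.mk0 I) * (normPow (K := K) s I : ℂ) := rfl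

lemma norm_classTerm {μ : ClassGroup (𝓞 K) →* ℂ} (hμ : ∀ c, ‖μ c‖ = 1) (s : ℝ)
    (I : (Ideal (𝓞 K))⁰) : ‖classTerm μ s I‖ = normPow s I := by
  rw [classTerm_apply, norm_mul, hμ, one_mul, Complex.norm_real, Real.norm_eq_abs,
    abs_of_pos (normPow_pos s I)]

/-- The L-series of a nontrivial class group character is bounded near `1`. -/
theorem exists_classLSum_bound {μ : ClassGroup (𝓞 K) →* ℂ} (hμ : ∀ c, ‖μ c‖ = 1) (hμ1 : μ ≠ 1) :
    ∃ B : ℝ, ∀ᶠ s in 𝓝[>] (1 : ℝ), ‖classLSum μ s‖ ≤ B := by
  classical
  choose B hB using fun C : ClassGroup (𝓞 K) => exists_classSum_sub_bound C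
  refine ⟨∑ C, B C, ?_⟩
  filter_upwards [eventually_all.2 hB, self_mem_nhdsWithin] with s hs (hs1 : 1 < s)
  have hsum : Summable (classTerm μ s) :=
    ((summable_normPow hs1).congr fun I => (norm_classTerm hμ s I).symm).of_norm
  have hμsum : ∑ C, μ C = 0 := by
    obtain ⟨c, hc⟩ : ∃ c, μ c ≠ 1 := by
      by_contra h
      push Not at h
      exact hμ1 (MonoidHom.ext h)
    have h1 : μ c * ∑ C, μ C = ∑ C, μ C := by
      rw [Finset.mul_sum]
      exact (Finset.sum_congr rfl fun C _ => (map_mul μ c C).symm).trans
        (Equiv.sum_comp (Equiv.mulLeft c) (fun C => μ C))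
    exact (mul_left_eq_self₀.1 h1).resolve_left hc
  have hL : classLSum μ s = ∑ C, μ C * ((classSum C s - classSum (1 : ClassGroup (𝓞 K)) s : ℝ) : ℂ) := by
    push_cast
    simp only [mul_sub, Finset.sum_sub_distrib, ← Finset.sum_mul, hμsum, zero_mul, sub_zero]
    have h := (Equiv.sigmaFiberEquiv (ClassGroup.mk0 (R := 𝓞 K))).summable_iff.2 hsum
    rw [classLSum, ← (Equiv.sigmaFiberEquiv (ClassGroup.mk0 (R := 𝓞 K))).tsum_eq,
      show (∑' c, μ (ClassGroup.mk0 ((Equiv.sigmaFiberEquiv (ClassGroup.mk0 (R := 𝓞 K))) c)) *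
        (normPow (K := K) s ((Equiv.sigmaFiberEquiv (ClassGroup.mk0 (R := 𝓞 K))) c) : ℂ)) =
        ∑' C, ∑' I : {I : (Ideal (𝓞 K))⁰ // ClassGroup.mk0 I = C}, classTerm μ s I.1 from h.tsum_sigma,
      tsum_fintype]
    refine Finset.sum_congr rfl fun C _ => ?_
    rw [classSum, Complex.ofReal_tsum, ← tsum_mul_left]
    refine tsum_congr fun I => ?_
    rw [classTerm_apply, I.2]
    rfl
  rw [hL]
  refine (norm_sum_le _ _).trans (Finset.sum_le_sum fun C _ => ?_)
  rw [norm_mul, hμ, one_mul, Complex.norm_real, Real.norm_eq_abs]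
  exact hs C

/-- If every degree one prime (outside a finite set) at which the character `μ` is nontrivial has
`p ≥ 3` distinct degree one primes of `F` above it, we get a contradiction. -/
theorem false_of_forall_split {F : Type*} [Field F] [NumberField F] {p : ℕ} (hp : 3 ≤ p)
    {μ : ClassGroup (𝓞 K) →* ℂ} (hμ : ∀ c, ‖μ c‖ = 1) (hμ1 : μ ≠ 1) (bad : Finset ℕ)
    (Φ : {v : HeightOneSpectrum (𝓞 K) // IsDegOne v ∧ resChar v ∉ bad ∧
      μ (ClassGroup.mk0 (toIdl v)) ≠ 1} × Fin p → HeightOneSpectrum (𝓞 F))
    (hinj : Function.Injective Φ)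
    (hnorm : ∀ x, Ideal.absNorm (Φ x).asIdeal = Ideal.absNorm x.1.1.asIdeal) : False := by
  classical
  obtain ⟨BL, hBL⟩ := exists_classLSum_bound hμ hμ1
  obtain ⟨BK, hBK⟩ := exists_bound_degOne (K := K) bad
  obtain ⟨cF, CF, -, hzF⟩ := exists_zeta_bounds (K := F)
  obtain ⟨cK, CK, hcK, hzK⟩ := exists_zeta_bounds (K := K)
  set T : Set (HeightOneSpectrum (𝓞 K)) :=
    {v | IsDegOne v ∧ resChar v ∉ bad ∧ μ (ClassGroup.mk0 (toIdl v)) ≠ 1}
  set D : Set (HeightOneSpectrum (𝓞 K)) := {v | IsDegOne v ∧ resChar v ∉ bad}
  -- the total over the exceptional primes is bounded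
  have hkey : ∀ᶠ s in 𝓝[>] (1 : ℝ),
      Real.log (1 / (s - 1)) * (1 - 2 / p) ≤
        Real.log (max BL 1) + BK + 2 * (|Real.log CF| / p) + 2 * (|Real.log CK| + BK) := by
    filter_upwards [hBL, hBK, hzF, hzK, self_mem_nhdsWithin,
      Ioo_mem_nhdsGT (show (1 : ℝ) < 2 by norm_num)] with s hL hD hF hK (hs1 : 1 < s) hs2
    set x : HeightOneSpectrum (𝓞 K) → ℝ := fun v => normPow s (toIdl v)
    have hx : Summable x := summable_prime hs1
    have hx0 : ∀ v, 0 ≤ x v := fun v => (normPow_pos s _).le
    set W : Set (HeightOneSpectrum (𝓞 K)) := {v | μ (ClassGroup.mk0 (toIdl v)) ≠ 1}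
    have hsum : Summable (fun I => ‖classTerm μ s I‖) :=
      (summable_normPow hs1).congr fun I => (norm_classTerm hμ s I).symm
    have h1 : 1 ≤ ‖classLSum μ s‖ *
        Real.exp (-(primeSum (K := K) Set.univ s) + 2 * primeSum W s) := by
      have ht := (continuous_norm.tendsto _).comp (tendsto_eulerProd (classTerm μ s) hsum)
      simp only [norm_one] at ht
      have hexp : Tendsto (fun S : Finset (HeightOneSpectrum (𝓞 K)) => ‖classLSum μ s‖ *
          Real.exp (-(∑ v ∈ S, x v) + 2 * primeSum W s)) atTop
          (𝓝 (‖classLSum μ s‖ * Real.exp (-(primeSum (K := K) Set.univ s) + 2 * primeSum W s))) := by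
        refine ((Real.continuous_exp.tendsto _).comp ((Tendsto.neg ?_).add_const _)).const_mul _
        have hu : primeSum (K := K) Set.univ s = ∑' v, x v := by simp [primeSum, x]
        rw [hu]
        exact hx.hasSum
      refine le_of_tendsto_of_tendsto' ht hexp fun S => ?_
      simp only [Function.comp_apply, norm_mul, norm_prod]
      refine mul_le_mul_of_nonneg_left ?_ (norm_nonneg _)
      have hle : ∀ v, ‖1 - classTerm μ s (toIdl v)‖ ≤ Real.exp (-x v + 2 * W.indicator x v) := by
        intro v
        by_cases hv : v ∈ W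
        · rw [Set.indicator_of_mem hv]
          refine (norm_sub_le _ _).trans ?_
          rw [norm_one, norm_classTerm hμ]
          linarith [Real.add_one_le_exp (-x v + 2 * x v)]
        · rw [Set.indicator_of_notMem hv, mul_zero, add_zero]
          simp only [W, Set.mem_ofPred_eq, not_not] at hv
          rw [classTerm_apply, hv, one_mul, ← Complex.ofReal_one, ← Complex.ofReal_sub,
            Complex.norm_real, Real.norm_eq_abs,
            abs_of_nonneg (by linarith [normPow_toIdl_le_half v hs1])]
          linarith [Real.add_one_le_exp (-x v)]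
      refine (Finset.prod_le_prod (fun v _ => norm_nonneg _) fun v _ => hle v).trans ?_
      rw [← Real.exp_sum, Finset.sum_add_distrib, Finset.sum_neg_distrib, ← Finset.mul_sum]
      refine Real.exp_le_exp.2 (add_le_add le_rfl (mul_le_mul_of_nonneg_left ?_ two_pos.le))
      exact (hx.indicator W).sum_le_tsum S fun v _ => Set.indicator_nonneg (fun v _ => hx0 v) v
    -- `W` is `T` up to a bounded amount
    have hW : primeSum W s ≤ primeSum T s + (|Real.log CK| + BK) := by
      have h3 := primeSum_add_compl D hs1
      have hsub : primeSum W s ≤ primeSum T s + primeSum Dᶜ s := by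
        rw [primeSum, primeSum, primeSum, ← (hx.indicator _).tsum_add (hx.indicator _)]
        refine Summable.tsum_le_tsum (fun v => ?_) (hx.indicator _)
          ((hx.indicator _).add (hx.indicator _))
        by_cases hv : v ∈ W
        · by_cases hd : v ∈ D
          · rw [Set.indicator_of_mem hv, Set.indicator_of_mem (show v ∈ T from ⟨hd.1, hd.2, hv⟩),
              Set.indicator_of_notMem (by simpa using hd), add_zero]
          · rw [Set.indicator_of_mem hv, Set.indicator_of_mem (show v ∈ Dᶜ from hd)]
            exact le_add_of_nonneg_left (Set.indicator_nonneg (fun v _ => hx0 v) v)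
        · rw [Set.indicator_of_notMem hv]
          exact add_nonneg (Set.indicator_nonneg (fun v _ => hx0 v) v)
            (Set.indicator_nonneg (fun v _ => hx0 v) v)
      have hd : 0 < s - 1 := by linarith
      have hCK : 0 < CK := by
        have := (div_pos hcK hd).trans_le (hK.1.trans hK.2)
        exact (div_pos_iff_of_pos_right hd).1 this
      have h4 : Real.log (zetaSum K s) ≤ Real.log CK + Real.log (1 / (s - 1)) := by
        rw [← Real.log_mul hCK.ne' (by positivity), mul_one_div]
        exact Real.log_le_log ((div_pos hcK hd).trans_le hK.1) hK.2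
      have h5 := (primeSum_univ_bounds (K := K) hs1).1
      linarith [le_abs_self (Real.log CK), (abs_le.1 hD).1]
    have hT : (p : ℝ) * primeSum T s ≤ |Real.log CF| + Real.log (1 / (s - 1)) := by
      have hd : 0 < s - 1 := by linarith
      have h6 : (p : ℝ) * primeSum T s ≤ primeSum (K := F) Set.univ s := by
        have hxF : Summable fun w : HeightOneSpectrum (𝓞 F) => normPow s (toIdl w) := summable_prime hs1
        have e1 : primeSum T s = ∑' v : T, x v := (tsum_subtype T x).symm
        have hxT : Summable fun v : T => x v := hx.comp_injective Subtype.val_injective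
        have hsumT : Summable fun y : T × Fin p => x y.1 := by
          refine (summable_prod_of_nonneg fun y => hx0 _).2 ⟨fun v => Summable.of_finite, ?_⟩
          simpa [tsum_fintype] using hxT.mul_left (p : ℝ)
        have e2 : (p : ℝ) * primeSum T s = ∑' y : T × Fin p, x y.1 := by
          rw [hsumT.tsum_prod, e1, ← tsum_mul_left]
          exact tsum_congr fun v => by simp [tsum_fintype]
        rw [e2, primeSum]
        simp only [Set.indicator_univ]
        refine Summable.tsum_le_tsum_of_inj Φ hinj (fun w _ => (normPow_pos s _).le)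
          (fun y => le_of_eq ?_) hsumT hxF
        simp [x, normPow_apply, hnorm y]
      have h7 := (primeSum_univ_bounds (K := F) hs1).1
      have hz1 : 0 < zetaSum F s := by
        have := (summable_normPow (K := F) hs1).le_tsum 1 (fun I _ => (normPow_pos s I).le)
        rw [map_one] at this
        exact lt_of_lt_of_le one_pos this
      have hCF : 0 < CF := (div_pos_iff_of_pos_right hd).1 (hz1.trans_le hF.2)
      have h8 : Real.log (zetaSum F s) ≤ Real.log CF + Real.log (1 / (s - 1)) := by
        rw [← Real.log_mul hCF.ne' (by positivity), mul_one_div]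
        exact Real.log_le_log hz1 hF.2
      linarith [le_abs_self (Real.log CF)]
    have hLp : 0 < ‖classLSum μ s‖ := pos_of_mul_pos_left (one_pos.trans_le h1) (Real.exp_pos _).le
    have h9 : 0 ≤ Real.log ‖classLSum μ s‖ + (-(primeSum (K := K) Set.univ s) + 2 * primeSum W s) := by
      have := Real.log_le_log one_pos h1
      rwa [Real.log_one, Real.log_mul hLp.ne' (Real.exp_pos _).ne', Real.log_exp] at this
    have h10 : Real.log ‖classLSum μ s‖ ≤ Real.log (max BL 1) :=
      Real.log_le_log hLp (hL.trans (le_max_left _ _))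
    have h11 : primeSum D s ≤ primeSum (K := K) Set.univ s := primeSum_mono (Set.subset_univ _) hs1
    have hp0 : (0 : ℝ) < p := by exact_mod_cast (by omega : 0 < p)
    have h12 : primeSum T s ≤ |Real.log CF| / p + Real.log (1 / (s - 1)) / p := by
      rw [← add_div, le_div_iff₀ hp0, mul_comm]
      exact hT
    have e : Real.log (1 / (s - 1)) * (1 - 2 / p) =
        Real.log (1 / (s - 1)) - 2 * (Real.log (1 / (s - 1)) / p) := by ring
    rw [e]
    linarith [(abs_le.1 hD).1]
  have hlim : Tendsto (fun s : ℝ => Real.log (1 / (s - 1)) * (1 - 2 / (p : ℝ))) (𝓝[>] 1) atTop := by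
    refine Tendsto.atTop_mul_const ?_ ?_
    · have : (2 : ℝ) / p < 1 := by
        rw [div_lt_one (by exact_mod_cast (by omega : 0 < p))]
        exact_mod_cast (by omega : 2 < p)
      linarith
    · refine Real.tendsto_log_atTop.comp ?_
      simp only [one_div]
      refine tendsto_inv_nhdsGT_zero.comp ?_
      refine tendsto_nhdsWithin_of_tendsto_nhds_of_eventually_within _ ?_ ?_
      · have : Continuous fun s : ℝ => s - 1 := by fun_prop
        simpa using (this.tendsto 1).mono_left nhdsWithin_le_nhds
      · filter_upwards [self_mem_nhdsWithin] with s (hs : 1 < s)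
        exact sub_pos.2 hs
  obtain ⟨s, h1, h2⟩ := (hkey.and (hlim.eventually (eventually_gt_atTop _))).exists
  exact absurd h1 (not_le.2 h2)

end Fermat.Agent.ExtVanish
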