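import Mathlib
import Fermat.Agent.ExtVanish.Basic

/-!
The Galois module structure of the units of the `p`-th cyclotomic field modulo `p`-th powers:
each nontrivial eigenspace is at most one-dimensional.
-/

set_option autoImplicit false
set_option maxSynthPendingDepth 3

open NumberField NumberField.Units NumberField.Units.dirichletUnitTheorem Polynomial
open scoped nonZeroDivisors Classical

noncomputable section

namespace Fermat.Agent.ExtVanish

variable (p : ℕ) [Fact p.Prime] (K : Type*) [Field K] [NumberField K] [IsCyclotomicExtension {p} ℚ K]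

/-- The Galois action on units. -/
def sgU (a : (ZMod p)ˣ) : (𝓞 K)ˣ →* (𝓞 K)ˣ := Units.map (sgI p K a).toRingHom.toMonoidHom

@[simp] lemma coe_sgU (a : (ZMod p)ˣ) (u : (𝓞 K)ˣ) :
    ((sgU p K a u : 𝓞 K) : K) = sg p K a ((u : 𝓞 K) : K) := coe_sgI p K a u

lemma sgU_mul (a b : (ZMod p)ˣ) (u : (𝓞 K)ˣ) : sgU p K (a * b) u = sgU p K a (sgU p K b u) :=
  Units.ext (sgI_mul p K a b u)

lemma sgU_one (u : (𝓞 K)ˣ) : sgU p K 1 u = u := by
  apply Units.ext
  apply RingOfIntegers.ext
  simp [sg_one]

lemma sgU_mem_torsion (a : (ZMod p)ˣ) {u : (𝓞 K)ˣ} (hu : u ∈ torsion K) :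
    sgU p K a u ∈ torsion K := by
  rw [torsion, CommGroup.mem_torsion] at hu ⊢
  exact (sgU p K a).isOfFinOrder hu

/-- The Galois action on units modulo torsion. -/
def sgQ (a : (ZMod p)ˣ) :
    Additive ((𝓞 K)ˣ ⧸ torsion K) →ₗ[ℤ] Additive ((𝓞 K)ˣ ⧸ torsion K) :=
  (MonoidHom.toAdditive (QuotientGroup.map _ _ (sgU p K a)
    (fun _ h => Subgroup.mem_comap.2 (sgU_mem_torsion p K a h)))).toIntLinearMap

/-- The class of a unit modulo torsion. -/
def unitCls : (𝓞 K)ˣ →* Multiplicative (Additive ((𝓞 K)ˣ ⧸ torsion K)) :=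
  QuotientGroup.mk' (torsion K)

lemma sgQ_mk (a : (ZMod p)ˣ) (u : (𝓞 K)ˣ) :
    sgQ p K a (Additive.ofMul (QuotientGroup.mk u)) =
      Additive.ofMul (QuotientGroup.mk (sgU p K a u)) := rfl

lemma sgQ_pow_mk (a : (ZMod p)ˣ) (n : ℕ) (u : (𝓞 K)ˣ) :
    (sgQ p K a ^ n) (Additive.ofMul (QuotientGroup.mk u)) =
      Additive.ofMul (QuotientGroup.mk (sgU p K (a ^ n) u)) := by
  induction n generalizing u with
  | zero => simp [sgU_one]
  | succ n ih => rw [pow_succ, Module.End.mul_apply, sgQ_mk, ih, pow_succ, sgU_mul]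

variable {p K}

lemma place_sg_neg_one (w : InfinitePlace K) (x : K) : w (sg p K (-1) x) = w x := by
  have hp : p.Prime := Fact.out
  have key : ∀ y : K, w.embedding (sg p K (-1) y) = starRingEnd ℂ (w.embedding y) := by
    have h : (w.embedding.comp (sg p K (-1) : K →+* K)).toRatAlgHom =
        ((starRingEnd ℂ).comp w.embedding).toRatAlgHom := by
      apply ((zF_spec p K).powerBasis ℚ).algHom_ext
      rw [IsPrimitiveRoot.powerBasis_gen]
      show w.embedding (sg p K (-1) (zF p K)) = starRingEnd ℂ (w.embedding (zF p K))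
      rw [sg_zF]
      have h1 : w.embedding (zF p K) ^ p = 1 := by
        rw [← map_pow, (zF_spec p K).pow_eq_one, map_one]
      have hn : ‖w.embedding (zF p K)‖ = 1 := Complex.norm_eq_one_of_pow_eq_one h1 hp.ne_zero
      have h2 : ((-1 : (ZMod p)ˣ) : ZMod p).val + 1 = p := by
        rw [Units.val_neg, Units.val_one]
        obtain ⟨n, hn⟩ : ∃ n, p = n + 1 := ⟨p - 1, by have := hp.pos; omega⟩
        subst hn
        rw [ZMod.val_neg_one]
      have h3 : zF p K ^ ((-1 : (ZMod p)ˣ) : ZMod p).val * zF p K = 1 := by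
        rw [← pow_succ, h2, (zF_spec p K).pow_eq_one]
      rw [← Complex.inv_eq_conj hn, eq_inv_of_mul_eq_one_left h3, map_inv₀]
    intro y
    exact DFunLike.congr_fun h y
  rw [← InfinitePlace.norm_embedding_eq w, key, ← InfinitePlace.norm_embedding_eq w,
    Complex.norm_conj]

lemma card_infinitePlace (hp : 3 ≤ p) : Fintype.card (InfinitePlace K) = (p - 1) / 2 := by
  rw [InfinitePlace.card_eq_nrRealPlaces_add_nrComplexPlaces,
    IsCyclotomicExtension.Rat.nrRealPlaces_eq_zero K (n := p) (by omega),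
    IsCyclotomicExtension.Rat.nrComplexPlaces_eq_totient_div_two p,
    Nat.totient_prime Fact.out, zero_add]

lemma isTotallyComplex_K (hp : 3 ≤ p) : IsTotallyComplex K :=
  IsCyclotomicExtension.Rat.isTotallyComplex K (n := p) (by omega)

/-- A polynomial of degree less than `(p - 1)/2 - 1` does not annihilate the units modulo
torsion. -/
theorem eq_zero_of_aeval_sgQ (hp : 3 ≤ p) {g : (ZMod p)ˣ} (hg : ∀ a, a ∈ Subgroup.zpowers g)
    {P : ℤ[X]} (hdeg : P.natDegree + 2 ≤ (p - 1) / 2) (h : aeval (sgQ p K g) P = 0) : P = 0 := by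
  haveI : IsGalois ℚ K := IsCyclotomicExtension.isGalois {p} ℚ K
  haveI : IsTotallyComplex K := isTotallyComplex_K hp
  set m := (p - 1) / 2 with hm
  set τ : K ≃ₐ[ℚ] K := (sg p K g)⁻¹ with hτ
  have hL : ∀ (z : (𝓞 K)ˣ) (w : InfinitePlace K),
      ∑ i ∈ Finset.range (P.natDegree + 1), (P.coeff i : ℝ) * Real.log ((τ ^ i • w) (z : K)) = 0 := by
    intro z w
    set t : (𝓞 K)ˣ := ∏ i ∈ Finset.range (P.natDegree + 1), (sgU p K (g ^ i) z) ^ P.coeff i with ht
    have htor : t ∈ torsion K := by
      rw [← QuotientGroup.eq_one_iff, ← QuotientGroup.mk'_apply, ← ofMul_eq_zero, ht, map_prod,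
        ofMul_prod]
      simp only [map_zpow, QuotientGroup.mk'_apply]
      have h' := LinearMap.congr_fun h (Additive.ofMul (QuotientGroup.mk z))
      rw [aeval_eq_sum_range, LinearMap.sum_apply, LinearMap.zero_apply] at h'
      rw [← h']
      refine Finset.sum_congr rfl fun i _ => ?_
      rw [ofMul_zpow, LinearMap.smul_apply, sgQ_pow_mk]
    have h1 := (mem_torsion K).1 htor w
    have h2 : ((t : 𝓞 K) : K) =
        ∏ i ∈ Finset.range (P.natDegree + 1), (sg p K (g ^ i) ((z : 𝓞 K) : K)) ^ P.coeff i := by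
      let toK : (𝓞 K)ˣ →* K := (algebraMap (𝓞 K) K).toMonoidHom.comp (Units.coeHom (𝓞 K))
      show toK t = _
      rw [ht, map_prod]
      refine Finset.prod_congr rfl fun i _ => ?_
      rw [map_zpow]
      exact congrArg (· ^ P.coeff i) (coe_sgU p K (g ^ i) z)
    have h3 : ∀ i, (τ ^ i • w) ((z : 𝓞 K) : K) = w (sg p K (g ^ i) ((z : 𝓞 K) : K)) := by
      intro i
      rw [hτ, InfinitePlace.smul_apply, inv_pow]
      congr 1
      have : sg p K (g ^ i) = sg p K g ^ i := map_pow ((JacobiSumStickelberger.cycloGalEquiv p K).symm) g i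
      rw [this]
      rfl
    simp_rw [h3]
    have h4 : ∀ i, w (sg p K (g ^ i) ((z : 𝓞 K) : K)) ≠ 0 := fun i => by simp
    rw [show algebraMap (𝓞 K) K (t : 𝓞 K) = _ from h2] at h1
    have h5 := congrArg Real.log h1
    rw [Real.log_one, map_prod] at h5
    simp_rw [map_zpow₀] at h5
    rw [Real.log_prod fun i _ => zpow_ne_zero _ (h4 i)] at h5
    simpa [Real.log_zpow] using h5
  -- extend to all functions with vanishing sum
  have hf : ∀ f : InfinitePlace K → ℝ, ∑ w, f w = 0 → ∀ w : InfinitePlace K,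
      ∑ i ∈ Finset.range (P.natDegree + 1), (P.coeff i : ℝ) * f (τ ^ i • w) = 0 := by
    intro f hf w
    let ext' : logSpace K →ₗ[ℝ] (InfinitePlace K → ℝ) :=
      { toFun := fun x w' => if hw : w' = w₀ then -(∑ v, x v) / 2 else x ⟨w', hw⟩ / 2
        map_add' := fun x y => by
          ext w'
          simp only [Pi.add_apply, Finset.sum_add_distrib]
          split <;> ring
        map_smul' := fun c x => by
          ext w'
          simp only [Pi.smul_apply, smul_eq_mul, RingHom.id_apply, ← Finset.mul_sum]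
          split <;> ring }
    let Φ : logSpace K →ₗ[ℝ] ℝ := ∑ i ∈ Finset.range (P.natDegree + 1),
      (P.coeff i : ℝ) • ((LinearMap.proj (τ ^ i • w)).comp ext')
    have hΦ : ∀ x, Φ x = ∑ i ∈ Finset.range (P.natDegree + 1),
        (P.coeff i : ℝ) * ext' x (τ ^ i • w) := fun x => by simp [Φ]
    have hext : ∀ (z : (𝓞 K)ˣ) (w' : InfinitePlace K),
        ext' (logEmbedding K (Additive.ofMul z)) w' = Real.log (w' (z : K)) := by
      intro z w'
      simp only [ext', LinearMap.coe_mk, AddHom.coe_mk]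
      split
      · subst w'
        rw [sum_logEmbedding_component, IsTotallyComplex.mult_eq]
        push_cast
        ring
      · rw [logEmbedding_component, IsTotallyComplex.mult_eq]
        push_cast
        ring
    have hzero : Φ = 0 := by
      apply LinearMap.ext_on (unitLattice_span_eq_top K)
      rintro x ⟨z, -, rfl⟩
      rw [LinearMap.zero_apply, hΦ, ← hL z.toMul w]
      exact Finset.sum_congr rfl fun i _ => by rw [← hext]; rfl
    have hfx : ext' (fun v => 2 * f v.1) = f := by
      ext w'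
      simp only [ext', LinearMap.coe_mk, AddHom.coe_mk]
      split
      · subst w'
        have := Fintype.sum_eq_add_sum_subtype_ne f (w₀ : InfinitePlace K)
        rw [hf] at this
        rw [← Finset.mul_sum]
        linarith
      · ring
    have := LinearMap.congr_fun hzero (fun v => 2 * f v.1)
    rw [hΦ, hfx, LinearMap.zero_apply] at this
    exact this
  -- the orbit of a place is everything
  obtain ⟨w⟩ : Nonempty (InfinitePlace K) := inferInstance
  have horb : ∀ w' : InfinitePlace K, ∃ n : ℕ, w' = τ ^ n • w := by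
    intro w'
    obtain ⟨σ, rfl⟩ := InfinitePlace.exists_smul_eq_of_comap_eq (k := ℚ) (K := K) (w := w) (w' := w')
      (Subsingleton.elim _ _)
    obtain ⟨a, rfl⟩ := sg_surjective p K σ
    obtain ⟨n, hn⟩ := (isOfFinOrder_of_finite g⁻¹).mem_powers_iff_mem_zpowers.2
      (show a ∈ Subgroup.zpowers g⁻¹ by rw [Subgroup.zpowers_inv]; exact hg a)
    refine ⟨n, ?_⟩
    rw [hτ, ← show sg p K a = (sg p K g)⁻¹ ^ n from ?_]
    subst hn
    show (JacobiSumStickelberger.cycloGalEquiv p K).symm (g⁻¹ ^ n) = _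
    rw [map_pow, map_inv]
    rfl
  have hinj : ∀ i j, i < j → j < m → τ ^ i • w ≠ τ ^ j • w := by
    intro i j hij hj he
    have hd : τ ^ (j - i) • w = w := by
      apply MulAction.injective (τ ^ i)
      show τ ^ i • τ ^ (j - i) • w = τ ^ i • w
      rw [smul_smul, ← pow_add, Nat.add_sub_cancel' hij.le, he]
    have hall : (Finset.univ : Finset (InfinitePlace K)) ⊆
        (Finset.range (j - i)).image (fun n => τ ^ n • w) := by
      intro w' _
      obtain ⟨n, rfl⟩ := horb w'
      refine Finset.mem_image.2 ⟨n % (j - i), Finset.mem_range.2 (Nat.mod_lt _ (by omega)), ?_⟩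
      conv_rhs => rw [← Nat.mod_add_div n (j - i), pow_add, mul_smul, pow_mul]
      congr 1
      induction n / (j - i) with
      | zero => simp
      | succ k ih => rw [pow_succ, mul_smul, hd, ← ih]
    have := Finset.card_le_card hall
    rw [Finset.card_univ, card_infinitePlace hp, ← hm] at this
    have := this.trans Finset.card_image_le
    rw [Finset.card_range] at this
    omega
  ext j
  rw [coeff_zero]
  rcases lt_or_ge P.natDegree j with hj | hj
  · exact coeff_eq_zero_of_natDegree_lt hj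
  let f : InfinitePlace K → ℝ := fun v =>
    (if v = τ ^ j • w then 1 else 0) - (if v = τ ^ (m - 1) • w then 1 else 0)
  have hsum : ∑ v, f v = 0 := by simp [f, Finset.sum_sub_distrib]
  have h0 := hf f hsum w
  rw [Finset.sum_eq_single j] at h0
  · have hne : τ ^ j • w ≠ τ ^ (m - 1) • w := hinj _ _ (by omega) (by omega)
    simpa [f, hne] using h0
  · intro i hi hij
    rw [Finset.mem_range] at hi
    have hne : τ ^ i • w ≠ τ ^ (m - 1) • w := hinj _ _ (by omega) (by omega)
    have hne' : τ ^ i • w ≠ τ ^ j • w := by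
      rcases lt_or_gt_of_ne hij with h' | h'
      · exact hinj _ _ h' (by omega)
      · exact (hinj _ _ h' (by omega)).symm
    simp [f, hne, hne']
  · intro hj'
    exact absurd (Finset.mem_range.2 (by omega)) hj'

variable (p K)

/-- Coordinates of a unit modulo torsion and modulo `p`. -/
def unitCoord (u : (𝓞 K)ˣ) : Fin (rank K) → ZMod p := fun i =>
  (((basisModTorsion K).repr (Additive.ofMul (QuotientGroup.mk u)) i : ℤ) : ZMod p)

omit [IsCyclotomicExtension {p} ℚ K] in
lemma unitCoord_mul (u v : (𝓞 K)ˣ) : unitCoord p K (u * v) = unitCoord p K u + unitCoord p K v := by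
  ext i
  simp [unitCoord]

omit [IsCyclotomicExtension {p} ℚ K] in
lemma unitCoord_pow (u : (𝓞 K)ˣ) (n : ℕ) : unitCoord p K (u ^ n) = (n : ZMod p) • unitCoord p K u := by
  induction n with
  | zero => ext i; simp [unitCoord]
  | succ n ih => rw [pow_succ, unitCoord_mul, ih, Nat.cast_succ, add_smul, one_smul]

omit [IsCyclotomicExtension {p} ℚ K] in
lemma exists_eq_pow_mul_of_unitCoord_eq_zero {u : (𝓞 K)ˣ} (h : unitCoord p K u = 0) :
    ∃ z t : (𝓞 K)ˣ, t ∈ torsion K ∧ u = z ^ p * t := by
  have hdvd : ∀ i, ∃ d : ℤ, (basisModTorsion K).repr (Additive.ofMul (QuotientGroup.mk u)) i =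
      (p : ℤ) * d := fun i => by
    have := congrFun h i
    rw [unitCoord, Pi.zero_apply, ZMod.intCast_zmod_eq_zero_iff_dvd] at this
    exact this
  choose d hd using hdvd
  obtain ⟨z, hz⟩ := QuotientGroup.mk_surjective
    (Additive.toMul (∑ i, d i • basisModTorsion K i))
  refine ⟨z, (z ^ p)⁻¹ * u, ?_, by group⟩
  rw [← QuotientGroup.eq, QuotientGroup.mk_pow, hz, ← Additive.ofMul.injective.eq_iff, ofMul_pow,
    ofMul_toMul, Finset.smul_sum]
  conv_rhs => rw [← (basisModTorsion K).sum_repr (Additive.ofMul (QuotientGroup.mk u))]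
  refine Finset.sum_congr rfl fun i _ => ?_
  rw [hd i, ← smul_assoc, nsmul_eq_mul]

/-- The eigenspaces for a nontrivial character are at most one-dimensional. -/
theorem exists_unitCoord_eq_smul (hp : 3 ≤ p) {g : (ZMod p)ˣ} (hg : ∀ a, a ∈ Subgroup.zpowers g)
    {c : ZMod p} {u e : (𝓞 K)ˣ}
    (hu : unitCoord p K (sgU p K g u) = c • unitCoord p K u)
    (he : unitCoord p K (sgU p K g e) = c • unitCoord p K e) (he0 : unitCoord p K e ≠ 0) :
    ∃ k : ZMod p, unitCoord p K u = k • unitCoord p K e := by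
  set b := basisModTorsion K
  set M : Matrix (Fin (rank K)) (Fin (rank K)) ℤ := LinearMap.toMatrix b b (sgQ p K g) with hM
  set m := (p - 1) / 2 with hm
  have hrank : rank K + 1 = m := by
    rw [rank, card_infinitePlace hp]
    omega
  have hTm : sgQ p K g ^ m = 1 := by
    refine LinearMap.ext fun x => ?_
    obtain ⟨x, rfl⟩ := Additive.ofMul.surjective x
    obtain ⟨z, rfl⟩ := QuotientGroup.mk_surjective x
    rw [sgQ_pow_mk, Module.End.one_apply, Additive.ofMul.injective.eq_iff, QuotientGroup.eq,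
      mem_torsion]
    intro w
    have hgm : g ^ m = -1 := by
      have hord : orderOf g = p - 1 := by
        rw [orderOf_eq_card_of_forall_mem_zpowers hg, Nat.card_eq_fintype_card, ZMod.card_units]
      have hsq : ((g ^ m : (ZMod p)ˣ) : ZMod p) * (g ^ m : (ZMod p)ˣ) = 1 := by
        have h2 : Odd p := (Fact.out : p.Prime).odd_of_ne_two (by omega)
        rw [← Units.val_mul, ← pow_add, show m + m = p - 1 by obtain ⟨k, hk⟩ := h2; omega, ← hord,
          pow_orderOf_eq_one, Units.val_one]
      rcases mul_self_eq_one_iff.1 hsq with h' | h'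
      · exfalso
        exact pow_ne_one_of_lt_orderOf (by omega) (by omega) (Units.ext h')
      · exact Units.ext h'
    rw [hgm, Units.val_mul, map_mul, map_mul]
    have h1 : w ((((sgU p K (-1) z)⁻¹ : (𝓞 K)ˣ) : 𝓞 K) : K) * w ((z : 𝓞 K) : K) = 1 := by
      rw [← place_sg_neg_one (p := p) w ((z : 𝓞 K) : K), ← coe_sgU, ← map_mul, ← map_mul, Units.inv_mul,
        map_one, map_one]
    exact h1
  have hMm : M ^ m = 1 := by
    rw [hM, show LinearMap.toMatrix b b (sgQ p K g) = LinearMap.toMatrixAlgEquiv b (sgQ p K g) from rfl,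
      ← map_pow, hTm, map_one]
  have hdvd : M.charpoly ∣ X ^ m - 1 := by
    set R : ℤ[X] := (X ^ m - 1) %ₘ M.charpoly with hR
    have hmon := M.charpoly_monic
    have hdiv := modByMonic_add_div ((X : ℤ[X]) ^ m - 1) M.charpoly
    have hRM : aeval M R = 0 := by
      have := congrArg (aeval M) hdiv
      rw [map_add, map_mul, Matrix.aeval_self_charpoly, zero_mul, add_zero, map_sub, map_pow,
        aeval_X, map_one, hMm, sub_self] at this
      exact this
    have hRT : aeval (sgQ p K g) R = 0 := by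
      apply (LinearMap.toMatrixAlgEquiv b).injective
      rw [map_zero, ← Polynomial.aeval_algHom_apply (LinearMap.toMatrixAlgEquiv b)]
      exact hRM
    rw [← modByMonic_eq_zero_iff_dvd hmon, ← hR]
    by_contra hR0
    apply hR0
    refine eq_zero_of_aeval_sgQ hp hg ?_ hRT
    have h2 : R.degree < M.charpoly.degree := degree_modByMonic_lt _ hmon
    rw [Matrix.charpoly_degree_eq_dim, Fintype.card_fin] at h2
    have : R.natDegree < rank K := (natDegree_lt_iff_degree_lt hR0).2 h2
    omega
  set Mbar := M.map (Int.castRingHom (ZMod p))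
  set φ : Module.End (ZMod p) (Fin (rank K) → ZMod p) := Matrix.toLin' Mbar with hφ
  have hφu : ∀ z : (𝓞 K)ˣ, φ (unitCoord p K z) = unitCoord p K (sgU p K g z) := by
    intro z
    ext i
    have h1 := congrArg (fun f => f i)
      (LinearMap.toMatrix_mulVec_repr b b (sgQ p K g) (Additive.ofMul (QuotientGroup.mk z)))
    simp only [sgQ_mk, Matrix.mulVec, dotProduct] at h1
    rw [hφ, Matrix.toLin'_apply, Matrix.mulVec, dotProduct]
    simp only [unitCoord, Mbar, Matrix.map_apply, eq_intCast]
    rw [← h1]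
    push_cast
    rfl
  have hφchar : φ.charpoly ∣ X ^ m - 1 := by
    rw [hφ, Matrix.charpoly_toLin', show Mbar = M.map (Int.castRingHom (ZMod p)) from rfl,
      Matrix.charpoly_map]
    have := Polynomial.map_dvd (Int.castRingHom (ZMod p)) hdvd
    simpa [Polynomial.map_sub, Polynomial.map_pow] using this
  have hsep : φ.charpoly.Separable := by
    refine Separable.of_dvd ?_ hφchar
    rw [← C_1]
    refine separable_X_pow_sub_C _ ?_ one_ne_zero
    rw [Ne, ZMod.natCast_eq_zero_iff]
    exact fun h' => by have := Nat.le_of_dvd (by omega) h'; omega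
  have hfin : Module.finrank (ZMod p) (φ.eigenspace c) ≤ 1 :=
    (φ.finrank_eigenspace_le c).trans (rootMultiplicity_le_one_of_separable hsep c)
  have hemem : unitCoord p K e ∈ φ.eigenspace c := Module.End.mem_eigenspace_iff.2 (by rw [hφu, he])
  have humem : unitCoord p K u ∈ φ.eigenspace c := Module.End.mem_eigenspace_iff.2 (by rw [hφu, hu])
  obtain ⟨v, hv⟩ := finrank_le_one_iff.1 hfin
  obtain ⟨a, ha⟩ := hv ⟨_, hemem⟩
  obtain ⟨d, hd⟩ := hv ⟨_, humem⟩
  have ha' : a • (v : Fin (rank K) → ZMod p) = unitCoord p K e := congrArg Subtype.val ha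
  have hd' : d • (v : Fin (rank K) → ZMod p) = unitCoord p K u := congrArg Subtype.val hd
  have ha0 : a ≠ 0 := by rintro rfl; exact he0 (by rw [← ha', zero_smul])
  exact ⟨d / a, by rw [← ha', ← hd', smul_smul, div_mul_cancel₀ _ ha0]⟩

end Fermat.Agent.ExtVanish
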