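import Mathlib
import Fermat.Agent.ExtVanish.UnitRank

/-!
An eigen-unit (for the square of the cyclotomic character) which is congruent to a rational
integer modulo `(ζ - 1) ^ 3` is a `p`-th power; the eigen cyclotomic number is not a `p`-th power.
-/

set_option autoImplicit false
set_option maxSynthPendingDepth 3

open NumberField NumberField.Units
open scoped nonZeroDivisors

noncomputable section

namespace Fermat.Agent.ExtVanish

variable (p : ℕ) [Fact p.Prime] (K : Type*) [Field K] [NumberField K] [IsCyclotomicExtension {p} ℚ K]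

/-- `x ≡ c (1 + A π + B π²)` with logarithmic coordinates `(A, B - A²/2)`. -/
def HasLog (x : 𝓞 K) (A L : ZMod p) : Prop :=
  ∃ c a b : ℤ, (c : ZMod p) ≠ 0 ∧
    piK p K ^ 3 ∣ x - (c : 𝓞 K) * (1 + (a : 𝓞 K) * piK p K + (b : 𝓞 K) * piK p K ^ 2) ∧
    (a : ZMod p) = A ∧ (b : ZMod p) - (a : ZMod p) ^ 2 / 2 = L

variable {p K}

@[simp] lemma coe_zK : ((zK p K : 𝓞 K) : K) = zF p K := rfl

lemma HasLog.mul {x y : 𝓞 K} {A L A' L' : ZMod p} (h2 : (2 : ZMod p) ≠ 0)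
    (hx : HasLog p K x A L) (hy : HasLog p K y A' L') :
    HasLog p K (x * y) (A + A') (L + L') := by
  obtain ⟨c, a, b, hc, hd, rfl, rfl⟩ := hx
  obtain ⟨c', a', b', hc', hd', rfl, rfl⟩ := hy
  refine ⟨c * c', a + a', b + b' + a * a', by push_cast; exact mul_ne_zero hc hc', ?_, by simp, ?_⟩
  · obtain ⟨t, ht⟩ := hd
    obtain ⟨t', ht'⟩ := hd'
    rw [sub_eq_iff_eq_add] at ht ht'
    rw [ht, ht']
    push_cast
    refine ⟨t * (piK p K ^ 3 * t' + c' * (1 + a' * piK p K + b' * piK p K ^ 2)) +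
      t' * (c * (1 + a * piK p K + b * piK p K ^ 2)) +
      c * c' * (a * b' + b * a' + b * b' * piK p K), ?_⟩
    ring
  · push_cast
    field_simp
    ring

lemma hasLog_intCast {n : ℤ} (hn : (n : ZMod p) ≠ 0) : HasLog p K (n : 𝓞 K) 0 0 :=
  ⟨n, 0, 0, hn, by simp, by simp, by simp⟩

lemma HasLog.one : HasLog p K (1 : 𝓞 K) 0 0 := by
  simpa using hasLog_intCast (p := p) (K := K) (n := 1) (by simp)

lemma HasLog.pow {x : 𝓞 K} {A L : ZMod p} (h2 : (2 : ZMod p) ≠ 0) (hx : HasLog p K x A L) (n : ℕ) :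
    HasLog p K (x ^ n) (n * A) (n * L) := by
  induction n with
  | zero => simpa using HasLog.one
  | succ n ih => simpa [pow_succ, add_mul] using ih.mul h2 hx

lemma HasLog.congr {x y : 𝓞 K} {A L : ZMod p} (hx : HasLog p K x A L)
    (h : piK p K ^ 3 ∣ y - x) : HasLog p K y A L := by
  obtain ⟨c, a, b, hc, hd, h1, h2⟩ := hx
  exact ⟨c, a, b, hc, by simpa using dvd_add h hd, h1, h2⟩

lemma HasLog.prod {ι : Type*} (s : Finset ι) {x : ι → 𝓞 K} {A L : ι → ZMod p}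
    (h2 : (2 : ZMod p) ≠ 0) (h : ∀ i ∈ s, HasLog p K (x i) (A i) (L i)) :
    HasLog p K (∏ i ∈ s, x i) (∑ i ∈ s, A i) (∑ i ∈ s, L i) := by
  classical
  induction s using Finset.induction with
  | empty => simpa using HasLog.one
  | insert i s hi ih =>
    rw [Finset.prod_insert hi, Finset.sum_insert hi, Finset.sum_insert hi]
    exact (h i (Finset.mem_insert_self i s)).mul h2
      (ih fun j hj => h j (Finset.mem_insert_of_mem hj))

lemma hasLog_unique (hp : 5 ≤ p) {x : 𝓞 K} {A L A' L' : ZMod p}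
    (hx : HasLog p K x A L) (hx' : HasLog p K x A' L') : A = A' ∧ L = L' := by
  obtain ⟨c, a, b, hc, hd, rfl, rfl⟩ := hx
  obtain ⟨c', a', b', hc', hd', rfl, rfl⟩ := hx'
  have hπ := prime_piK p K
  have key : ∀ n : ℤ, piK p K ∣ (n : 𝓞 K) → piK p K ^ 3 ∣ (n : 𝓞 K) ∧ (n : ZMod p) = 0 := by
    intro n hn
    obtain ⟨k, rfl⟩ := (piK_dvd_intCast_iff p K).1 hn
    push_cast
    exact ⟨(piK_cube_dvd_natCast_p p K hp).mul_right _, by simp⟩
  have h := dvd_sub hd' hd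
  rw [sub_sub_sub_cancel_left] at h
  obtain ⟨t, ht⟩ := h
  have e0 : ((c - c' : ℤ) : 𝓞 K) = piK p K *
      (piK p K ^ 2 * t - ((c * a - c' * a' : ℤ) : 𝓞 K) -
        ((c * b - c' * b' : ℤ) : 𝓞 K) * piK p K) := by
    push_cast
    linear_combination ht
  obtain ⟨h0, hc0⟩ := key _ ⟨_, e0⟩
  obtain ⟨t0, ht0⟩ := h0
  have e1 : ((c * a - c' * a' : ℤ) : 𝓞 K) = piK p K *
      (piK p K * t - piK p K * t0 - ((c * b - c' * b' : ℤ) : 𝓞 K)) := by
    apply mul_left_cancel₀ hπ.ne_zero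
    rw [e0] at ht0
    linear_combination -ht0
  obtain ⟨h1, hc1⟩ := key _ ⟨_, e1⟩
  obtain ⟨t1, ht1⟩ := h1
  have e2 : ((c * b - c' * b' : ℤ) : 𝓞 K) = piK p K * (t - t0 - piK p K * t1) := by
    apply mul_left_cancel₀ hπ.ne_zero
    rw [e1] at ht1
    linear_combination -ht1
  obtain ⟨-, hc2⟩ := key _ ⟨_, e2⟩
  push_cast at hc0 hc1 hc2
  rw [sub_eq_zero] at hc0 hc1 hc2
  rw [← hc0] at hc1 hc2
  have ha := mul_left_cancel₀ hc hc1
  exact ⟨ha, by rw [mul_left_cancel₀ hc hc2, ha]⟩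

variable (p K)

/-- The cyclotomic unit `(1 - ζ^a)/(1 - ζ)`. -/
def cyc (a : (ZMod p)ˣ) : 𝓞 K := ∑ j ∈ Finset.range (a : ZMod p).val, zK p K ^ j

lemma isUnit_cyc (a : (ZMod p)ˣ) : IsUnit (cyc p K a) :=
  (zK_spec p K).geom_sum_isUnit (Fact.out : p.Prime).two_le (ZMod.val_coe_unit_coprime a)

lemma one_sub_pow_eq (a : (ZMod p)ˣ) :
    1 - zK p K ^ (a : ZMod p).val = cyc p K a * (1 - zK p K) := by
  rw [cyc, geom_sum_mul_neg]

/-- The eigen cyclotomic number for the square of the cyclotomic character. -/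
def eCyc : 𝓞 K := ∏ a : (ZMod p)ˣ, (1 - zK p K ^ (a : ZMod p).val) ^ ex p a⁻¹

/-- The unit part of `eCyc`. -/
def eUnit : (𝓞 K)ˣ := ∏ a : (ZMod p)ˣ, (isUnit_cyc p K a).unit ^ ex p a⁻¹

lemma coe_eUnit : (eUnit p K : 𝓞 K) = ∏ a : (ZMod p)ˣ, cyc p K a ^ ex p a⁻¹ := by
  simp [eUnit, Units.coe_prod]

lemma eCyc_eq : eCyc p K = eUnit p K * (1 - zK p K) ^ (∑ a : (ZMod p)ˣ, ex p a⁻¹) := by
  rw [coe_eUnit, eCyc, ← Finset.prod_pow_eq_pow_sum, ← Finset.prod_mul_distrib]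
  exact Finset.prod_congr rfl fun a _ => by rw [one_sub_pow_eq, mul_pow]

lemma eCyc_ne_zero : eCyc p K ≠ 0 := by
  refine Finset.prod_ne_zero_iff.2 fun a _ => pow_ne_zero _ ?_
  rw [one_sub_pow_eq]
  refine mul_ne_zero (isUnit_cyc p K a).ne_zero ?_
  rw [← neg_sub, neg_ne_zero]
  exact (prime_piK p K).ne_zero

variable {p K}

lemma pow_congr_of_pow_eq_one {M : Type*} [Monoid M] {x : M} (hx : x ^ p = 1) {m n : ℕ}
    (h : (m : ZMod p) = n) : x ^ m = x ^ n := by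
  rw [← pow_mod_orderOf x m, ← pow_mod_orderOf x n]
  congr 1
  exact ((ZMod.natCast_eq_natCast_iff m n p).1 h).of_dvd (orderOf_dvd_of_pow_eq_one hx)

lemma zF_pow_congr {m n : ℕ} (h : (m : ZMod p) = n) : zF p K ^ m = zF p K ^ n :=
  pow_congr_of_pow_eq_one (zF_spec p K).pow_eq_one h

set_option maxHeartbeats 800000 in
lemma isEigen_eCyc : IsEigen p ((eCyc p K : 𝓞 K) : K) := by
  intro b
  set F : (ZMod p)ˣ → K := fun a => 1 - zF p K ^ (a : ZMod p).val with hF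
  have hE : ((eCyc p K : 𝓞 K) : K) = ∏ a, F a ^ ex p a⁻¹ := by
    simp [eCyc, F, map_prod]
  have hF0 : ∀ a, F a ≠ 0 := fun a h => by
    have h1 := (zF_spec p K).pow_of_coprime _ (ZMod.val_coe_unit_coprime a)
    exact h1.ne_one (Fact.out : p.Prime).one_lt (sub_eq_zero.1 h).symm
  have hσ : ∀ a, sg p K b (F a) = F (b * a) := by
    intro a
    simp only [F, map_sub, map_one, map_pow, sg_zF, ← pow_mul]
    congr 1
    exact zF_pow_congr (by simp)
  choose y hy0 hy using fun a => exists_pow_eq_of_modEq (p := p) (hF0 a)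
    (m := ex p (b * a⁻¹)) (n := ex p a⁻¹ * ex p b) (by
      push_cast
      simp only [ZMod.natCast_val, ZMod.cast_id', id_eq, Units.val_mul]
      ring)
  refine ⟨∏ a, y a, ?_⟩
  rw [hE, map_prod, ← Finset.prod_pow _ (ex p b), ← Finset.prod_pow, ← Finset.prod_mul_distrib]
  rw [show (∏ a, sg p K b (F a ^ ex p a⁻¹)) = ∏ a, F (b * a) ^ ex p a⁻¹ from
    Finset.prod_congr rfl fun a _ => by rw [map_pow, hσ]]
  rw [← Equiv.prod_comp (Equiv.mulLeft b⁻¹)]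
  refine Finset.prod_congr rfl fun a _ => ?_
  rw [Equiv.coe_mulLeft, mul_inv_cancel_left, ← pow_mul, mul_inv_rev, inv_inv,
    mul_comm a⁻¹ b, hy a]

lemma sum_ex_inv (hp : 5 ≤ p) : ((∑ a : (ZMod p)ˣ, ex p a⁻¹ : ℕ) : ZMod p) = 0 := by
  rw [Nat.cast_sum]
  simp only [natCast_ex]
  rw [show (∑ a : (ZMod p)ˣ, ((a⁻¹ : (ZMod p)ˣ) : ZMod p) ^ 2) = ∑ a : (ZMod p)ˣ, (a : ZMod p) ^ 2
    from Equiv.sum_comp (Equiv.inv _) (fun a : (ZMod p)ˣ => (a : ZMod p) ^ 2),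
    FiniteField.sum_pow_units, ZMod.card, if_neg]
  intro h
  have := Nat.le_of_dvd (by omega) h
  omega

lemma exists_eq_eUnit_mul (hp : 5 ≤ p) :
    ∃ y : K, y ≠ 0 ∧ ((eCyc p K : 𝓞 K) : K) = ((eUnit p K : 𝓞 K) : K) * y ^ p := by
  obtain ⟨r, hr⟩ := (ZMod.natCast_eq_zero_iff _ _).1 (sum_ex_inv hp)
  refine ⟨(1 - zF p K) ^ r, pow_ne_zero _ (sub_ne_zero.2 ?_), ?_⟩
  · exact ((zF_spec p K).ne_one (Fact.out : p.Prime).one_lt).symm
  · rw [eCyc_eq, hr, ← pow_mul, mul_comm r]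
    simp

lemma isEigen_eUnit (hp : 5 ≤ p) : IsEigen p ((eUnit p K : 𝓞 K) : K) := by
  obtain ⟨y, hy0, hy⟩ := exists_eq_eUnit_mul (K := K) hp
  have h := (isEigen_eCyc (p := p) (K := K)).mul (isEigen_pow_p (inv_ne_zero hy0))
  rwa [hy, inv_pow, mul_inv_cancel_right₀ (pow_ne_zero _ hy0)] at h

/-- `S(a) ≡ a + C(a,2) π + C(a,3) π²`. -/
lemma geom_sum_congr (a : ℕ) : piK p K ^ 3 ∣ (∑ j ∈ Finset.range a, zK p K ^ j) -
    ((a : 𝓞 K) + (a.choose 2 : 𝓞 K) * piK p K + (a.choose 3 : 𝓞 K) * piK p K ^ 2) := by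
  induction a with
  | zero => simp
  | succ a ih =>
    obtain ⟨t, ht⟩ := ih
    refine ⟨zK p K * t + (a.choose 3 : 𝓞 K), ?_⟩
    rw [geom_sum_succ, Nat.choose_succ_succ' a 1, Nat.choose_succ_succ' a 2, Nat.choose_one_right]
    push_cast
    linear_combination (zK p K) * ht

lemma natCast_choose_two (a : ℕ) : (2 : ℤ) * (a.choose 2 : ℤ) = (a : ℤ) * ((a : ℤ) - 1) := by
  induction a with
  | zero => simp
  | succ a ih =>
    rw [Nat.choose_succ_succ' a 1, Nat.choose_one_right]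
    push_cast
    linarith

lemma natCast_choose_three (a : ℕ) :
    (6 : ℤ) * (a.choose 3 : ℤ) = (a : ℤ) * ((a : ℤ) - 1) * ((a : ℤ) - 2) := by
  induction a with
  | zero => simp
  | succ a ih =>
    rw [Nat.choose_succ_succ' a 2]
    push_cast
    linear_combination ih + 3 * natCast_choose_two a

lemma two_ne_zero_zmod (hp : 3 ≤ p) : (2 : ZMod p) ≠ 0 := by
  intro h
  have : ((2 : ℕ) : ZMod p) = 0 := by simpa using h
  rw [ZMod.natCast_eq_zero_iff] at this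
  have := Nat.le_of_dvd (by norm_num) this
  omega

lemma three_ne_zero_zmod (hp : 5 ≤ p) : (3 : ZMod p) ≠ 0 := by
  intro h
  have : ((3 : ℕ) : ZMod p) = 0 := by simpa using h
  rw [ZMod.natCast_eq_zero_iff] at this
  have := Nat.le_of_dvd (by norm_num) this
  omega

lemma hasLog_cyc (hp : 5 ≤ p) (a : (ZMod p)ˣ) : HasLog p K (cyc p K a)
    (((a : ZMod p) - 1) / 2) (((a : ZMod p) - 1) * ((a : ZMod p) - 5) / 24) := by
  have h2 := two_ne_zero_zmod (p := p) (by omega)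
  have h3 := three_ne_zero_zmod hp
  have h6 : (6 : ZMod p) ≠ 0 := by rw [show (6 : ZMod p) = 2 * 3 by norm_num]; exact mul_ne_zero h2 h3
  have h24 : (24 : ZMod p) ≠ 0 := by
    rw [show (24 : ZMod p) = 2 * 2 * 2 * 3 by norm_num]
    exact mul_ne_zero (mul_ne_zero (mul_ne_zero h2 h2) h2) h3
  set n := (a : ZMod p).val with hn
  have han : (n : ZMod p) = a := by simp [n]
  have ha0 : (n : ZMod p) ≠ 0 := han ▸ a.ne_zero
  obtain ⟨i, hi⟩ : ∃ i : ℤ, (i : ZMod p) = (a : ZMod p)⁻¹ := ZMod.intCast_surjective _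
  have hni : piK p K ^ 3 ∣ ((n : ℤ) : 𝓞 K) * (i : 𝓞 K) - 1 := by
    have : (p : ℤ) ∣ (n : ℤ) * i - 1 := by
      rw [← ZMod.intCast_zmod_eq_zero_iff_dvd]
      push_cast
      rw [han, hi, mul_inv_cancel₀ a.ne_zero, sub_self]
    obtain ⟨k, hk⟩ := this
    have e : ((n : ℤ) : 𝓞 K) * (i : 𝓞 K) - 1 = ((p : ℤ) : 𝓞 K) * (k : 𝓞 K) := by exact_mod_cast congrArg (Int.cast : ℤ → 𝓞 K) hk
    rw [e, Int.cast_natCast]
    exact (piK_cube_dvd_natCast_p p K hp).mul_right _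
  refine ⟨n, i * (n.choose 2 : ℤ), i * (n.choose 3 : ℤ), by simpa using ha0, ?_, ?_, ?_⟩
  · obtain ⟨t, ht⟩ := geom_sum_congr (p := p) (K := K) n
    obtain ⟨s, hs⟩ := hni
    rw [cyc, ← hn]
    push_cast at hs ⊢
    refine ⟨t - s * ((n.choose 2 : 𝓞 K) * piK p K + (n.choose 3 : 𝓞 K) * piK p K ^ 2), ?_⟩
    linear_combination ht - ((n.choose 2 : 𝓞 K) * piK p K + (n.choose 3 : 𝓞 K) * piK p K ^ 2) * hs
  · have h := congrArg (fun z : ℤ => (z : ZMod p)) (natCast_choose_two n)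
    push_cast at h
    push_cast
    rw [hi, eq_div_iff h2, ← han]
    field_simp
    linear_combination h
  · have h := congrArg (fun z : ℤ => (z : ZMod p)) (natCast_choose_two n)
    have h' := congrArg (fun z : ℤ => (z : ZMod p)) (natCast_choose_three n)
    push_cast at h h'
    have e2 : ((n.choose 2 : ℕ) : ZMod p) = (a : ZMod p) * ((a : ZMod p) - 1) / 2 := by
      rw [eq_div_iff h2, ← han]; linear_combination h
    have e3 : ((n.choose 3 : ℕ) : ZMod p) =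
        (a : ZMod p) * ((a : ZMod p) - 1) * ((a : ZMod p) - 2) / 6 := by
      rw [eq_div_iff h6, ← han]; linear_combination h'
    push_cast
    rw [hi, e2, e3]
    have := a.ne_zero
    field_simp
    ring

lemma sum_pow_units_eq_zero {i : ℕ} (h : ¬ p - 1 ∣ i) : ∑ a : (ZMod p)ˣ, (a : ZMod p) ^ i = 0 := by
  rw [FiniteField.sum_pow_units, ZMod.card, if_neg h]

lemma hasLog_eUnit (hp : 5 ≤ p) : HasLog p K (eUnit p K : 𝓞 K) 0 (-1 / 24) := by
  have h2 := two_ne_zero_zmod (p := p) (by omega)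
  have h := HasLog.prod (Finset.univ : Finset (ZMod p)ˣ) h2
    (fun a _ => (hasLog_cyc (K := K) hp a).pow h2 (ex p a⁻¹))
  rw [← coe_eUnit] at h
  simp only [natCast_ex] at h
  have hd1 : ¬ p - 1 ∣ 1 := fun hd => by have := Nat.le_of_dvd one_pos hd; omega
  have hd2 : ¬ p - 1 ∣ 2 := fun hd => by have := Nat.le_of_dvd two_pos hd; omega
  have hs1 : ∑ a : (ZMod p)ˣ, ((a⁻¹ : (ZMod p)ˣ) : ZMod p) = 0 := by
    rw [← sum_pow_units_eq_zero hd1, ← Equiv.sum_comp (Equiv.inv _)]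
    simp
  have hs2 : ∑ a : (ZMod p)ˣ, ((a⁻¹ : (ZMod p)ˣ) : ZMod p) ^ 2 = 0 := by
    rw [← sum_pow_units_eq_zero hd2, ← Equiv.sum_comp (Equiv.inv _)]
    simp
  have hs0 : ∑ _a : (ZMod p)ˣ, (1 : ZMod p) = -1 := by
    rw [Finset.sum_const, Finset.card_univ, ZMod.card_units, nsmul_one,
      Nat.cast_sub (Fact.out : p.Prime).one_le, ZMod.natCast_self]
    simp
  have e1 : ∀ a : (ZMod p)ˣ, ((a⁻¹ : (ZMod p)ˣ) : ZMod p) ^ 2 * (((a : ZMod p) - 1) / 2) =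
      (1 / 2) * ((a⁻¹ : (ZMod p)ˣ) : ZMod p) - (1 / 2) * ((a⁻¹ : (ZMod p)ˣ) : ZMod p) ^ 2 := by
    intro a
    have := a.ne_zero
    rw [Units.val_inv_eq_inv_val]
    field_simp
  have e2 : ∀ a : (ZMod p)ˣ, ((a⁻¹ : (ZMod p)ˣ) : ZMod p) ^ 2 *
      (((a : ZMod p) - 1) * ((a : ZMod p) - 5) / 24) =
      (1 / 24) * (1 : ZMod p) - (6 / 24) * ((a⁻¹ : (ZMod p)ˣ) : ZMod p) +
        (5 / 24) * ((a⁻¹ : (ZMod p)ˣ) : ZMod p) ^ 2 := by
    intro a
    have := a.ne_zero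
    rw [Units.val_inv_eq_inv_val]
    field_simp
    ring
  simp only [e1, e2, Finset.sum_add_distrib, Finset.sum_sub_distrib, ← Finset.mul_sum, hs0, hs1,
    hs2] at h
  convert h using 1 <;> ring

lemma hasLog_zK (hp : 3 ≤ p) : HasLog p K (zK p K) 1 (-1 / 2) := by
  refine ⟨1, 1, 0, by simp, ⟨0, by simp⟩, by simp, ?_⟩
  simp only [Int.cast_one, Int.cast_zero]
  ring

lemma hasLog_pow_p (hp : 3 ≤ p) {x : 𝓞 K} (hx : ¬ piK p K ∣ x) : HasLog p K (x ^ p) 0 0 := by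
  obtain ⟨n, hn⟩ := exists_int_piK_dvd_sub p K x
  have hn0 : (n : ZMod p) ≠ 0 := by
    intro h
    rw [ZMod.intCast_zmod_eq_zero_iff_dvd, ← piK_dvd_intCast_iff p K] at h
    exact hx (by simpa using dvd_add hn h)
  refine (hasLog_intCast (K := K) (n := n ^ p) ?_).congr ?_
  · push_cast
    exact pow_ne_zero _ hn0
  · simpa using piK_cube_dvd_pow_sub p K hp hn

lemma piK_not_dvd_unit (u : (𝓞 K)ˣ) : ¬ piK p K ∣ (u : 𝓞 K) := fun h =>
  (prime_piK p K).not_unit (isUnit_of_dvd_unit h u.isUnit)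

/-- A unit of finite order is a power of `ζ` times a `p`-th power. -/
lemma exists_eq_zeta_pow_mul (hp : 3 ≤ p) {t : (𝓞 K)ˣ} (ht : t ∈ torsion K) :
    ∃ (j : ℕ) (s : (𝓞 K)ˣ), (s = 1 ∨ s = -1) ∧ (t : 𝓞 K) = zK p K ^ j * (s : 𝓞 K) ∧
      (s : 𝓞 K) = (s : 𝓞 K) ^ p := by
  have hodd : Odd p := (Fact.out : p.Prime).odd_of_ne_two (by omega)
  have hfin : IsOfFinOrder ((t : 𝓞 K) : K) := by
    rw [torsion, CommGroup.mem_torsion] at ht
    exact (((algebraMap (𝓞 K) K).toMonoidHom.comp (Units.coeHom (𝓞 K))).isOfFinOrder ht)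
  obtain ⟨r, -, hr | hr⟩ := (zF_spec p K).exists_pow_or_neg_mul_pow_of_isOfFinOrder hodd hfin
  · exact ⟨r, 1, Or.inl rfl, RingOfIntegers.ext (by simpa using hr), by simp⟩
  · exact ⟨r, -1, Or.inr rfl, RingOfIntegers.ext (by simpa using hr),
      by simp [hodd.neg_one_pow]⟩

lemma sum_ex_three [Fact (Nat.Prime 3)] : ∑ a : (ZMod 3)ˣ, ex 3 a⁻¹ = 2 := by
  rw [show (Finset.univ : Finset (ZMod 3)ˣ) = {1, -1} by decide +revert]
  rw [Finset.sum_pair (by decide +revert)]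
  simp [ex, ZMod.val_one]

variable (p K) in
lemma exists_generator : ∃ g : (ZMod p)ˣ, ∀ a, a ∈ Subgroup.zpowers g :=
  IsCyclic.exists_generator

lemma unitCoord_eigen {u : (𝓞 K)ˣ} (hu : IsEigen p ((u : 𝓞 K) : K)) (g : (ZMod p)ˣ) :
    unitCoord p K (sgU p K g u) = ((g : ZMod p) ^ 2) • unitCoord p K u := by
  obtain ⟨y, hy⟩ := hu g
  let toK : (𝓞 K)ˣ →* K := (algebraMap (𝓞 K) K).toMonoidHom.comp (Units.coeHom (𝓞 K))
  have hyp : toK (sgU p K g u * (u ^ ex p g)⁻¹) = y ^ p := by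
    rw [map_mul, show toK (sgU p K g u) = toK (u ^ ex p g) * y ^ p by
      rw [map_pow]; exact (coe_sgU p K g u).trans hy, mul_comm, ← mul_assoc, ← map_mul,
      inv_mul_cancel, map_one, one_mul]
  obtain ⟨w, -, hw⟩ := exists_unit_pow_eq (p := p) (u := sgU p K g u * (u ^ ex p g)⁻¹) (y := y) hyp
  have : sgU p K g u = u ^ ex p g * w ^ p := by rw [← hw, mul_inv_cancel_comm_assoc]
  rw [this, unitCoord_mul, unitCoord_pow, unitCoord_pow, natCast_ex, ZMod.natCast_self, zero_smul,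
    add_zero]

lemma eUnit_eq_contra (hp : 5 ≤ p) {j : ℕ} {z s : (𝓞 K)ˣ}
    (hs : (s : 𝓞 K) = (s : 𝓞 K) ^ p)
    (h : (eUnit p K : 𝓞 K) = (z : 𝓞 K) ^ p * (zK p K ^ j * (s : 𝓞 K))) : False := by
  have h2 := two_ne_zero_zmod (p := p) (by omega)
  have h1 := hasLog_eUnit (K := K) hp
  have h3 : HasLog p K (eUnit p K : 𝓞 K) (j : ZMod p) ((j : ZMod p) * (-1 / 2)) := by
    rw [h, hs]
    have := (hasLog_pow_p (by omega) (piK_not_dvd_unit z)).mul h2
      (((hasLog_zK (K := K) (by omega)).pow h2 j).mul h2 (hasLog_pow_p (by omega) (piK_not_dvd_unit s)))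
    simpa using this
  obtain ⟨hA, hL⟩ := hasLog_unique hp h1 h3
  rw [← hA, zero_mul, div_eq_zero_iff, neg_eq_zero] at hL
  rcases hL with hL | hL
  · exact one_ne_zero hL
  · rw [show (24 : ZMod p) = 2 * 2 * 2 * 3 by norm_num] at hL
    exact mul_ne_zero (mul_ne_zero (mul_ne_zero h2 h2) h2) (three_ne_zero_zmod hp) hL

lemma unitCoord_eUnit_ne_zero (hp : 5 ≤ p) : unitCoord p K (eUnit p K) ≠ 0 := by
  intro h
  obtain ⟨z, t, ht, he⟩ := exists_eq_pow_mul_of_unitCoord_eq_zero p K h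
  obtain ⟨j, s, -, hts, hs⟩ := exists_eq_zeta_pow_mul (p := p) (by omega) ht
  refine eUnit_eq_contra hp (j := j) (z := z) (s := s) hs ?_
  rw [← hts, he, Units.val_mul, Units.val_pow_eq_pow_val]

/-- The eigen cyclotomic number is not a `p`-th power. -/
theorem eCyc_ne_pow (hp : 3 ≤ p) (y : K) : ((eCyc p K : 𝓞 K) : K) ≠ y ^ p := by
  intro h
  have hpp : p.Prime := Fact.out
  rcases lt_or_ge p 5 with h5 | h5
  · obtain rfl : p = 3 := by
      rcases Nat.lt_or_ge p 4 with h' | h'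
      · omega
      · exact absurd ((show p = 4 by omega) ▸ hpp) (by decide)
    have hy : IsIntegral ℤ y := IsIntegral.of_pow hpp.pos (h ▸ RingOfIntegers.isIntegral_coe _)
    obtain ⟨yI, rfl⟩ : ∃ yI : 𝓞 K, (yI : K) = y := ⟨⟨y, hy⟩, rfl⟩
    have h' : eCyc 3 K = yI ^ 3 := RingOfIntegers.ext (by simpa using h)
    rw [eCyc_eq, sum_ex_three] at h'
    have hπ := prime_piK 3 K
    have hd : piK 3 K ∣ yI ^ 3 := h' ▸ dvd_mul_of_dvd_right
      ((show piK 3 K ∣ (1 - zK 3 K) from ⟨-1, by ring⟩).trans (dvd_pow_self _ (by norm_num))) _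
    have hd3 : piK 3 K ^ 3 ∣ (eUnit 3 K : 𝓞 K) * piK 3 K ^ 2 := by
      rw [show piK 3 K ^ 2 = (1 - zK 3 K) ^ 2 by ring, h']
      exact pow_dvd_pow_of_dvd (hπ.dvd_of_dvd_pow hd) 3
    rw [pow_succ', mul_comm (eUnit 3 K : 𝓞 K), mul_comm (piK 3 K)] at hd3
    exact piK_not_dvd_unit _ ((mul_dvd_mul_iff_left (pow_ne_zero _ hπ.ne_zero)).1 hd3)
  · obtain ⟨y₀, hy0, hy₀⟩ := exists_eq_eUnit_mul (K := K) h5
    have : ((eUnit p K : 𝓞 K) : K) = (y / y₀) ^ p := by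
      rw [div_pow, ← h, hy₀, mul_div_cancel_right₀ _ (pow_ne_zero _ hy0)]
    obtain ⟨w, -, hw⟩ := exists_unit_pow_eq (p := p) this
    apply unitCoord_eUnit_ne_zero (K := K) h5
    rw [hw, unitCoord_pow, ZMod.natCast_self, zero_smul]

/-- An eigen-unit congruent to an integer modulo `(ζ - 1) ^ 3` is a `p`-th power. -/
theorem unit_eigen_eq_pow (hp : 3 ≤ p) {u : (𝓞 K)ˣ} (hu : IsEigen p ((u : 𝓞 K) : K))
    (hloc : ∃ k : ℤ, piK p K ^ 3 ∣ (u : 𝓞 K) - k) : ∃ y : K, ((u : 𝓞 K) : K) = y ^ p := by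
  have hpp : p.Prime := Fact.out
  rcases lt_or_ge p 5 with h5 | h5
  · obtain rfl : p = 3 := by
      rcases Nat.lt_or_ge p 4 with h' | h'
      · omega
      · exact absurd ((show p = 4 by omega) ▸ hpp) (by decide)
    have hr : rank K = 0 := by
      rw [rank, card_infinitePlace (p := 3) le_rfl]
    have hc : unitCoord 3 K u = 0 := by
      ext i
      exact absurd i.2 (by omega)
    obtain ⟨z, t, ht, rfl⟩ := exists_eq_pow_mul_of_unitCoord_eq_zero 3 K hc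
    obtain ⟨j, s, -, hts, hs⟩ := exists_eq_zeta_pow_mul le_rfl ht
    have hsK : ((s : 𝓞 K) : K) ^ 3 = ((s : 𝓞 K) : K) := by rw [← map_pow, ← hs]
    have hzj : ∃ y : K, zF 3 K ^ j = y ^ 3 := by
      obtain ⟨y, hy⟩ := hu (-1)
      have hz0 : ((z : 𝓞 K) : K) ≠ 0 := by simp
      have hs0 : ((s : 𝓞 K) : K) ≠ 0 := by simp
      have hζ0 : zF 3 K ≠ 0 := (zF_spec 3 K).ne_zero (by norm_num)
      have e1 : ((((z ^ 3 * t : (𝓞 K)ˣ)) : 𝓞 K) : K) =
          ((z : 𝓞 K) : K) ^ 3 * (zF 3 K ^ j * ((s : 𝓞 K) : K) ^ 3) := by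
        rw [Units.val_mul, hts]
        simp [hsK]
      have hex : ex 3 (-1) = 1 := by simp [ex, ZMod.val_one]
      have hval : ((-1 : (ZMod 3)ˣ) : ZMod 3).val = 2 := rfl
      rw [e1, hex, pow_one] at hy
      simp only [map_mul, map_pow, sg_zF, hval] at hy
      refine ⟨y * (((z : 𝓞 K) : K) * ((s : 𝓞 K) : K)) /
        (sg 3 K (-1) ((z : 𝓞 K) : K) * sg 3 K (-1) ((s : 𝓞 K) : K)), ?_⟩
      have hz0' : sg 3 K (-1) ((z : 𝓞 K) : K) ≠ 0 := by simp
      have hs0' : sg 3 K (-1) ((s : 𝓞 K) : K) ≠ 0 := by simp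
      rw [div_pow, eq_div_iff (pow_ne_zero _ (mul_ne_zero hz0' hs0'))]
      apply mul_left_cancel₀ (pow_ne_zero j hζ0)
      linear_combination hy
    obtain ⟨y, hy⟩ := hzj
    refine ⟨((z : 𝓞 K) : K) * (y * ((s : 𝓞 K) : K)), ?_⟩
    rw [Units.val_mul, hts]
    simp [mul_pow, hy, hsK]
  · obtain ⟨g, hg⟩ := exists_generator p
    obtain ⟨i, hi⟩ := exists_unitCoord_eq_smul p K hp hg (unitCoord_eigen hu g)
      (unitCoord_eigen (isEigen_eUnit h5) g) (unitCoord_eUnit_ne_zero h5)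
    have hc : unitCoord p K (u * eUnit p K ^ (-i).val) = 0 := by
      rw [unitCoord_mul, unitCoord_pow, hi, ZMod.natCast_val, ZMod.cast_id', id, neg_smul,
        add_neg_cancel]
    obtain ⟨z, t, ht, he⟩ := exists_eq_pow_mul_of_unitCoord_eq_zero p K hc
    obtain ⟨j, s, -, hts, hs⟩ := exists_eq_zeta_pow_mul hp ht
    have he' : (u : 𝓞 K) * (eUnit p K : 𝓞 K) ^ (-i).val =
        (z : 𝓞 K) ^ p * (zK p K ^ j * (s : 𝓞 K) ^ p) := by
      rw [← hs, ← hts]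
      exact_mod_cast congrArg Units.val he
    obtain ⟨k, hk⟩ := hloc
    have hk0 : (k : ZMod p) ≠ 0 := by
      intro h
      rw [ZMod.intCast_zmod_eq_zero_iff_dvd, ← piK_dvd_intCast_iff p K] at h
      exact piK_not_dvd_unit u (by simpa using dvd_add (dvd_trans (dvd_pow_self _ (by norm_num)) hk) h)
    have h2 := two_ne_zero_zmod (p := p) hp
    have hl1 := ((hasLog_intCast (K := K) hk0).congr hk).mul h2
      ((hasLog_eUnit (K := K) h5).pow h2 (-i).val)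
    have hl2 := (hasLog_pow_p hp (piK_not_dvd_unit z)).mul h2
      (((hasLog_zK (K := K) hp).pow h2 j).mul h2 (hasLog_pow_p hp (piK_not_dvd_unit s)))
    rw [← he'] at hl2
    obtain ⟨hA, hL⟩ := hasLog_unique h5 hl1 hl2
    simp only [mul_zero, add_zero, zero_add, mul_one, ZMod.natCast_val, ZMod.cast_id', id] at hA hL
    rw [← hA] at hL
    have h24 : (24 : ZMod p) ≠ 0 := by
      rw [show (24 : ZMod p) = 2 * 2 * 2 * 3 by norm_num]
      exact mul_ne_zero (mul_ne_zero (mul_ne_zero h2 h2) h2) (three_ne_zero_zmod h5)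
    have hi0 : i = 0 := by
      rw [zero_mul] at hL
      rcases mul_eq_zero.1 hL with h | h
      · simpa using h
      · exact absurd h (div_ne_zero (neg_ne_zero.2 one_ne_zero) h24)
    have hj : zK p K ^ j = 1 := by
      obtain ⟨c, hc⟩ := (ZMod.natCast_eq_zero_iff _ _).1 hA.symm
      rw [hc, pow_mul, (zK_spec p K).pow_eq_one, one_pow]
    refine ⟨((z : 𝓞 K) : K) * ((s : 𝓞 K) : K), ?_⟩
    rw [hi0, neg_zero, ZMod.val_zero, pow_zero, mul_one, hj, one_mul, ← mul_pow] at he'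
    rw [he']
    simp [mul_pow]

end Fermat.Agent.ExtVanish
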