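import Mathlib
import Fermat.Agent.ExtVanish.ClassEigen
import Fermat.Agent.ExtVanish.Units

/-!
Thaine's argument: at a degree one prime on whose class an eigen character is nontrivial, the eigen
cyclotomic number is a `p`-th power residue.
-/

set_option autoImplicit false
set_option maxSynthPendingDepth 3
set_option maxHeartbeats 1600000

open NumberField IsDedekindDomain Ideal UniqueFactorizationMonoid
open scoped nonZeroDivisors Pointwise Classical

noncomputable section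

namespace Fermat.Agent.ExtVanish

/-- Modulo an ideal of prime norm every element is a rational integer. -/
lemma exists_int_sub_mem_of_absNorm {L : Type*} [Field L] [NumberField L] {I : Ideal (𝓞 L)} {q : ℕ}
    [Fact q.Prime] (hI : Ideal.absNorm I = q) (x : 𝓞 L) : ∃ n : ℤ, x - n ∈ I := by
  have hq : q.Prime := Fact.out
  have hcard : Nat.card (𝓞 L ⧸ I) = q := by
    rwa [Ideal.absNorm_apply, Submodule.cardQuot_apply] at hI
  haveI : Finite (𝓞 L ⧸ I) := Nat.finite_of_card_ne_zero (hcard ▸ hq.ne_zero)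
  haveI : Nontrivial (𝓞 L ⧸ I) := Finite.one_lt_card_iff_nontrivial.1 (hcard ▸ hq.one_lt)
  haveI : CharP (𝓞 L ⧸ I) q := by
    refine (CharP.charP_iff_prime_eq_zero hq).2 ?_
    rw [← map_natCast (Ideal.Quotient.mk I), Ideal.Quotient.eq_zero_iff_mem, ← hI]
    exact Ideal.absNorm_mem I
  have hsurj : Function.Surjective (ZMod.castHom dvd_rfl (𝓞 L ⧸ I)) := by
    refine ((Nat.bijective_iff_injective_and_card _).2 ⟨ZMod.castHom_injective _, ?_⟩).surjective
    rw [hcard, Nat.card_zmod]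
  obtain ⟨m, hm⟩ := hsurj (Ideal.Quotient.mk I x)
  refine ⟨(m.val : ℤ), ?_⟩
  rw [← Ideal.Quotient.eq_zero_iff_mem, map_sub, map_intCast,
    Int.cast_natCast, ← hm, ZMod.castHom_apply, ZMod.natCast_val, sub_self]

lemma sub_one_dvd_natCast_prime {R : Type*} [CommRing R] [IsDomain R] {x : R} {q : ℕ} (hq : q.Prime)
    (hx : IsPrimitiveRoot x q) : x - 1 ∣ (q : R) := by
  obtain ⟨j, rfl⟩ : ∃ j, q = j + 1 := ⟨q - 1, by have := hq.pos; omega⟩
  have hj0 : 0 ∈ Finset.range j := Finset.mem_range.2 (by have := hq.two_le; omega)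
  rw [Nat.cast_add_one, ← hx.prod_one_sub_pow_eq_order]
  exact dvd_trans ⟨-1, by ring⟩ (Finset.dvd_prod_of_mem _ hj0)

lemma sub_one_mem_of_natCast_mem {R : Type*} [CommRing R] [IsDomain R] {x : R} {q : ℕ} (hq : q.Prime)
    (hx : IsPrimitiveRoot x q) {P : Ideal R} (hP : P.IsPrime) (h : (q : R) ∈ P) : x - 1 ∈ P := by
  obtain ⟨j, rfl⟩ : ∃ j, q = j + 1 := ⟨q - 1, by have := hq.pos; omega⟩
  rw [Nat.cast_add_one, ← hx.prod_one_sub_pow_eq_order] at h
  obtain ⟨i, hi, hmem⟩ := hP.prod_mem_iff.1 h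
  have hcop : (i + 1).Coprime (j + 1) := by
    rw [Nat.coprime_comm, hq.coprime_iff_not_dvd]
    exact fun h => by
      have := Nat.le_of_dvd (by omega) h
      have := Finset.mem_range.1 hi
      omega
  exact P.mem_of_dvd (hx.associated_sub_one_pow_sub_one_of_coprime hcop).symm.dvd
    (by rw [← neg_sub]; exact neg_mem hmem)

variable {p : ℕ} [Fact p.Prime] {K : Type} [Field K] [NumberField K] [IsCyclotomicExtension {p} ℚ K]

lemma sgI_one (x : 𝓞 K) : sgI p K 1 x = x := RingOfIntegers.ext (by simp [sg_one])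

lemma sgI_inv_apply (a : (ZMod p)ˣ) (x : 𝓞 K) : sgI p K a⁻¹ (sgI p K a x) = x := by
  rw [← sgI_mul, inv_mul_cancel, sgI_one]

/-- A degree one prime over `q ≠ p` and its conjugates. -/
structure SplitPrime (p : ℕ) [Fact p.Prime] (K : Type) [Field K] [NumberField K]
    [IsCyclotomicExtension {p} ℚ K] (q : ℕ) where
  /-- The prime ideal. -/
  v : HeightOneSpectrum (𝓞 K)
  absNorm_eq : Ideal.absNorm v.asIdeal = q
  ne : q ≠ p

namespace SplitPrime

variable {q : ℕ} [hqF : Fact q.Prime] (S : SplitPrime p K q)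

/-- The conjugate of the prime by `a`. -/
def conj (a : (ZMod p)ˣ) : Ideal (𝓞 K) := S.v.asIdeal.map (sgI p K a : 𝓞 K →+* 𝓞 K)

lemma mem_conj_iff (a : (ZMod p)ˣ) (x : 𝓞 K) : x ∈ S.conj a ↔ sgI p K a⁻¹ x ∈ S.v.asIdeal := by
  rw [conj, Ideal.mem_map_iff_of_surjective (sgI p K a : 𝓞 K →+* 𝓞 K) (sgI p K a).surjective]
  constructor
  · rintro ⟨y, hy, rfl⟩
    rw [RingEquiv.coe_toRingHom, sgI_inv_apply]
    exact hy
  · intro h
    exact ⟨_, h, by rw [RingEquiv.coe_toRingHom, ← sgI_mul, mul_inv_cancel, sgI_one]⟩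

lemma q_mem : (q : 𝓞 K) ∈ S.v.asIdeal := by
  have := Ideal.absNorm_mem S.v.asIdeal
  rwa [S.absNorm_eq] at this

lemma p_not_mem : (p : 𝓞 K) ∉ S.v.asIdeal := by
  intro hmem
  have h1 : IsCoprime (q : ℤ) (p : ℤ) :=
    Nat.isCoprime_iff_coprime.2 ((Nat.coprime_primes hqF.out Fact.out).2 S.ne)
  obtain ⟨s, t, hst⟩ := h1
  apply S.v.isPrime.ne_top
  rw [Ideal.eq_top_iff_one]
  have := congrArg (Int.cast : ℤ → 𝓞 K) hst
  push_cast at this
  rw [← this]
  exact add_mem (Ideal.mul_mem_left _ _ S.q_mem) (Ideal.mul_mem_left _ _ hmem)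

lemma sub_one_not_mem : zK p K - 1 ∉ S.v.asIdeal := fun h => S.p_not_mem
  (S.v.asIdeal.mem_of_dvd (piK_dvd_natCast_p p K) h)

lemma pow_sub_one_not_mem {n : ℕ} (hn : (n : ZMod p) ≠ 0) : zK p K ^ n - 1 ∉ S.v.asIdeal := by
  intro h
  have hc : n.Coprime p := by
    rw [Nat.coprime_comm, (Fact.out : p.Prime).coprime_iff_not_dvd, ← ZMod.natCast_eq_zero_iff]
    exact hn
  exact S.sub_one_not_mem (S.v.asIdeal.mem_of_dvd
    ((zK_spec p K).associated_sub_one_pow_sub_one_of_coprime hc).symm.dvd h)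

include S in
lemma q_modEq_one : (q : ZMod p) = 1 := by
  haveI := S.v.isPrime.isMaximal S.v.ne_bot
  letI := Ideal.Quotient.field S.v.asIdeal
  set z := Ideal.Quotient.mk S.v.asIdeal (zK p K) with hz
  have hprim : IsPrimitiveRoot z p := by
    refine IsPrimitiveRoot.mk_of_lt _ (Fact.out : p.Prime).pos ?_ fun l hl hlp h1 => ?_
    · rw [hz, ← map_pow, (zK_spec p K).pow_eq_one, map_one]
    · apply S.pow_sub_one_not_mem (n := l)
      · rw [Ne, ZMod.natCast_eq_zero_iff]
        exact fun h => by have := Nat.le_of_dvd hl h; omega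
      · rwa [← Ideal.Quotient.eq_zero_iff_mem, map_sub, map_one, map_pow, sub_eq_zero]
  have hcard : Nat.card (𝓞 K ⧸ S.v.asIdeal) = q := by
    have := S.absNorm_eq
    rwa [Ideal.absNorm_apply, Submodule.cardQuot_apply] at this
  haveI : Finite (𝓞 K ⧸ S.v.asIdeal) := Nat.finite_of_card_ne_zero (by rw [hcard]; exact hqF.out.ne_zero)
  letI : Fintype (𝓞 K ⧸ S.v.asIdeal) := Fintype.ofFinite _
  have hz0 : z ≠ 0 := hprim.ne_zero (Fact.out : p.Prime).ne_zero
  have h1 := FiniteField.pow_card_sub_one_eq_one z hz0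
  rw [← Nat.card_eq_fintype_card, hcard] at h1
  have h2 := hprim.dvd_of_pow_eq_one _ h1
  rw [← ZMod.natCast_eq_zero_iff, Nat.cast_sub hqF.out.one_le, sub_eq_zero] at h2
  simpa using h2

lemma conj_isMaximal (a : (ZMod p)ˣ) : (S.conj a).IsMaximal :=
  haveI := S.v.isPrime.isMaximal S.v.ne_bot
  Ideal.map_isMaximal_of_equiv (sgI p K a)

lemma absNorm_conj (a : (ZMod p)ˣ) : Ideal.absNorm (S.conj a) = q := by
  refine Eq.trans ?_ S.absNorm_eq
  rw [Ideal.absNorm_apply, Submodule.cardQuot_apply, Ideal.absNorm_apply, Submodule.cardQuot_apply]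
  exact (Nat.card_congr (Ideal.quotientEquiv _ _ (sgI p K a) rfl).toEquiv).symm

lemma conj_ne_bot (a : (ZMod p)ˣ) : S.conj a ≠ ⊥ := fun h => by
  have := S.absNorm_conj a
  rw [h, Ideal.absNorm_bot] at this
  exact hqF.out.ne_zero this.symm

lemma q_mem_conj (a : (ZMod p)ˣ) : (q : 𝓞 K) ∈ S.conj a := by
  rw [mem_conj_iff, map_natCast]
  exact S.q_mem

lemma conj_injective : Function.Injective S.conj := by
  intro a b hab
  obtain ⟨n, hn⟩ := exists_int_sub_mem_of_absNorm S.absNorm_eq (zK p K)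
  have key : zK p K ^ ((b⁻¹ * a : (ZMod p)ˣ) : ZMod p).val - zK p K ∈ S.v.asIdeal := by
    have h1 : sgI p K a (zK p K - n) ∈ S.conj a := by
      rw [mem_conj_iff, sgI_inv_apply]
      exact hn
    rw [hab, mem_conj_iff, ← sgI_mul, map_sub, map_intCast, sgI_zK] at h1
    have h2 := sub_mem h1 hn
    rwa [sub_sub_sub_cancel_right] at h2
  by_contra hne
  set c : (ZMod p)ˣ := b⁻¹ * a
  have hc : (c : ZMod p) ≠ 1 := by
    rw [← Units.val_one, Ne, ← Units.ext_iff]
    intro h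
    exact hne (inv_mul_eq_one.1 h).symm
  apply S.pow_sub_one_not_mem (n := ((c : ZMod p) - 1).val) (by simpa [sub_eq_zero] using hc)
  have h2 : zK p K ^ (c : ZMod p).val = zK p K * zK p K ^ ((c : ZMod p) - 1).val := by
    rw [← pow_succ']
    exact pow_congr_of_pow_eq_one (zK_spec p K).pow_eq_one (by simp)
  rw [h2, ← mul_sub_one] at key
  refine (S.v.isPrime.mem_or_mem key).resolve_left fun hmem => S.v.isPrime.ne_top ?_
  exact Ideal.eq_top_of_isUnit_mem _ hmem ((zK_spec p K).isUnit (Fact.out : p.Prime).ne_zero)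

lemma prod_conj : ∏ a : (ZMod p)ˣ, S.conj a = span {(q : 𝓞 K)} := by
  classical
  have hdvd : ∏ a : (ZMod p)ˣ, S.conj a ∣ span {(q : 𝓞 K)} := by
    refine Finset.prod_dvd_of_coprime (fun a _ b _ hab => ?_) fun a _ => ?_
    · exact (Ideal.isCoprime_iff_sup_eq.2
        ((S.conj_isMaximal a).coprime_of_ne (S.conj_isMaximal b) (S.conj_injective.ne hab)))
    · rw [Ideal.dvd_span_singleton]
      exact S.q_mem_conj a
  obtain ⟨R, hR⟩ := hdvd
  have h1 := congrArg Ideal.absNorm hR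
  rw [map_mul, map_prod, Finset.prod_congr rfl fun a _ => S.absNorm_conj a, Finset.prod_const,
    Finset.card_univ, ZMod.card_units, Ideal.absNorm_span_singleton,
    show (q : 𝓞 K) = algebraMap ℤ (𝓞 K) q from (map_natCast _ q).symm, Algebra.norm_algebraMap,
    RingOfIntegers.rank, IsCyclotomicExtension.finrank (n := p) K
      (Polynomial.cyclotomic.irreducible_rat (Fact.out : p.Prime).pos),
    Nat.totient_prime Fact.out, Int.natAbs_pow, Int.natAbs_natCast] at h1
  have hR1 : Ideal.absNorm R = 1 :=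
    (mul_eq_left₀ (pow_ne_zero _ hqF.out.ne_zero)).1 h1.symm
  rw [Ideal.absNorm_eq_one_iff] at hR1
  rw [hR, hR1, Ideal.mul_top]

lemma not_sq_dvd (a : (ZMod p)ˣ) : ¬ S.conj a ^ 2 ∣ span {(q : 𝓞 K)} := by
  classical
  intro h
  rw [← S.prod_conj, ← Finset.mul_prod_erase _ _ (Finset.mem_univ a), pow_two,
    mul_dvd_mul_iff_left (S.conj_ne_bot a)] at h
  haveI := S.conj_isMaximal a
  have hprime : Prime (S.conj a) := Ideal.prime_of_isPrime (S.conj_ne_bot a) inferInstance
  obtain ⟨b, hb, hdvd⟩ := hprime.exists_mem_finset_dvd h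
  refine (Finset.mem_erase.1 hb).1 (S.conj_injective ?_)
  exact (S.conj_isMaximal b).eq_of_le (S.conj_isMaximal a).ne_top (Ideal.le_of_dvd hdvd)

lemma exists_conj_of_mem [IsGalois ℚ K] {w : Ideal (𝓞 K)} [w.IsPrime] (hq : (q : 𝓞 K) ∈ w) :
    ∃ a, w = S.conj a := by
  have h : ∏ a : (ZMod p)ˣ, S.conj a ≤ w := by
    rw [S.prod_conj, Ideal.span_singleton_le_iff_mem]
    exact hq
  obtain ⟨a, -, ha⟩ := (Ideal.IsPrime.prod_le inferInstance).1 h
  exact ⟨a, ((S.conj_isMaximal a).eq_of_le (Ideal.IsPrime.ne_top inferInstance) ha).symm⟩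

end SplitPrime

section Aux

variable {q : ℕ} [hqF : Fact q.Prime]

local notation "M" => CyclotomicField q K

lemma irreducible_cyclotomic_over (hpq : q ≠ p) :
    Irreducible (Polynomial.cyclotomic q K) := by
  classical
  set ξ : M := IsCyclotomicExtension.zeta q K M
  have hξ : IsPrimitiveRoot ξ q := IsCyclotomicExtension.zeta_spec q K M
  have hζ : IsPrimitiveRoot (algebraMap K M (zF p K)) p :=
    (zF_spec p K).map_of_injective (algebraMap K M).injective
  have hco : p.Coprime q := (Nat.coprime_primes Fact.out hqF.out).2 hpq.symm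
  have hz : IsPrimitiveRoot (algebraMap K M (zF p K) * ξ) (p * q) := by
    have ho := (Commute.all (algebraMap K M (zF p K)) ξ).orderOf_mul_eq_mul_orderOf_of_coprime
      (by rwa [← hζ.eq_orderOf, ← hξ.eq_orderOf])
    rw [← hζ.eq_orderOf, ← hξ.eq_orderOf] at ho
    exact ho ▸ IsPrimitiveRoot.orderOf _
  have h1 : Nat.totient (p * q) ≤ Module.finrank ℚ M := by
    have hm := Polynomial.cyclotomic_eq_minpoly_rat hz
      (Nat.mul_pos (Fact.out : p.Prime).pos hqF.out.pos)
    have := minpoly.natDegree_le (A := ℚ) (algebraMap K M (zF p K) * ξ)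
    rwa [← hm, Polynomial.natDegree_cyclotomic] at this
  have h2 : Module.finrank ℚ K * Module.finrank K M = Module.finrank ℚ M :=
    Module.finrank_mul_finrank ℚ K M
  rw [Nat.totient_mul hco, ← h2, IsCyclotomicExtension.finrank (n := p) K
    (Polynomial.cyclotomic.irreducible_rat (Fact.out : p.Prime).pos), Nat.totient_prime Fact.out,
    Nat.totient_prime hqF.out] at h1
  have h3 : q - 1 ≤ Module.finrank K M :=
    Nat.le_of_mul_le_mul_left h1 (by have := (Fact.out : p.Prime).two_le; omega)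
  have hint : IsIntegral K ξ := Algebra.IsIntegral.isIntegral ξ
  have h4 : (minpoly K ξ).natDegree = Module.finrank K M := by
    rw [← IntermediateField.adjoin.finrank hint]
    have : IntermediateField.adjoin K {ξ} = ⊤ := by
      apply IntermediateField.toSubalgebra_injective
      rw [IntermediateField.adjoin_simple_toSubalgebra_of_isAlgebraic hint.isAlgebraic,
        IntermediateField.top_toSubalgebra]
      exact IsCyclotomicExtension.adjoin_primitive_root_eq_top hξ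
    rw [this, IntermediateField.finrank_top']
  have hroot : Polynomial.aeval ξ (Polynomial.cyclotomic q K) = 0 := by
    rw [Polynomial.aeval_def, Polynomial.eval₂_eq_eval_map, Polynomial.map_cyclotomic]
    exact hξ.isRoot_cyclotomic hqF.out.pos
  have heq : minpoly K ξ = Polynomial.cyclotomic q K :=
    (Polynomial.eq_of_monic_of_dvd_of_natDegree_le (minpoly.monic hint)
      (Polynomial.cyclotomic.monic q K) (minpoly.dvd K ξ hroot)
      (by rw [Polynomial.natDegree_cyclotomic, Nat.totient_prime hqF.out, h4]; exact h3)).symm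
  exact heq ▸ minpoly.irreducible hint

end Aux

/-- Additive form of a class group character, on ideals. -/
def idealChar (π : ClassGroup (𝓞 K) →* Multiplicative (ZMod p)) (I : Ideal (𝓞 K)) : ZMod p :=
  if h : I ∈ (Ideal (𝓞 K))⁰ then Multiplicative.toAdd (π (ClassGroup.mk0 ⟨I, h⟩)) else 0

variable (π : ClassGroup (𝓞 K) →* Multiplicative (ZMod p))

omit [IsCyclotomicExtension {p} ℚ K] in
lemma idealChar_mul {I J : Ideal (𝓞 K)} (hI : I ≠ ⊥) (hJ : J ≠ ⊥) :
    idealChar π (I * J) = idealChar π I + idealChar π J := by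
  have hI' : I ∈ (Ideal (𝓞 K))⁰ := mem_nonZeroDivisors_iff_ne_zero.2 hI
  have hJ' : J ∈ (Ideal (𝓞 K))⁰ := mem_nonZeroDivisors_iff_ne_zero.2 hJ
  rw [idealChar, idealChar, idealChar, dif_pos (mul_mem hI' hJ'), dif_pos hI', dif_pos hJ',
    ← toAdd_mul, ← map_mul, ← map_mul]
  rfl

omit [IsCyclotomicExtension {p} ℚ K] in
lemma idealChar_top : idealChar π (⊤ : Ideal (𝓞 K)) = 0 := by
  have h : (⊤ : Ideal (𝓞 K)) ∈ (Ideal (𝓞 K))⁰ := mem_nonZeroDivisors_iff_ne_zero.2 top_ne_bot
  rw [idealChar, dif_pos h, show (⟨⊤, h⟩ : (Ideal (𝓞 K))⁰) = 1 from Subtype.ext Ideal.one_eq_top.symm,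
    map_one, map_one, toAdd_one]

omit [IsCyclotomicExtension {p} ℚ K] in
lemma idealChar_prod_pow {ι : Type*} (s : Finset ι) (f : ι → Ideal (𝓞 K)) (n : ι → ℕ)
    (h : ∀ i ∈ s, f i ≠ ⊥) :
    idealChar π (∏ i ∈ s, f i ^ n i) = ∑ i ∈ s, (n i : ZMod p) * idealChar π (f i) := by
  classical
  induction s using Finset.induction with
  | empty => rw [Finset.prod_empty, Finset.sum_empty, Ideal.one_eq_top, idealChar_top]
  | insert i s hi ih =>
    have hs : ∏ j ∈ s, f j ^ n j ≠ ⊥ := Finset.prod_ne_zero_iff.2 fun j hj =>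
      pow_ne_zero _ (h j (Finset.mem_insert_of_mem hj))
    rw [Finset.prod_insert hi, Finset.sum_insert hi,
      idealChar_mul π (pow_ne_zero _ (h i (Finset.mem_insert_self i s))) hs,
      ih fun j hj => h j (Finset.mem_insert_of_mem hj)]
    congr 1
    have hfi := h i (Finset.mem_insert_self i s)
    induction n i with
    | zero => simp [Ideal.one_eq_top, idealChar_top]
    | succ m ihm => rw [pow_succ, idealChar_mul π (pow_ne_zero _ hfi) hfi, ihm]; push_cast; ring

omit [IsCyclotomicExtension {p} ℚ K] in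
lemma idealChar_span_singleton (x : 𝓞 K) : idealChar π (span {x}) = 0 := by
  by_cases h : span {x} ∈ (Ideal (𝓞 K))⁰
  · rw [idealChar, dif_pos h, (ClassGroup.mk0_eq_one_iff h).2 ⟨⟨x, rfl⟩⟩, map_one, toAdd_one]
  · rw [idealChar, dif_neg h]

/-- **Thaine's lemma**: `eCyc` is a `p`-th power residue at the degree one primes detected by the
eigen character. -/
theorem eCyc_isPow_residue (hπ : ∀ a C, Multiplicative.toAdd (π (clAct p K a C)) =
      (a : ZMod p) ^ 2 * Multiplicative.toAdd (π C))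
    {q : ℕ} [hqF : Fact q.Prime] (S : SplitPrime p K q) (hv : idealChar π S.v.asIdeal ≠ 0) :
    ∃ z : 𝓞 K, eCyc p K - z ^ p ∈ S.v.asIdeal := by
  classical
  have hpp : p.Prime := Fact.out
  haveI : IsGalois ℚ K := IsCyclotomicExtension.isGalois {p} ℚ K
  let M := CyclotomicField q K
  haveI : IsGalois K M := IsCyclotomicExtension.isGalois {q} K M
  have hirr := irreducible_cyclotomic_over (K := K) S.ne
  have hq1 : (q : ZMod p) = 1 := S.q_modEq_one
  have hq2 : q ≠ 2 := by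
    rintro rfl
    have h2 : ((2 : ℕ) : ZMod p) = ((1 : ℕ) : ZMod p) := by simpa using hq1
    rw [ZMod.natCast_eq_natCast_iff] at h2
    have := (Nat.modEq_iff_dvd' one_le_two).1 h2.symm
    exact hpp.one_lt.ne' (Nat.dvd_one.1 this)
  set G := Gal(M/K)
  let e : G ≃* (ZMod q)ˣ := IsCyclotomicExtension.autEquivPow M hirr
  set ξF : M := IsCyclotomicExtension.zeta q K M
  have hξF : IsPrimitiveRoot ξF q := IsCyclotomicExtension.zeta_spec q K M
  have he : ∀ (σ : G), σ ξF = ξF ^ (e σ : ZMod q).val := fun σ => (hξF.autToPow_spec K σ).symm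
  set ξ : 𝓞 M := hξF.toInteger
  have hξ : IsPrimitiveRoot ξ q := hξF.toInteger_isPrimitiveRoot
  have hσξ : ∀ σ : G, σ • ξ = ξ ^ (e σ : ZMod q).val := fun σ =>
    FaithfulSMul.algebraMap_injective (𝓞 M) M (by rw [map_pow]; exact he σ)
  have hcardG : Nat.card G = q - 1 := by
    rw [Nat.card_congr e.toEquiv, Nat.card_eq_fintype_card, ZMod.card_units]
  obtain ⟨g₀, hg₀⟩ : ∃ g₀ : (ZMod q)ˣ, ∀ x, x ∈ Subgroup.zpowers g₀ := IsCyclic.exists_generator
  set τ : G := e.symm g₀ with hτ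
  have hτgen : ∀ x : G, x ∈ Subgroup.zpowers τ := fun x => by
    obtain ⟨n, hn⟩ := hg₀ (e x)
    exact ⟨n, e.injective (by simpa [hτ] using hn)⟩
  haveI : IsCyclic G := ⟨⟨τ, hτgen⟩⟩
  set g : ℕ := (g₀ : ZMod q).val
  have hτξ : τ • ξ = ξ ^ g := by rw [hσξ, hτ, MulEquiv.apply_symm_apply]
  set ι := algebraMap (𝓞 K) (𝓞 M)
  set θ : 𝓞 M := 1 - ι (zK p K) * ξ with hθ
  have hθnorm : ∏ σ : G, σ • θ = 1 := by
    have hζq : zK p K ^ q = zK p K := by
      conv_rhs => rw [← pow_one (zK p K)]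
      exact pow_congr_of_pow_eq_one (zK_spec p K).pow_eq_one (by simpa using hq1)
    have h0 : ι (zK p K) ≠ 1 := by
      rw [← map_one ι]
      exact (FaithfulSMul.algebraMap_injective (𝓞 K) (𝓞 M)).ne ((zK_spec p K).ne_one hpp.one_lt)
    let f : ZMod q → 𝓞 M := fun x => 1 - ι (zK p K) * ξ ^ x.val
    have hf : ∀ σ : G, σ • θ = f (e σ) := fun σ => by
      simp only [f, θ, smul_sub, smul_one, smul_mul', hσξ]
      rw [show σ • ι (zK p K) = ι (zK p K) from smul_algebraMap σ _]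
    rw [Finset.prod_congr rfl fun σ _ => hf σ]
    refine Eq.trans (e.toEquiv.prod_comp (fun x : (ZMod q)ˣ => f x)) ?_
    have hall : ∏ x : ZMod q, f x = 1 - ι (zK p K) := by
      have h1 := hξ.pow_sub_pow_eq_prod_sub_mul (x := 1) (y := ι (zK p K)) hqF.out.pos
      rw [one_pow, ← map_pow, hζq] at h1
      rw [h1]
      refine Finset.prod_bij (fun x _ => ξ ^ x.val) (fun x _ => ?_) (fun x _ y _ h => ?_)
        (fun μ hμ => ?_) (fun x _ => by simp [f, mul_comm])
      · rw [Polynomial.mem_nthRootsFinset hqF.out.pos, ← pow_mul, mul_comm, pow_mul, hξ.pow_eq_one,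
          one_pow]
      · exact ZMod.val_injective q (hξ.pow_inj x.val_lt y.val_lt h)
      · obtain ⟨i, hi, rfl⟩ := hξ.eq_pow_of_pow_eq_one
          ((Polynomial.mem_nthRootsFinset hqF.out.pos _).1 hμ)
        exact ⟨(i : ZMod q), Finset.mem_univ _, by rw [ZMod.val_natCast, Nat.mod_eq_of_lt hi]⟩
    rw [← Finset.mul_prod_erase _ _ (Finset.mem_univ (0 : ZMod q))] at hall
    have hf0 : f 0 = 1 - ι (zK p K) := by simp [f]
    rw [hf0, mul_eq_left₀ (sub_ne_zero.2 h0.symm)] at hall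
    rw [← hall]
    refine Finset.prod_bij (fun x _ => (x : ZMod q)) (fun x _ => by simp) (fun x _ y _ h => Units.ext h)
      (fun x hx => ⟨Units.mk0 x (Finset.ne_of_mem_erase hx), Finset.mem_univ _, rfl⟩) (fun x _ => rfl)
  obtain ⟨θ', hθ'⟩ : ∃ θ', θ * θ' = 1 := by
    have := Finset.mul_prod_erase Finset.univ (fun σ : G => σ • θ) (Finset.mem_univ 1)
    rw [hθnorm, one_smul] at this
    exact ⟨_, this⟩
  have hθ'norm : Algebra.norm K (algebraMap (𝓞 M) M θ') = 1 := by
    apply (algebraMap K M).injective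
    rw [Algebra.norm_eq_prod_automorphisms, map_one]
    have h1 : ∏ σ : G, σ • θ' = 1 := by
      have := Finset.prod_mul_distrib (s := Finset.univ) (f := fun σ : G => σ • θ)
        (g := fun σ : G => σ • θ')
      simp only [← smul_mul', hθ', smul_one, Finset.prod_const_one, hθnorm, one_mul] at this
      exact this.symm
    rw [← map_one (algebraMap (𝓞 M) M), ← h1, map_prod]
    rfl
  obtain ⟨γ, hγ0, hγ⟩ := groupCohomology.exists_mul_galRestrict_of_norm_eq_one
    (A := 𝓞 K) (B := 𝓞 M) hτgen hθ'norm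
  have hγτ : τ • γ = θ * γ := by
    have h1 : θ' * (τ • γ) = γ := by
      rw [show τ • γ = galRestrict (𝓞 K) K M (𝓞 M) τ γ from RingOfIntegers.ext
        (algebraMap_galRestrict_apply (𝓞 K) τ γ).symm]
      exact hγ
    rw [← one_mul (τ • γ), ← hθ', mul_assoc, h1]
  set I : Ideal (𝓞 M) := span {γ} with hI
  have hI0 : I ≠ ⊥ := by simpa [I] using hγ0
  have hGI : ∀ σ : G, σ • I = I := by
    have hτI : τ • I = I := by
      rw [hI, Ideal.pointwise_smul_def, Ideal.map_span, Set.image_singleton]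
      show span {τ • γ} = span {γ}
      rw [hγτ, Ideal.span_singleton_eq_span_singleton]
      exact associated_unit_mul_left γ θ (IsUnit.of_mul_eq_one θ' hθ')
    intro σ
    exact (Subgroup.zpowers_le (H := MulAction.stabilizer G I)).2 hτI (hτgen σ)
  set cnt : Ideal (𝓞 M) → ℕ := fun Q => (normalizedFactors I).count Q with hcnt
  have hdvd_iff : ∀ (σ : G) (J : Ideal (𝓞 M)), σ • J ∣ I ↔ J ∣ I := fun σ J => by
    rw [Ideal.dvd_iff_le, Ideal.dvd_iff_le]
    conv_lhs => rw [← hGI σ]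
    exact Ideal.pointwise_smul_le_pointwise_smul_iff
  have hsmulpow : ∀ (σ : G) (J : Ideal (𝓞 M)) (n : ℕ), σ • J ^ n = (σ • J) ^ n := fun σ J n => by
    rw [Ideal.pointwise_smul_def, Ideal.pointwise_smul_def, Ideal.map_pow]
  have hle_iff : ∀ (Q : Ideal (𝓞 M)), Q.IsPrime → Q ≠ ⊥ → ∀ n : ℕ, Q ^ n ∣ I ↔ n ≤ cnt Q := by
    intro Q hQ hQ0 n
    rw [dvd_iff_normalizedFactors_le_normalizedFactors (pow_ne_zero _ hQ0) hI0,
      normalizedFactors_pow, normalizedFactors_irreducible (Ideal.prime_of_isPrime hQ0 hQ).irreducible,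
      normalize_eq, Multiset.nsmul_singleton]
    exact Multiset.le_count_iff_replicate_le.symm
  have hcnt_smul : ∀ (σ : G) (Q : Ideal (𝓞 M)), Q.IsPrime → Q ≠ ⊥ → cnt (σ • Q) = cnt Q := by
    intro σ Q hQ hQ0
    haveI := hQ
    have hσQ : (σ • Q).IsPrime := inferInstance
    have hσQ0 : σ • Q ≠ ⊥ := by
      intro h
      apply hQ0
      rw [← inv_smul_smul σ Q, h, Ideal.pointwise_smul_def, Ideal.map_bot]
    apply eq_of_forall_le_iff
    intro n
    rw [← hle_iff _ hσQ hσQ0, ← hle_iff _ hQ hQ0, ← hsmulpow, hdvd_iff]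
  set fib : Ideal (𝓞 K) → ZMod p := fun w =>
    ∑ Q ∈ (normalizedFactors I).toFinset with Q.under (𝓞 K) = w,
      (cnt Q : ZMod p) * (Q.inertiaDeg (𝓞 K) : ZMod p) with hfib
  have hmemF : ∀ Q ∈ (normalizedFactors I).toFinset, Q.IsPrime ∧ Q ≠ ⊥ := fun Q hQ => by
    rw [Multiset.mem_toFinset] at hQ
    exact ⟨((Ideal.mem_normalizedFactors_iff hI0).1 hQ).1, ne_zero_of_mem_normalizedFactors hQ⟩
  set W := ((normalizedFactors I).toFinset.image fun Q => Q.under (𝓞 K)) with hW
  have hWmax : ∀ w ∈ W, w.IsMaximal ∧ w ≠ ⊥ := by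
    intro w hw
    obtain ⟨Q, hQ, rfl⟩ := Finset.mem_image.1 hw
    haveI := (hmemF Q hQ).1
    haveI : Q.IsMaximal := (hmemF Q hQ).1.isMaximal (hmemF Q hQ).2
    exact ⟨inferInstance, Ideal.under_ne_bot _ (hmemF Q hQ).2⟩
  have hsum : ∑ w ∈ W, fib w * idealChar π w = 0 := by
    have h1 : idealChar π (Ideal.relNorm (𝓞 K) I) = 0 := by
      rw [hI, Ideal.relNorm_singleton]
      exact idealChar_span_singleton π _
    rw [← Ideal.prod_normalizedFactors_eq_self hI0, Finset.prod_multiset_count, map_prod] at h1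
    have h2 : ∀ Q ∈ (normalizedFactors I).toFinset, Ideal.relNorm (𝓞 K) (Q ^ cnt Q) =
        (Q.under (𝓞 K)) ^ (cnt Q * Q.inertiaDeg (𝓞 K)) := fun Q hQ => by
      haveI := (hmemF Q hQ).1
      haveI : Q.IsMaximal := (hmemF Q hQ).1.isMaximal (hmemF Q hQ).2
      rw [map_pow, Ideal.relNorm_eq_pow_of_isMaximal Q (Q.under (𝓞 K)), ← pow_mul, mul_comm]
    rw [Finset.prod_congr rfl h2, idealChar_prod_pow π _ _ _ fun Q hQ =>
      Ideal.under_ne_bot _ (hmemF Q hQ).2] at h1
    rw [← h1, ← Finset.sum_fiberwise_of_maps_to (t := W)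
      (fun Q hQ => Finset.mem_image_of_mem _ hQ)]
    refine Finset.sum_congr rfl fun w _ => ?_
    rw [hfib, Finset.sum_mul]
    refine Finset.sum_congr rfl fun Q hQ => ?_
    rw [(Finset.mem_filter.1 hQ).2, Nat.cast_mul]
  have hfib_eq : ∀ (w : Ideal (𝓞 K)), w.IsMaximal → w ≠ ⊥ → ∀ s : Finset (Ideal (𝓞 M)),
      (↑s = w.primesOver (𝓞 M)) → fib w = ∑ Q ∈ s, (cnt Q : ZMod p) * (Q.inertiaDeg (𝓞 K) : ZMod p) := by
    intro w hwm hw0 s hs
    rw [hfib]
    refine Finset.sum_subset (fun Q hQ => ?_) (fun Q hQ hQn => ?_)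
    · obtain ⟨hQ1, hQ2⟩ := Finset.mem_filter.1 hQ
      rw [← Finset.mem_coe, hs]
      exact ⟨(hmemF Q hQ1).1, ⟨hQ2.symm⟩⟩
    · rw [← Finset.mem_coe, hs] at hQ
      have hQn' : Q ∉ normalizedFactors I := fun h =>
        hQn (Finset.mem_filter.2 ⟨Multiset.mem_toFinset.2 h, hQ.2.over.symm⟩)
      simp [cnt, Multiset.count_eq_zero_of_notMem hQn']
  have hzero : ∀ w ∈ W, (q : 𝓞 K) ∉ w → fib w = 0 := by
    intro w hw hqw
    obtain ⟨Q₀, hQ₀, hQw⟩ := Finset.mem_image.1 hw
    haveI := (hWmax w hw).1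
    haveI := (hmemF Q₀ hQ₀).1
    haveI : Q₀.LiesOver w := ⟨hQw.symm⟩
    haveI : Finite (𝓞 K ⧸ w) := Ideal.finiteQuotientOfFreeOfNeBot w (hWmax w hw).2
    have hin : ∀ σ ∈ Q₀.inertia G, σ = 1 := by
      intro σ hσ
      by_contra hne
      have h1 : σ • ξ - ξ ∈ Q₀ := hσ ξ
      rw [hσξ] at h1
      have hj : (e σ : ZMod q) ≠ 1 := fun h => hne (e.injective (by
        rw [map_one]; exact Units.ext (by simpa using h)))
      have h2 : ξ ^ (e σ : ZMod q).val = ξ * ξ ^ ((e σ : ZMod q) - 1).val := by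
        rw [← pow_succ']
        exact pow_congr_of_pow_eq_one hξ.pow_eq_one (by simp)
      rw [h2, ← mul_sub_one] at h1
      have h3 := ((hmemF Q₀ hQ₀).1.mem_or_mem h1).resolve_left fun h =>
        (hmemF Q₀ hQ₀).1.ne_top (Ideal.eq_top_of_isUnit_mem _ h (hξ.isUnit hqF.out.ne_zero))
      have hc : ((e σ : ZMod q) - 1).val.Coprime q := by
        rw [Nat.coprime_comm, hqF.out.coprime_iff_not_dvd, ← ZMod.natCast_eq_zero_iff]
        simpa [sub_eq_zero] using hj
      have h4 : ξ - 1 ∈ Q₀ :=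
        Q₀.mem_of_dvd (hξ.associated_sub_one_pow_sub_one_of_coprime hc).symm.dvd h3
      haveI : IsCyclotomicExtension {q} K M := inferInstance
      have h5 : (q : 𝓞 M) ∈ Q₀ := by
        have h6 : ξ - 1 ∣ (q : 𝓞 M) := sub_one_dvd_natCast_prime hqF.out hξ
        exact Q₀.mem_of_dvd h6 h4
      apply hqw
      rw [← hQw, Ideal.under_def, Ideal.mem_comap, map_natCast]
      exact h5
    have h9 := Ideal.ncard_primesOver_mul_card_inertia_mul_finrank (G := G) w Q₀
    haveI : Subsingleton (Q₀.inertia G) := ⟨fun x y => Subtype.ext ((hin _ x.2).trans (hin _ y.2).symm)⟩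
    rw [Nat.card_unique, mul_one, hcardG] at h9
    have hfin : (w.primesOver (𝓞 M)).Finite := IsDedekindDomain.primesOver_finite w (𝓞 M)
    rw [hfib_eq w inferInstance (hWmax w hw).2 hfin.toFinset hfin.coe_toFinset]
    have hconst : ∀ Q ∈ hfin.toFinset, (cnt Q : ZMod p) * (Q.inertiaDeg (𝓞 K) : ZMod p) =
        (cnt Q₀ : ZMod p) * (Q₀.inertiaDeg (𝓞 K) : ZMod p) := by
      intro Q hQ
      rw [Set.Finite.mem_toFinset] at hQ
      haveI := hQ.1
      haveI := hQ.2
      obtain ⟨σ, rfl⟩ := Ideal.exists_smul_eq_of_isGaloisGroup w Q₀ Q G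
      rw [hcnt_smul σ Q₀ inferInstance (hmemF Q₀ hQ₀).2,
        Ideal.inertiaDeg_eq_of_isGaloisGroup w (σ • Q₀) Q₀ G]
    rw [Finset.sum_congr rfl hconst, Finset.sum_const, ← Set.ncard_eq_toFinset_card _ hfin,
      nsmul_eq_mul, mul_left_comm, ← Nat.cast_mul, h9, Nat.cast_sub hqF.out.one_le, hq1,
      Nat.cast_one, sub_self, mul_zero]
  have hkey : ∀ a : (ZMod p)ˣ, ∃ Q : Ideal (𝓞 M), fib (S.conj a) = (cnt Q : ZMod p) ∧
      (1 - zK p K) - (g : 𝓞 K) ^ cnt Q ∈ S.conj a := by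
    intro a
    haveI := S.conj_isMaximal a
    obtain ⟨Q, hQmax, hQover⟩ := Ideal.exists_maximal_ideal_liesOver_of_isIntegral (S := 𝓞 M) (S.conj a)
    haveI := hQmax
    haveI := hQover
    have hnorm : Ideal.relNorm (𝓞 K) (span {ξ - 1}) = span {(q : 𝓞 K)} := by
      rw [Ideal.relNorm_singleton]
      have h := hξF.norm_sub_one_of_prime_ne_two' hirr hq2
      congr 2
      apply FaithfulSMul.algebraMap_injective (𝓞 K) K
      rw [Algebra.algebraMap_intNorm (A := 𝓞 K) (K := K) (L := M) (B := 𝓞 M), map_natCast, ← h]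
      simp [ξ]
    have hmemQ : ∀ Q' ∈ (S.conj a).primesOver (𝓞 M), ξ - 1 ∈ Q' := by
      intro Q' hQ'
      have hqQ : (q : 𝓞 M) ∈ Q' := by
        have h1 := S.q_mem_conj a
        rw [hQ'.2.over, Ideal.under_def, Ideal.mem_comap, map_natCast] at h1
        exact h1
      exact sub_one_mem_of_natCast_mem hqF.out hξ hQ'.1 hqQ
    have hrel : ∀ Q' ∈ (S.conj a).primesOver (𝓞 M),
        Ideal.relNorm (𝓞 K) Q' = S.conj a ^ Q'.inertiaDeg (𝓞 K) := by
      intro Q' hQ'
      haveI := hQ'.1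
      haveI := hQ'.2
      haveI : Q'.IsMaximal := Ideal.IsMaximal.of_liesOver_isMaximal Q' (S.conj a)
      exact Ideal.relNorm_eq_pow_of_isMaximal Q' (S.conj a)
    have hQp : Q ∈ (S.conj a).primesOver (𝓞 M) := ⟨inferInstance, inferInstance⟩
    have hQdvd : Q ∣ span {ξ - 1} := Ideal.dvd_span_singleton.2 (hmemQ Q hQp)
    have hf1 : Q.inertiaDeg (𝓞 K) = 1 := by
      have h1 : S.conj a ^ Q.inertiaDeg (𝓞 K) ∣ span {(q : 𝓞 K)} := by
        rw [← hrel Q hQp, ← hnorm]
        exact map_dvd _ hQdvd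
      have h2 := Ideal.inertiaDeg_pos Q (𝓞 K)
      by_contra h3
      exact S.not_sq_dvd a ((pow_dvd_pow _ (by omega)).trans h1)
    have huniq : ∀ Q' ∈ (S.conj a).primesOver (𝓞 M), Q' = Q := by
      intro Q' hQ'
      by_contra hne
      haveI := hQ'.1
      haveI := hQ'.2
      haveI : Q'.IsMaximal := Ideal.IsMaximal.of_liesOver_isMaximal Q' (S.conj a)
      have hd : Q' * Q ∣ span {ξ - 1} :=
        (Ideal.isCoprime_iff_sup_eq.2 (Ideal.IsMaximal.coprime_of_ne ‹_› hQmax hne)).mul_dvd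
          (Ideal.dvd_span_singleton.2 (hmemQ Q' hQ')) hQdvd
      have h1 := map_dvd (Ideal.relNorm (𝓞 K)) hd
      rw [hnorm, map_mul, hrel Q' hQ', hrel Q hQp, hf1, pow_one, ← pow_succ] at h1
      exact S.not_sq_dvd a ((pow_dvd_pow _ (by
        have := Ideal.inertiaDeg_pos Q' (𝓞 K); omega)).trans h1)
    have hsq : ¬ Q ^ 2 ∣ span {ξ - 1} := fun h => by
      have h1 := map_dvd (Ideal.relNorm (𝓞 K)) h
      rw [hnorm, map_pow, hrel Q hQp, hf1, pow_one] at h1
      exact S.not_sq_dvd a h1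
    have hQ0 : Q ≠ ⊥ := Ideal.ne_bot_of_liesOver_of_ne_bot (S.conj_ne_bot a) Q
    have hQnorm : Ideal.absNorm Q = q := by
      rw [← Ideal.absNorm_relNorm (𝓞 K), hrel Q hQp, hf1, pow_one, S.absNorm_conj]
    have hτQ : τ • Q = Q := huniq _ ⟨inferInstance, inferInstance⟩
    have hτmod : ∀ x : 𝓞 M, τ • x - x ∈ Q := by
      intro x
      obtain ⟨n, hn⟩ := exists_int_sub_mem_of_absNorm hQnorm x
      have h1 : τ • (x - n) ∈ Q := hτQ ▸ Ideal.smul_mem_pointwise_smul τ _ _ hn
      rw [smul_sub, show τ • (n : 𝓞 M) = n from map_intCast (MulSemiringAction.toRingHom G (𝓞 M) τ) n] at h1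
      simpa using sub_mem h1 hn
    refine ⟨Q, ?_, ?_⟩
    · rw [hfib_eq _ inferInstance (S.conj_ne_bot a) {Q} (by
        ext Q'
        simp only [Finset.coe_singleton, Set.mem_singleton_iff]
        exact ⟨fun h => h ▸ hQp, huniq Q'⟩), Finset.sum_singleton, hf1, Nat.cast_one, mul_one]
    · set r := cnt Q
      have hprimeQ : Prime Q := Ideal.prime_of_isPrime hQ0 inferInstance
      obtain ⟨C, hC⟩ := hQdvd
      have hCQ : ¬ Q ∣ C := fun ⟨C', hC'⟩ => hsq ⟨C', by rw [hC, hC', pow_two, mul_assoc]⟩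
      have hCr : ¬ C ^ r ≤ Q := fun h => hCQ (hprimeQ.dvd_of_dvd_pow (Ideal.dvd_iff_le.2 h))
      obtain ⟨s, hs, hsQ⟩ := SetLike.not_le_iff_exists.1 hCr
      have hQr : Q ^ r ∣ I := (hle_iff Q inferInstance hQ0 r).2 le_rfl
      obtain ⟨t, ht⟩ : (ξ - 1) ^ r ∣ γ * s := by
        rw [← Ideal.mem_span_singleton, ← Ideal.span_singleton_pow, hC, mul_pow]
        exact Ideal.mul_mem_mul (Ideal.dvd_span_singleton.1 hQr) hs
      have htQ : t ∉ Q := by
        intro h
        have h1 : Q ^ (r + 1) ∣ span {γ} * span {s} := by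
          rw [Ideal.span_singleton_mul_span_singleton, ht, ← Ideal.span_singleton_mul_span_singleton,
            ← Ideal.span_singleton_pow, pow_succ]
          exact mul_dvd_mul (pow_dvd_pow_of_dvd ⟨C, hC⟩ r) (Ideal.dvd_span_singleton.2 h)
        have h2 : Q ^ (r + 1) ∣ I := hprimeQ.pow_dvd_of_dvd_mul_right (r + 1)
          (fun h3 => hsQ (Ideal.dvd_span_singleton.1 h3)) h1
        have := (hle_iff Q inferInstance hQ0 _).1 h2
        omega
      set η : 𝓞 M := ∑ i ∈ Finset.range g, ξ ^ i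
      have hτπ : τ • (ξ - 1) = η * (ξ - 1) := by rw [smul_sub, smul_one, hτξ, geom_sum_mul]
      have hπ0 : (ξ - 1) ^ r ≠ 0 := pow_ne_zero _ (sub_ne_zero.2 (hξ.ne_one hqF.out.one_lt))
      have hmain : θ * (τ • s) * t = η ^ r * (τ • t) * s := by
        apply mul_left_cancel₀ hπ0
        have h1 := congrArg (τ • ·) ht
        simp only [smul_mul', smul_pow', hγτ, hτπ] at h1
        calc (ξ - 1) ^ r * (θ * (τ • s) * t) = θ * (τ • s) * (γ * s) := by rw [ht]; ring
          _ = s * (θ * γ * (τ • s)) := by ring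
          _ = _ := by rw [h1, mul_pow]; ring
      rw [Q.over_def (S.conj a), Ideal.under_def, Ideal.mem_comap, ← Ideal.Quotient.eq_zero_iff_mem]
      have e1 : ∀ x, Ideal.Quotient.mk Q (τ • x) = Ideal.Quotient.mk Q x := fun x =>
        Ideal.Quotient.eq.2 (hτmod x)
      have e2 : Ideal.Quotient.mk Q ξ = 1 := by
        rw [← map_one (Ideal.Quotient.mk Q), Ideal.Quotient.eq]
        exact hmemQ Q hQp
      have h2 := congrArg (Ideal.Quotient.mk Q) hmain
      simp only [map_mul, map_pow, map_sum, e1, e2, θ, η, map_sub, map_one, one_pow, mul_one,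
        Finset.sum_const, Finset.card_range, nsmul_eq_mul] at h2
      simp only [map_sub, map_one, map_pow, map_natCast]
      rw [sub_eq_zero]
      have hs0 : Ideal.Quotient.mk Q s ≠ 0 := fun h => hsQ (Ideal.Quotient.eq_zero_iff_mem.1 h)
      have ht0 : Ideal.Quotient.mk Q t ≠ 0 := fun h => htQ (Ideal.Quotient.eq_zero_iff_mem.1 h)
      apply mul_right_cancel₀ (mul_ne_zero hs0 ht0)
      linear_combination h2
  choose Qa hQa1 hQa2 using hkey
  have htot : ∑ a : (ZMod p)ˣ, (cnt (Qa a) : ZMod p) * (a : ZMod p) ^ 2 = 0 := by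
    have hchar : ∀ a, idealChar π (S.conj a) = (a : ZMod p) ^ 2 * idealChar π S.v.asIdeal := by
      intro a
      have h1 : S.v.asIdeal ∈ (Ideal (𝓞 K))⁰ := mem_nonZeroDivisors_iff_ne_zero.2 S.v.ne_bot
      have h2 : S.conj a ∈ (Ideal (𝓞 K))⁰ := mem_nonZeroDivisors_iff_ne_zero.2 (S.conj_ne_bot a)
      rw [idealChar, idealChar, dif_pos h1, dif_pos h2, ← hπ, clAct_mk0]
      rfl
    have hsub : ∀ w ∈ W, w ∉ Finset.univ.image S.conj → fib w * idealChar π w = 0 := by
      intro w hw hnot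
      rw [hzero w hw, zero_mul]
      intro hqw
      haveI := (hWmax w hw).1
      obtain ⟨a, rfl⟩ := S.exists_conj_of_mem hqw
      exact hnot (Finset.mem_image_of_mem _ (Finset.mem_univ a))
    have h1 : ∑ w ∈ W, fib w * idealChar π w =
        ∑ w ∈ Finset.univ.image S.conj, fib w * idealChar π w := by
      rw [← Finset.sum_subset (s₁ := W ∩ Finset.univ.image S.conj) Finset.inter_subset_left
        (fun w hw hw' => hsub w hw (fun h => hw' (Finset.mem_inter.2 ⟨hw, h⟩)))]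
      refine Finset.sum_subset Finset.inter_subset_right fun w hw hw' => ?_
      have hwW : w ∉ W := fun h => hw' (Finset.mem_inter.2 ⟨h, hw⟩)
      rw [hfib]
      simp only
      rw [Finset.sum_eq_zero, zero_mul]
      intro Q hQ
      exact absurd (Finset.mem_image.2 ⟨Q, (Finset.mem_filter.1 hQ).1, (Finset.mem_filter.1 hQ).2⟩) hwW
    rw [h1, Finset.sum_image fun a _ b _ h => S.conj_injective h] at hsum
    simp only [hQa1, hchar] at hsum
    simp only [← mul_assoc, ← Finset.sum_mul] at hsum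
    exact (mul_eq_zero.1 hsum).resolve_right hv
  obtain ⟨k, hk⟩ : p ∣ ∑ a : (ZMod p)ˣ, cnt (Qa a) * ex p a := by
    rw [← ZMod.natCast_eq_zero_iff, ← htot]
    push_cast
    exact Finset.sum_congr rfl fun a _ => by rw [natCast_ex]
  refine ⟨(g : 𝓞 K) ^ k, ?_⟩
  rw [← Ideal.Quotient.eq, ← pow_mul, mul_comm k, ← hk, eCyc, map_prod, map_pow, ← Finset.prod_pow_eq_pow_sum,
    ← Equiv.prod_comp (Equiv.inv _)]
  refine Finset.prod_congr rfl fun a _ => ?_
  rw [Equiv.inv_apply, inv_inv, map_pow, pow_mul]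
  congr 1
  rw [← map_pow, Ideal.Quotient.eq]
  have h := (S.mem_conj_iff a _).1 (hQa2 a)
  rwa [map_sub, map_sub, map_one, map_pow, map_natCast, sgI_zK] at h

end Fermat.Agent.ExtVanish
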