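import Mathlib
import Fermat.Agent.ExtVanish.Thaine
import Fermat.Agent.ExtVanish.PrimeInequality

/-!
There is no nontrivial ideal class of order `p` on which Galois acts through the square of the
cyclotomic character.
-/

set_option autoImplicit false
set_option maxSynthPendingDepth 3
set_option maxHeartbeats 1600000

open NumberField IsDedekindDomain Ideal Polynomial
open Fermat.Agent.Density
open scoped nonZeroDivisors Pointwise

noncomputable section

namespace Fermat.Agent.ExtVanish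

variable {p : ℕ} [Fact p.Prime] {K : Type} [Field K] [NumberField K] [IsCyclotomicExtension {p} ℚ K]

lemma exists_sep_primes {a : 𝓞 K} (hirr : Irreducible (X ^ p - C (a : K)))
    (v : HeightOneSpectrum (𝓞 K)) {z : 𝓞 K} (hz : a - z ^ p ∈ v.asIdeal) (ha : a ∉ v.asIdeal)
    (hζ : ∀ n : ℕ, (n : ZMod p) ≠ 0 → zK p K ^ n - 1 ∉ v.asIdeal) :
    haveI := Fact.mk hirr
    ∀ [NumberField (AdjoinRoot (X ^ p - C (a : K)))],
    ∃ Φ : Fin p → HeightOneSpectrum (𝓞 (AdjoinRoot (X ^ p - C (a : K)))), Function.Injective Φ ∧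
      ∀ i, (Φ i).asIdeal.under (𝓞 K) = v.asIdeal ∧
        Ideal.absNorm (Φ i).asIdeal = Ideal.absNorm v.asIdeal := by
  classical
  haveI := Fact.mk hirr
  intro hNF
  have hp : p.Prime := Fact.out
  haveI : v.asIdeal.IsMaximal := v.isPrime.isMaximal v.ne_bot
  let F := AdjoinRoot (X ^ p - C (a : K))
  set ι := algebraMap (𝓞 K) (𝓞 F)
  have hroot : (AdjoinRoot.root (X ^ p - C (a : K)) : F) ^ p = algebraMap K F (a : K) := by
    have h := AdjoinRoot.eval₂_root (X ^ p - C (a : K))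
    rw [eval₂_sub, eval₂_X_pow, eval₂_C, sub_eq_zero] at h
    exact h
  have hint : IsIntegral ℤ (AdjoinRoot.root (X ^ p - C (a : K)) : F) :=
    IsIntegral.of_pow hp.pos (hroot ▸ (RingOfIntegers.isIntegral_coe a).algebraMap)
  obtain ⟨β, hβ⟩ : ∃ β : 𝓞 F, (β : F) = AdjoinRoot.root (X ^ p - C (a : K)) := ⟨⟨_, hint⟩, rfl⟩
  have hβp : β ^ p = ι a := by
    apply FaithfulSMul.algebraMap_injective (𝓞 F) F
    rw [map_pow, show algebraMap (𝓞 F) F β = _ from hβ, hroot, ← IsScalarTower.algebraMap_apply,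
      ← IsScalarTower.algebraMap_apply]
  have hroots : β ^ p - ι z ^ p = ∏ i ∈ Finset.range p, (β - ι (zK p K) ^ i * ι z) := by
    have h := ((zK_spec p K).map_of_injective (f := ι)
      (FaithfulSMul.algebraMap_injective (𝓞 K) (𝓞 F))).pow_sub_pow_eq_prod_sub_mul β (ι z) hp.pos
    rw [h]
    have hζ' : IsPrimitiveRoot (ι (zK p K)) p :=
      (zK_spec p K).map_of_injective (FaithfulSMul.algebraMap_injective (𝓞 K) (𝓞 F))
    refine (Finset.prod_bij (fun i _ => ι (zK p K) ^ i) (fun i _ => ?_) (fun i hi j hj hij => ?_)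
      (fun μ hμ => ?_) (fun i _ => rfl)).symm
    · rw [Polynomial.mem_nthRootsFinset hp.pos, ← pow_mul, mul_comm, pow_mul, hζ'.pow_eq_one, one_pow]
    · exact hζ'.pow_inj (Finset.mem_range.1 hi) (Finset.mem_range.1 hj) hij
    · obtain ⟨i, hi, rfl⟩ := hζ'.eq_pow_of_pow_eq_one ((Polynomial.mem_nthRootsFinset hp.pos _).1 hμ)
      exact ⟨i, Finset.mem_range.2 hi, rfl⟩
  haveI : SMulCommClass (F ≃ₐ[K] F) (𝓞 K) (𝓞 F) := ⟨fun σ r x => by
    apply FaithfulSMul.algebraMap_injective (𝓞 F) F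
    rw [Algebra.smul_def, Algebra.smul_def, map_mul, ← IsScalarTower.algebraMap_apply]
    show σ (algebraMap (𝓞 F) F (ι r * x)) = _ * σ (algebraMap (𝓞 F) F x)
    rw [show algebraMap (𝓞 F) F (ι r * x) = algebraMap (𝓞 K) F r * algebraMap (𝓞 F) F x by
      rw [map_mul, ← IsScalarTower.algebraMap_apply], map_mul,
      IsScalarTower.algebraMap_apply (𝓞 K) K F, AlgEquiv.commutes]⟩
  obtain ⟨Q₀, hQ₀max, hQ₀over⟩ :=
    Ideal.exists_maximal_ideal_liesOver_of_isIntegral (S := 𝓞 F) v.asIdeal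
  obtain ⟨i₀, -, hi₀⟩ : ∃ i ∈ Finset.range p, β - ι (zK p K) ^ i * ι z ∈ Q₀ := by
    refine hQ₀max.isPrime.prod_mem_iff.1 ?_
    rw [← hroots, hβp, ← map_pow, ← map_sub]
    exact Ideal.mem_comap.1 (by rw [← Ideal.under_def, ← hQ₀over.over]; exact hz)
  -- automorphisms
  have hσ : ∀ j : ℕ, ∃ σ : F ≃ₐ[K] F, σ • β = ι (zK p K) ^ j * β := by
    intro j
    set y : F := algebraMap K F (zF p K ^ j) * AdjoinRoot.root (X ^ p - C (a : K))
    have hy : aeval y (X ^ p - C (a : K)) = 0 := by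
      rw [map_sub, map_pow, aeval_X, aeval_C, mul_pow, hroot, ← map_pow, ← pow_mul, mul_comm j,
        pow_mul, (zF_spec p K).pow_eq_one, one_pow, map_one, one_mul, sub_self]
    let f : F →ₐ[K] F := AdjoinRoot.liftAlgHom _ (Algebra.ofId K F) y (by simpa using hy)
    haveI : FiniteDimensional K F :=
      (AdjoinRoot.powerBasis hirr.ne_zero).finite
    refine ⟨AlgEquiv.ofBijective f (Algebra.IsAlgebraic.algHom_bijective f), ?_⟩
    apply FaithfulSMul.algebraMap_injective (𝓞 F) F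
    rw [map_mul, map_pow, ← IsScalarTower.algebraMap_apply]
    show f ((β : 𝓞 F) : F) = _
    rw [hβ, AdjoinRoot.liftAlgHom_root, show algebraMap (𝓞 F) F β = _ from hβ,
      IsScalarTower.algebraMap_apply (𝓞 K) K F, ← map_pow]
    rfl
  have hex : ∀ i : Fin p, ∃ Q : Ideal (𝓞 F), Q.IsMaximal ∧ Q.under (𝓞 K) = v.asIdeal ∧
      β - ι (zK p K) ^ (i : ℕ) * ι z ∈ Q := by
    intro i
    set j := ((i₀ : ZMod p) - (i : ℕ)).val
    obtain ⟨σ, hσ⟩ := hσ j
    haveI := hQ₀max
    haveI := hQ₀over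
    have hover : (σ • Q₀).LiesOver v.asIdeal := inferInstance
    have hprime : (σ • Q₀).IsPrime := inferInstance
    refine ⟨σ • Q₀, hprime.isMaximal (Ideal.ne_bot_of_liesOver_of_ne_bot v.ne_bot _),
      hover.over.symm, ?_⟩
    have h1 : σ • (β - ι (zK p K) ^ i₀ * ι z) ∈ σ • Q₀ := Ideal.smul_mem_pointwise_smul σ _ _ hi₀
    rw [smul_sub, hσ, smul_mul', smul_pow', show σ • ι z = ι z from smul_algebraMap σ _,
      show σ • ι (zK p K) = ι (zK p K) from smul_algebraMap σ _] at h1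
    have h2 : ι (zK p K) ^ i₀ = ι (zK p K) ^ j * ι (zK p K) ^ (i : ℕ) := by
      rw [← pow_add]
      refine pow_congr_of_pow_eq_one (p := p) ?_ (by rw [Nat.cast_add, ZMod.natCast_zmod_val, sub_add_cancel])
      rw [← map_pow, (zK_spec p K).pow_eq_one, map_one]
    rw [h2, mul_assoc, ← mul_sub] at h1
    refine (hprime.mem_or_mem h1).resolve_left fun h => hprime.ne_top ?_
    exact Ideal.eq_top_of_isUnit_mem _ h ((((zK_spec p K).isUnit hp.ne_zero).map ι).pow j)
  choose Qi hQmax hQunder hQmem using hex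
  have hQne : ∀ i, Qi i ≠ ⊥ := fun i h => v.ne_bot (by rw [← hQunder i, h, Ideal.under_bot])
  have hinj : Function.Injective Qi := by
    intro i j hij
    by_contra hne
    have h1 := sub_mem (hQmem i) (hij ▸ hQmem j)
    rw [show β - ι (zK p K) ^ (i : ℕ) * ι z - (β - ι (zK p K) ^ (j : ℕ) * ι z) =
      ι ((zK p K ^ (j : ℕ) - zK p K ^ (i : ℕ)) * z) by simp only [map_mul, map_sub, map_pow]; ring] at h1
    rw [← Ideal.mem_comap, ← Ideal.under_def, hQunder] at h1
    have hz0 : z ∉ v.asIdeal := fun h => ha (by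
      simpa using add_mem hz (v.asIdeal.pow_mem_of_mem h p hp.pos))
    have h2 := (v.isPrime.mem_or_mem h1).resolve_right hz0
    set d := ((j : ℕ) : ZMod p) - (i : ℕ)
    have hd : d ≠ 0 := fun h => hne (Fin.ext (Nat.ModEq.eq_of_lt_of_lt
      ((ZMod.natCast_eq_natCast_iff _ _ _).1 (sub_eq_zero.1 h)).symm i.2 j.2))
    apply hζ d.val (by rwa [ZMod.natCast_val, ZMod.cast_id])
    have h3 : zK p K ^ (j : ℕ) = zK p K ^ (i : ℕ) * zK p K ^ d.val := by
      rw [← pow_add]
      exact pow_congr_of_pow_eq_one (zK_spec p K).pow_eq_one (by simp [d])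
    rw [h3, ← mul_sub_one] at h2
    refine (v.isPrime.mem_or_mem h2).resolve_left fun h => v.isPrime.ne_top ?_
    exact Ideal.eq_top_of_isUnit_mem _ h (((zK_spec p K).isUnit hp.ne_zero).pow _)
  have hrel : ∀ i, Ideal.relNorm (𝓞 K) (Qi i) = v.asIdeal ^ (Qi i).inertiaDeg (𝓞 K) := fun i => by
    haveI := hQmax i
    haveI : (Qi i).LiesOver v.asIdeal := ⟨(hQunder i).symm⟩
    exact Ideal.relNorm_eq_pow_of_isMaximal _ _
  have hdeg : ∀ i, (Qi i).inertiaDeg (𝓞 K) = 1 := by
    have hdvd : ∏ i, Qi i ∣ v.asIdeal.map ι := by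
      refine Finset.prod_dvd_of_coprime (fun i _ j _ hij => ?_) fun i _ => ?_
      · exact Ideal.isCoprime_iff_sup_eq.2 ((hQmax i).coprime_of_ne (hQmax j) (hinj.ne hij))
      · rw [Ideal.dvd_iff_le, Ideal.map_le_iff_le_comap, ← Ideal.under_def, hQunder]
    have h1 := map_dvd (Ideal.relNorm (𝓞 K)) hdvd
    have hfin : Module.finrank K F = p := by
      rw [(AdjoinRoot.powerBasis hirr.ne_zero).finrank, AdjoinRoot.powerBasis_dim,
        natDegree_X_pow_sub_C]
    rw [map_prod, Finset.prod_congr rfl fun i _ => hrel i, Finset.prod_pow_eq_pow_sum,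
      Ideal.relNorm_algebraMap] at h1
    have h2 : ∑ i, (Qi i).inertiaDeg (𝓞 K) ≤ p := by
      have hprime : Prime v.asIdeal := Ideal.prime_of_isPrime v.ne_bot v.isPrime
      refine le_of_le_of_eq ((pow_dvd_pow_iff hprime.ne_zero hprime.not_isUnit).1 h1) ?_
      exact (IsFractionRing.finrank_eq (𝓞 K) K (𝓞 F) F).symm.trans hfin
    intro i
    by_contra hne
    have hpos : ∀ j, 1 ≤ (Qi j).inertiaDeg (𝓞 K) := fun j => by
      haveI := hQmax j
      exact Ideal.inertiaDeg_pos (Qi j) (𝓞 K)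
    have : ∑ _j : Fin p, 1 < ∑ j, (Qi j).inertiaDeg (𝓞 K) :=
      Finset.sum_lt_sum (fun j _ => hpos j) ⟨i, Finset.mem_univ _, by have := hpos i; omega⟩
    simp at this
    omega
  refine ⟨fun i => ⟨Qi i, (hQmax i).isPrime, hQne i⟩, fun i j h => hinj (congrArg (·.asIdeal) h),
    fun i => ⟨hQunder i, ?_⟩⟩
  show Ideal.absNorm (Qi i) = _
  rw [← Ideal.absNorm_relNorm (𝓞 K), hrel i, hdeg i, pow_one]

/-- There is no eigen class of order `p`. -/
theorem eigen_class_eq_one (hp : 3 ≤ p) {x : ClassGroup (𝓞 K)} (hxp : x ^ p = 1)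
    (heig : ∀ a, clAct p K a x = x ^ ex p a) : x = 1 := by
  classical
  by_contra hx
  have hpp : p.Prime := Fact.out
  obtain ⟨π, hπ1, hπ⟩ := exists_eigen_char hp hx hxp heig
  set a := eCyc p K with ha
  have hirr : Irreducible (X ^ p - C (a : K)) :=
    X_pow_sub_C_irreducible_of_prime hpp fun b hb => eCyc_ne_pow hp b hb.symm
  haveI := Fact.mk hirr
  let F := AdjoinRoot (X ^ p - C (a : K))
  haveI : CharZero F := charZero_of_injective_algebraMap (algebraMap K F).injective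
  haveI : FiniteDimensional K F := (AdjoinRoot.powerBasis hirr.ne_zero).finite
  haveI hFD : FiniteDimensional ℚ F := by
    haveI : IsScalarTower ℚ K F := IsScalarTower.rat
    exact FiniteDimensional.trans ℚ K F
  haveI : NumberField F := { to_charZero := inferInstance, to_finiteDimensional := by convert hFD }
  let μ : ClassGroup (𝓞 K) →* ℂ := (ZMod.stdAddChar (N := p)).toMonoidHom.comp π
  have hμ : ∀ c, μ c = ZMod.stdAddChar (Multiplicative.toAdd (π c)) := fun c => rfl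
  have hμne : ∀ c, μ c ≠ 1 ↔ Multiplicative.toAdd (π c) ≠ 0 := fun c => by
    rw [hμ, not_iff_not, ← (ZMod.stdAddChar (N := p)).map_zero_eq_one]
    exact ZMod.injective_stdAddChar.eq_iff
  have hμ1 : μ ≠ 1 := by
    intro h
    apply hπ1
    refine MonoidHom.ext fun c => ?_
    by_contra hc
    exact (hμne c).2 (fun h0 => hc (Multiplicative.toAdd.injective h0)) (by rw [h]; rfl)
  set bad : Finset ℕ := insert p (Ideal.absNorm (span {a})).primeFactors
  have hT : ∀ v : HeightOneSpectrum (𝓞 K), IsDegOne v ∧ resChar v ∉ bad ∧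
      μ (ClassGroup.mk0 (toIdl v)) ≠ 1 →
      ∃ Φ : Fin p → HeightOneSpectrum (𝓞 F), Function.Injective Φ ∧
        ∀ i, (Φ i).asIdeal.under (𝓞 K) = v.asIdeal ∧
          Ideal.absNorm (Φ i).asIdeal = Ideal.absNorm v.asIdeal := by
    rintro v ⟨hdeg, hbad, hμv⟩
    set q := Ideal.absNorm v.asIdeal with hq
    haveI : Fact q.Prime := ⟨hdeg⟩
    have hres : resChar v = q := ((isDegOne_iff v).1 hdeg).symm
    simp only [bad, Finset.mem_insert, not_or] at hbad
    rw [hres] at hbad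
    let S : SplitPrime p K q := ⟨v, hq.symm, hbad.1⟩
    have hv0 : idealChar π S.v.asIdeal ≠ 0 := by
      have h1 : v.asIdeal ∈ (Ideal (𝓞 K))⁰ := mem_nonZeroDivisors_iff_ne_zero.2 v.ne_bot
      rw [idealChar, dif_pos h1]
      exact (hμne _).1 hμv
    obtain ⟨z, hz⟩ := eCyc_isPow_residue π hπ S hv0
    refine exists_sep_primes hirr v hz (fun hmem => hbad.2 ?_)
      (fun n hn => S.pow_sub_one_not_mem hn)
    rw [Nat.mem_primeFactors]
    exact ⟨hdeg, Ideal.absNorm_dvd_absNorm_of_le ((Ideal.span_singleton_le_iff_mem _).2 hmem),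
      by rw [Ne, Ideal.absNorm_eq_zero_iff, Ideal.span_singleton_eq_bot]; exact eCyc_ne_zero p K⟩
  choose Φ hΦinj hΦ using hT
  refine false_of_forall_split (F := F) hp (μ := μ) (fun c => by rw [hμ]; exact AddChar.norm_apply _ _)
    hμ1 bad (fun x => Φ x.1.1 x.1.2 x.2) ?_ fun x => (hΦ _ _ _).2
  rintro ⟨⟨v, hv⟩, i⟩ ⟨⟨w, hw⟩, j⟩ h
  obtain rfl : v = w := HeightOneSpectrum.ext <| by
    rw [← (hΦ v hv i).1, ← (hΦ w hw j).1]
    exact congrArg (fun P : HeightOneSpectrum (𝓞 F) => P.asIdeal.under (𝓞 K)) h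
  obtain rfl := hΦinj v hv h
  rfl

end Fermat.Agent.ExtVanish
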