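import Mathlib
import Fermat.Agent.Galois.Places
import Fermat.Prelude.Def_FLTPrelim_Ramification

/-!
A radical of degree `p` having a generator of non-integral valuation is moved by inertia.
-/

set_option autoImplicit false
set_option maxSynthPendingDepth 3
set_option maxHeartbeats 1600000
set_option synthInstance.maxHeartbeats 400000

open Fermat.Agent.Galois IsLocalRing
open scoped Pointwise

noncomputable section

namespace Fermat.Agent.ExtVanish

local notation "Qbar" => AlgebraicClosure ℚ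

theorem exists_inertia_moving {ℓ : ℕ} (hℓ : ℓ.Prime) {A : ValuationSubring Qbar}
    (hA : A.LiesOverPrime ℓ) {p : ℕ} (hp : p.Prime) (K : IntermediateField ℚ Qbar) {β w : Qbar}
    (hwβ : ∀ τ ∈ K.fixingSubgroup, ∀ h ∈ K.fixingSubgroup, h w = w → h (τ β) = τ β)
    (hdeg : ∃ f : Polynomial K, f.Monic ∧ f.natDegree = p ∧ Polynomial.aeval w f = 0)
    (hvp : ∃ c : K, A.valuation w ^ p = A.valuation (c : Qbar))
    (hv : ∀ c : K, A.valuation w ≠ A.valuation (c : Qbar))
    (hinv : ∀ τ ∈ K.fixingSubgroup, A.valuation (τ w) = A.valuation w)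
    {τ : GQ} (hτ : τ ∈ K.fixingSubgroup) (hτβ : τ β ≠ β) :
    ∃ σ ∈ K.fixingSubgroup, σ ∈ A.inertiaSubgroupIn ℚ ∧ σ β ≠ β := by
  classical
  set v := A.valuation
  have hw0 : v w ≠ 0 := fun h => hv 0 (by simpa [v] using h)
  have hKfix : ∀ σ ∈ K.fixingSubgroup, ∀ c : K, σ (c : Qbar) = c := fun σ hσ c =>
    (IntermediateField.mem_fixingSubgroup_iff K σ).1 hσ c c.2
  -- distinct valuations
  have hdist : ∀ (a b : K) (i j : ℕ), i < j → j < p → (a : Qbar) ≠ 0 → (b : Qbar) ≠ 0 →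
      v ((a : Qbar) * w ^ i) ≠ v ((b : Qbar) * w ^ j) := by
    intro a b i j hij hjp ha hb he
    rw [map_mul, map_mul, map_pow, map_pow, show j = i + (j - i) by omega, pow_add] at he
    have hpow : v w ^ (j - i) = v ((a / b : K) : Qbar) := by
      push_cast
      rw [map_div₀, eq_div_iff ((map_ne_zero v).2 hb)]
      apply mul_right_cancel₀ (pow_ne_zero i hw0)
      rw [he]
      ac_rfl
    obtain ⟨c, hc⟩ := hvp
    have hco : Nat.Coprime (j - i) p := Nat.coprime_comm.1 (hp.coprime_iff_not_dvd.2 fun h => by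
      have := Nat.le_of_dvd (by omega) h
      omega)
    obtain ⟨s, t, hst⟩ := Nat.isCoprime_iff_coprime.2 hco
    apply hv ((a / b) ^ s * c ^ t)
    rw [show v (((a / b) ^ s * c ^ t : K) : Qbar) = v ((a / b : K) : Qbar) ^ s * v (c : Qbar) ^ t by
      rw [← IntermediateField.coe_val, map_mul, map_mul, map_zpow₀, map_zpow₀, map_zpow₀, map_zpow₀],
      ← hpow, ← hc, ← zpow_natCast (v w), ← zpow_natCast (v w),
      ← zpow_mul, ← zpow_mul, ← zpow_add₀ hw0, mul_comm ((j - i : ℕ) : ℤ), mul_comm (p : ℤ), hst,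
      zpow_one]
  -- expansions
  have hexp : ∀ (σ : GQ), σ ∈ K.fixingSubgroup → ∀ g : Fin p → K,
      (∀ i, v ((g i : Qbar) * σ w ^ (i : ℕ)) = v ((g i : Qbar) * w ^ (i : ℕ))) := by
    intro σ hσ g i
    rw [map_mul, map_mul, map_pow, map_pow, hinv σ hσ]
  have hmax : ∀ (g : Fin p → K) (σ : GQ), σ ∈ K.fixingSubgroup → ∀ i,
      v ((g i : Qbar) * w ^ (i : ℕ)) ≤ v (∑ i, (g i : Qbar) * σ w ^ (i : ℕ)) := by
    intro g σ hσ i
    by_cases hg0 : (g i : Qbar) = 0
    · simp [hg0]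
    set F : Fin p → Qbar := fun i => (g i : Qbar) * w ^ (i : ℕ)
    obtain ⟨j, -, hj⟩ := Finset.exists_max_image Finset.univ (fun i => v (F i))
      ⟨i, Finset.mem_univ _⟩
    have hgj : (g j : Qbar) ≠ 0 := by
      intro h0
      have h1 := hj i (Finset.mem_univ _)
      simp only [F, h0, zero_mul, map_zero, le_zero_iff, map_mul, mul_eq_zero, map_eq_zero,
        map_pow, pow_eq_zero_iff'] at h1
      rcases h1 with h1 | h1
      · exact hg0 h1
      · exact (map_ne_zero v).1 hw0 h1.1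
    rw [Valuation.map_sum_eq_of_lt v (Finset.mem_univ j) (fun k hk => ?_), hexp σ hσ g j]
    · exact hj i (Finset.mem_univ _)
    · rw [hexp σ hσ g j, hexp σ hσ g k]
      refine lt_of_le_of_ne (hj k (Finset.mem_univ _)) ?_
      have hkj : k ≠ j := by simpa using hk
      by_cases hgk : (g k : Qbar) = 0
      · simp only [hgk, zero_mul, map_zero]
        exact (((map_ne_zero v).2 (mul_ne_zero hgj (pow_ne_zero _ ((map_ne_zero v).1 hw0))))).symm
      rcases lt_or_gt_of_ne (fun h => hkj (Fin.ext h)) with h | h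
      · exact hdist _ _ _ _ h j.2 hgk hgj
      · exact (hdist _ _ _ _ h k.2 hgj hgk).symm
  -- the field generated by `w`
  let Lk : IntermediateField K Qbar := IntermediateField.adjoin K {w}
  let L : IntermediateField ℚ Qbar := Lk.restrictScalars ℚ
  have hLK : L.fixingSubgroup ≤ K.fixingSubgroup := by
    intro σ hσ
    rw [IntermediateField.mem_fixingSubgroup_iff] at hσ ⊢
    exact fun x hx => hσ x (Lk.algebraMap_mem ⟨x, hx⟩)
  have hLw : ∀ σ ∈ L.fixingSubgroup, σ w = w := fun σ hσ =>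
    (IntermediateField.mem_fixingSubgroup_iff L σ).1 hσ w (IntermediateField.mem_adjoin_simple_self K w)
  obtain ⟨f, hfm, hfd, hfw⟩ := hdeg
  have hint : IsIntegral K w := ⟨f, hfm, by rwa [← Polynomial.aeval_def]⟩
  have hexpand : ∀ b : Qbar, (∀ σ ∈ L.fixingSubgroup, σ b = b) →
      ∃ g : Fin p → K, b = ∑ i, (g i : Qbar) * w ^ (i : ℕ) := by
    intro b hb
    have hbL : b ∈ L := by
      rw [← InfiniteGalois.fixedField_fixingSubgroup L, IntermediateField.mem_fixedField_iff]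
      exact hb
    have hbL' : b ∈ (IntermediateField.adjoin K {w}).toSubalgebra := hbL
    rw [IntermediateField.adjoin_simple_toSubalgebra_of_isAlgebraic hint.isAlgebraic,
      Algebra.adjoin_singleton_eq_range_aeval] at hbL'
    obtain ⟨P, rfl⟩ := hbL'
    refine ⟨fun i => (P %ₘ f).coeff i, ?_⟩
    have h1 : Polynomial.aeval w P = Polynomial.aeval w (P %ₘ f) :=
      (Polynomial.aeval_modByMonic_eq_self_of_root hfw).symm
    show Polynomial.aeval w P = _
    rw [h1, Polynomial.aeval_eq_sum_range' (n := p) ?_, ← Fin.sum_univ_eq_sum_range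
      (fun i => (P %ₘ f).coeff i • w ^ i) p]
    · exact Finset.sum_congr rfl fun i _ => by rw [Algebra.smul_def]; rfl
    · by_cases h0 : P %ₘ f = 0
      · rw [h0, Polynomial.natDegree_zero]; exact hp.pos
      · have := Polynomial.degree_modByMonic_lt P hfm
        rw [Polynomial.natDegree_lt_iff_degree_lt h0]
        rw [Polynomial.degree_eq_natDegree hfm.ne_zero, hfd] at this
        exact this
  have hσsum : ∀ (σ : GQ), σ ∈ K.fixingSubgroup → ∀ g : Fin p → K,
      σ (∑ i, (g i : Qbar) * w ^ (i : ℕ)) = ∑ i, (g i : Qbar) * σ w ^ (i : ℕ) := by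
    intro σ hσ g
    rw [map_sum]
    exact Finset.sum_congr rfl fun i _ => by rw [map_mul, map_pow, hKfix σ hσ]
  -- valuation on `L` is invariant
  have hvinv : ∀ b : Qbar, (∀ σ ∈ L.fixingSubgroup, σ b = b) → ∀ σ ∈ K.fixingSubgroup,
      v (σ b) = v b := by
    intro b hb σ hσ
    obtain ⟨g, rfl⟩ := hexpand b hb
    rw [hσsum σ hσ g]
    apply le_antisymm
    · refine Valuation.map_sum_le v fun i _ => ?_
      rw [hexp σ hσ g i]
      simpa using hmax g 1 (one_mem _) i
    · refine Valuation.map_sum_le v fun i _ => ?_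
      exact hmax g σ hσ i
  have hres : ∀ b : Qbar, (∀ σ ∈ L.fixingSubgroup, σ b = b) → v b ≤ 1 → ∀ σ ∈ K.fixingSubgroup,
      v (σ b - b) < 1 := by
    intro b hb hb1 σ hσ
    obtain ⟨g, rfl⟩ := hexpand b hb
    rw [hσsum σ hσ g, ← Finset.sum_sub_distrib]
    refine Valuation.map_sum_lt v one_ne_zero fun i _ => ?_
    by_cases hi : (i : ℕ) = 0
    · simp [hi]
    have h1 : v ((g i : Qbar) * w ^ (i : ℕ)) < 1 := by
      have hle : v ((g i : Qbar) * w ^ (i : ℕ)) ≤ 1 :=
        le_trans (by simpa using hmax g 1 (one_mem _) i) hb1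
      refine lt_of_le_of_ne hle fun he => ?_
      by_cases hg0 : (g i : Qbar) = 0
      · simp [hg0] at he
      exact hdist 1 (g i) 0 i (Nat.pos_of_ne_zero hi) i.2 (by simp) hg0 (by simpa using he.symm)
    exact lt_of_le_of_lt (Valuation.map_sub _ _ _) (max_lt (by rw [hexp σ hσ g i]; exact h1) h1)
  -- Galois theory of `ZBar` over the fixed ring of `L.fixingSubgroup`
  set G : Subgroup GQ := L.fixingSubgroup
  letI : TopologicalSpace ZBar := ⊥
  haveI : DiscreteTopology ZBar := ⟨rfl⟩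
  haveI : ContinuousSMul GQ ZBar := by
    refine ContinuousSMul.mk (continuous_prod_of_discrete_right.mpr fun b => ?_)
    refine (IsLocallyConstant.iff_exists_open _).mpr (fun σ => ?_) |>.continuous
    refine ⟨σ • (MulAction.stabilizer GQ (b : Qbar) : Set GQ),
      (stabilizer_isOpen_of_isIntegral _).leftCoset σ, ⟨1, one_mem _, mul_one σ⟩, ?_⟩
    rintro _ ⟨γ, hγ, rfl⟩
    apply Subtype.ext
    simp only [SetLike.mem_coe, MulAction.mem_stabilizer_iff] at hγ
    simp [mul_smul, hγ]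
  haveI : ContinuousSMul G ZBar := ⟨(continuous_smul (M := GQ) (X := ZBar)).comp
    ((continuous_subtype_val.comp continuous_fst).prodMk continuous_snd)⟩
  haveI : CompactSpace G :=
    isCompact_iff_compactSpace.1 (InfiniteGalois.fixingSubgroup_isClosed L).isCompact
  let R := FixedPoints.subalgebra ℤ ZBar G
  haveI : Algebra.IsInvariant R ZBar G := ⟨fun b hb => ⟨⟨b, hb⟩, rfl⟩⟩
  haveI : SMulCommClass G R ZBar := ⟨fun g r b => by
    show g • ((r : ZBar) * b) = (r : ZBar) * g • b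
    rw [smul_mul', show g • (r : ZBar) = r from r.2 g]⟩
  set Q := placeCenter A
  have hQmem : ∀ b : ZBar, b ∈ Q ↔ v (b : Qbar) < 1 := fun b => by
    rw [mem_placeCenter_iff, ValuationSubring.mem_nonunits_iff]
  have hfixR : ∀ (r : R), ∀ σ ∈ L.fixingSubgroup, σ ((r : ZBar) : Qbar) = ((r : ZBar) : Qbar) :=
    fun r σ hσ => congrArg Subtype.val (r.2 ⟨σ, hσ⟩)
  have hle1 : ∀ b : ZBar, v (b : Qbar) ≤ 1 := fun b =>
    (A.valuation_le_one_iff _).2 (integralClosure_le A b)
  obtain ⟨h, hh⟩ := Algebra.IsInvariant.exists_smul_of_under_eq_of_profinite (A := R) (G := G)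
    (τ • Q) Q (by
      ext r
      rw [Ideal.under_def, Ideal.mem_comap, Ideal.under_def, Ideal.mem_comap,
        Ideal.mem_pointwise_smul_iff_inv_smul_mem, hQmem, hQmem,
        show ((τ⁻¹ • (algebraMap R ZBar r) : ZBar) : Qbar) = τ⁻¹ ((r : ZBar) : Qbar) from rfl,
        hvinv _ (hfixR r) _ (inv_mem hτ)]
      rfl)
  set σ₁ : GQ := (h : GQ) * τ with hσ₁
  have hσ₁K : σ₁ ∈ K.fixingSubgroup := mul_mem (hLK h.2) hτ
  have hfixτβ : ∀ g ∈ L.fixingSubgroup, g (τ β) = τ β := fun g hg => hwβ τ hτ g (hLK hg) (hLw g hg)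
  have hfixβ : ∀ g ∈ L.fixingSubgroup, g β = β := fun g hg => by
    simpa using hwβ 1 (one_mem _) g (hLK hg) (hLw g hg)
  have hσ₁β : σ₁ β ≠ β := by
    rw [hσ₁, AlgEquiv.mul_apply, hfixτβ _ h.2]
    exact hτβ
  have hσ₁Q : σ₁ • Q = Q := by
    rw [hσ₁, mul_smul]
    exact hh.symm
  have hmem₁ : ∀ x : ZBar, σ₁ • x ∈ Q ↔ x ∈ Q := fun x => by
    conv_lhs => rw [← hσ₁Q]
    exact Ideal.smul_mem_pointwise_smul_iff
  let P := Q.under R
  haveI : Q.LiesOver P := ⟨rfl⟩
  have hR : ∀ r : R, σ₁ • (r : ZBar) - (r : ZBar) ∈ Q := fun r => by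
    rw [hQmem]
    exact hres _ (hfixR r) (hle1 _) σ₁ hσ₁K
  let e : (ZBar ⧸ Q) ≃ₐ[R ⧸ P] (ZBar ⧸ Q) :=
    AlgEquiv.ofRingEquiv (f := Ideal.quotientEquiv Q Q (MulSemiringAction.toRingEquiv GQ ZBar σ₁)
      (hσ₁Q.symm)) (by
        intro r
        obtain ⟨r, rfl⟩ := Ideal.Quotient.mk_surjective r
        show Ideal.Quotient.mk Q (σ₁ • (r : ZBar)) = Ideal.Quotient.mk Q (r : ZBar)
        exact Ideal.Quotient.eq.2 (hR r))
  obtain ⟨h₂, hh₂⟩ := Ideal.Quotient.stabilizerHom_surjective_of_profinite (G := G) P Q e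
  set σ : GQ := ((h₂ : G) : GQ)⁻¹ * σ₁ with hσ
  have hact : ∀ x : ZBar, σ • x - x ∈ Q := by
    intro x
    have h1 : Ideal.Quotient.mk Q (((h₂ : G) : GQ) • x) = Ideal.Quotient.mk Q (σ₁ • x) :=
      AlgEquiv.congr_fun hh₂ (Ideal.Quotient.mk Q x)
    rw [Ideal.Quotient.eq] at h1
    have h2 : ((h₂ : G) : GQ)⁻¹ • (((h₂ : G) : GQ) • x - σ₁ • x) ∈ Q := by
      have h3 : (((h₂ : G) : GQ)⁻¹) • Q = Q := by
        rw [inv_smul_eq_iff]
        exact h₂.2.symm
      have h4 := Ideal.smul_mem_pointwise_smul (((h₂ : G) : GQ)⁻¹) _ _ h1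
      rwa [h3] at h4
    rw [smul_sub, inv_smul_smul, ← mul_smul] at h2
    simpa using neg_mem h2
  have hσQ : ∀ x : ZBar, σ • x ∈ Q ↔ x ∈ Q := fun x =>
    ⟨fun hx => by simpa using sub_mem hx (hact x), fun hx => by simpa using add_mem (hact x) hx⟩
  have hdec : σ ∈ A.decompositionSubgroup ℚ := smul_place_eq_of_center hℓ hA σ hσQ
  have hσK : σ ∈ K.fixingSubgroup := mul_mem (inv_mem (hLK (h₂ : G).2)) hσ₁K
  refine ⟨σ, hσK, ⟨⟨σ, hdec⟩, ?_, rfl⟩, ?_⟩
  · rw [SetLike.mem_coe, ValuationSubring.inertiaSubgroup, MonoidHom.mem_ker]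
    refine RingEquiv.ext fun r => ?_
    show (⟨σ, hdec⟩ : A.decompositionSubgroup ℚ) • r = r
    obtain ⟨b, c, hc, hbc⟩ := exists_residue_eq hℓ hA r
    have key : ∀ y : ZBar, residue A (zbarToPlace A (σ • y)) = residue A (zbarToPlace A y) := fun y => by
      rw [← sub_eq_zero, ← map_sub, ← map_sub]
      exact (residue_zbar_eq_zero_iff A _).mpr (hact y)
    have hc' : residue A (zbarToPlace A c) ≠ 0 := by
      rwa [Ne, residue_zbar_eq_zero_iff]
    refine mul_right_cancel₀ hc' ?_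
    have h1 := congrArg (fun z => (⟨σ, hdec⟩ : A.decompositionSubgroup ℚ) • z) hbc
    simp only [smul_mul', ← ResidueField.residue_smul] at h1
    rw [show (⟨σ, hdec⟩ : A.decompositionSubgroup ℚ) • zbarToPlace A c = zbarToPlace A (σ • c) from
      Subtype.ext rfl, show (⟨σ, hdec⟩ : A.decompositionSubgroup ℚ) • zbarToPlace A b =
        zbarToPlace A (σ • b) from Subtype.ext rfl, key, key] at h1
    rw [h1, hbc]
  · intro he
    apply hσ₁β
    have h1 := congrArg (((h₂ : G) : GQ)) he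
    rw [hσ, ← AlgEquiv.mul_apply, ← mul_assoc, mul_inv_cancel, one_mul, hfixβ _ (h₂ : G).2] at h1
    exact h1

end Fermat.Agent.ExtVanish
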