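import Mathlib
import Fermat.Prelude.Def_ExtCitation_AdmissibleExtension_v2
import Fermat.Prelude.Def_ExtCitation_KummerBridge
import Fermat.Agent.ExtVanish.LocalRam
import Fermat.Agent.ExtVanish.ClassKill

/-!
An everywhere unramified, split at `p`, extension of the mod `p` cyclotomic character by the trivial
character has vanishing restriction to `ℚ(ζ)`: the Kummer argument.
-/

set_option autoImplicit false
set_option maxSynthPendingDepth 3
set_option maxHeartbeats 1600000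
set_option synthInstance.maxHeartbeats 400000

open NumberField IsDedekindDomain Fermat.Agent.Galois

noncomputable section

namespace Fermat.Agent.ExtVanish

local notation "Qbar" => AlgebraicClosure ℚ

lemma sigma_zeta_eq {p : ℕ} [Fact p.Prime] {z : Qbar} (hz : z ^ p = 1) (σ : GQ) :
    σ z = z ^ (ExtCitation.cycloChar p σ : ZMod p).val := by
  haveI : NeZero p := ⟨(Fact.out : p.Prime).ne_zero⟩
  have hz0 : z ≠ 0 := by
    intro h
    rw [h, zero_pow (NeZero.ne p)] at hz
    exact zero_ne_one hz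
  exact modularCyclotomicCharacter.spec Qbar (ExtCitation.card_rootsOfUnity_eq_self p)
    (σ : Qbar ≃+* Qbar) (t := Units.mk0 z hz0) (Units.ext (by simpa using hz))

section Place

variable (K : IntermediateField ℚ (AlgebraicClosure ℚ)) [NumberField K]

/-- A place of `Qbar` above a prime of `K`, with the comparison of valuations. -/
lemma exists_place (v : HeightOneSpectrum (𝓞 K)) : ∃ (A : ValuationSubring Qbar) (ℓ : ℕ),
    ℓ.Prime ∧ (ℓ : 𝓞 K) ∈ v.asIdeal ∧ A.LiesOverPrime ℓ ∧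
      (∀ x : 𝓞 K, A.valuation ((x : K) : Qbar) ≤ 1) ∧
      ∃ P : A.ValueGroup, P ≠ 0 ∧ P < 1 ∧ ∀ (x : K) (n : ℤ),
        v.valuation K x = WithZero.exp (-n) → A.valuation (x : Qbar) = P ^ n := by
  classical
  let ι : 𝓞 K →+* Qbar := K.val.toRingHom.comp (algebraMap (𝓞 K) K)
  let e : 𝓞 K ≃+* ι.range := RingEquiv.ofBijective ι.rangeRestrict
    ⟨fun a b h => by
      have h' : (ι.rangeRestrict a : Qbar) = (ι.rangeRestrict b : Qbar) := by rw [h]
      exact FaithfulSMul.algebraMap_injective (𝓞 K) K (K.val.injective h'), ι.rangeRestrict_surjective⟩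
  let I : Ideal ι.range := v.asIdeal.map (e : 𝓞 K →+* ι.range)
  have hI : I ≠ ⊤ := by
    haveI := v.isPrime
    exact (Ideal.map_isPrime_of_equiv e).ne_top
  obtain ⟨A, hRA, hA⟩ := Ideal.image_subset_nonunits_valuationSubring I hI
  set w := A.valuation
  have hle : ∀ x : 𝓞 K, w ((x : K) : Qbar) ≤ 1 := fun x =>
    (A.valuation_le_one_iff _).2 (hRA ⟨x, rfl⟩)
  have hlt : ∀ x ∈ v.asIdeal, w ((x : K) : Qbar) < 1 := fun x hx => by
    rw [← ValuationSubring.mem_nonunits_iff]
    exact hA ⟨e x, Ideal.mem_map_of_mem _ hx, rfl⟩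
  have hone : ∀ x : 𝓞 K, x ∉ v.asIdeal → w ((x : K) : Qbar) = 1 := by
    intro x hx
    haveI := v.isPrime.isMaximal v.ne_bot
    obtain ⟨y, i, hi, hyi⟩ := (v.isPrime.isMaximal v.ne_bot).exists_inv hx
    refine le_antisymm (hle x) (le_of_not_gt fun hlt' => ?_)
    have h1 : w (((y * x + i : 𝓞 K) : K) : Qbar) < 1 := by
      rw [show (((y * x + i : 𝓞 K) : K) : Qbar) =
        ((y : K) : Qbar) * ((x : K) : Qbar) + ((i : K) : Qbar) by simp]
      refine lt_of_le_of_lt (w.map_add _ _) (max_lt ?_ (hlt i hi))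
      rw [map_mul]
      exact lt_of_le_of_lt (mul_le_of_le_one_left' (hle y)) hlt'
    rw [hyi] at h1
    simp at h1
  obtain ⟨ℓ, hℓ, hℓv⟩ : ∃ ℓ : ℕ, ℓ.Prime ∧ (ℓ : 𝓞 K) ∈ v.asIdeal :=
    ⟨Fermat.Agent.Density.resChar v, (Fermat.Agent.Density.exists_absNorm_eq v).1,
      Fermat.Agent.Density.resChar_mem v⟩
  obtain ⟨ϖ, hϖ⟩ := v.intValuation_exists_uniformizer
  have hϖ0 : ϖ ≠ 0 := fun h => by rw [h, map_zero] at hϖ; exact WithZero.exp_ne_zero hϖ.symm
  have hϖv : ϖ ∈ v.asIdeal := by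
    rw [← Ideal.dvd_span_singleton, ← v.intValuation_lt_one_iff_dvd, hϖ]
    exact WithZero.exp_lt_exp.2 (by norm_num)
  refine ⟨A, ℓ, hℓ, hℓv, ?_, hle, w ((ϖ : K) : Qbar), (map_ne_zero w).2 ?_, hlt ϖ hϖv, fun x n hx => ?_⟩
  · rw [ValuationSubring.LiesOverPrime, ValuationSubring.mem_nonunits_iff]
    simpa using hlt _ hℓv
  · simpa using hϖ0
  · have hϖK : (ϖ : K) ≠ 0 := by simpa using hϖ0
    have h1 : v.valuation K (x / (ϖ : K) ^ n) = 1 := by
      rw [map_div₀, map_zpow₀, hx, HeightOneSpectrum.valuation_of_algebraMap, hϖ,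
        ← WithZero.exp_zsmul, ← WithZero.exp_sub]
      simp
    obtain ⟨r, d, hrd⟩ := v.exists_primeCompl_mul_eq_of_integer (K := K) _ h1.le
    have hr : r ∉ v.asIdeal := by
      intro hr
      have h2 := congrArg (v.valuation K) hrd
      rw [map_mul, h1, one_mul, HeightOneSpectrum.valuation_of_algebraMap,
        HeightOneSpectrum.valuation_of_algebraMap,
        (v.intValuation_eq_one_iff_mem_primeCompl _).2 d.2] at h2
      have h3 := (v.intValuation_lt_one_iff_mem r).2 hr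
      rw [← h2] at h3
      exact lt_irrefl _ h3
    have h2 := congrArg (fun y : K => w (y : Qbar)) hrd
    change w _ = w _ at h2
    rw [show (((x / (ϖ : K) ^ n) * (algebraMap (𝓞 K) K d) : K) : Qbar) =
      (x : Qbar) / ((ϖ : K) : Qbar) ^ n * (((d : 𝓞 K) : K) : Qbar) by
        rw [← IntermediateField.coe_val, map_mul, map_div₀, map_zpow₀],
      map_mul, map_div₀, map_zpow₀, hone _ hr, hone _ d.2, mul_one,
      div_eq_one_iff_eq (zpow_ne_zero _ ((map_ne_zero w).2 (by simpa using hϖ0)))] at h2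
    exact h2

end Place

variable {p : ℕ} [Fact p.Prime]

lemma exists_radical (hp : 3 ≤ p) {a : GQ → ZMod p}
    (hmul : ∀ σ τ, a (σ * τ) = (ExtCitation.cycloChar p τ : ZMod p) * a σ + a τ)
    {U : Set GQ} (hU : IsOpen U) (hU1 : (1 : GQ) ∈ U) (hUker : ∀ σ ∈ U, a σ = 0)
    (K : IntermediateField ℚ Qbar)
    (hKker : ∀ σ : GQ, σ ∈ K.fixingSubgroup ↔ ExtCitation.cycloChar p σ = 1)
    {ζ : Qbar} (hζ : IsPrimitiveRoot ζ p) {g₀ : GQ} (hg₀ : g₀ ∈ K.fixingSubgroup) (hg₀a : a g₀ = 1) :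
    ∃ β : Qbar, β ≠ 0 ∧ ∀ g ∈ K.fixingSubgroup, g β = ζ ^ (a g).val * β := by
  classical
  have hpp : p.Prime := Fact.out
  have hz : ∀ g ∈ K.fixingSubgroup, g ζ = ζ := fun g hg => by
    rw [sigma_zeta_eq hζ.pow_eq_one g, (hKker g).1 hg, Units.val_one, ZMod.val_one, pow_one]
  have ha1 : a 1 = 0 := hUker 1 hU1
  have hadd : ∀ σ τ, τ ∈ K.fixingSubgroup → a (σ * τ) = a σ + a τ := fun σ τ hτ => by
    rw [hmul, (hKker τ).1 hτ, Units.val_one, one_mul]
  let N : Subgroup GQ :=
    { carrier := {σ | σ ∈ K.fixingSubgroup ∧ a σ = 0}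
      mul_mem' := fun {x y} hx hy => ⟨mul_mem hx.1 hy.1, by rw [hadd _ _ hy.1, hx.2, hy.2, add_zero]⟩
      one_mem' := ⟨one_mem _, ha1⟩
      inv_mem' := fun {x} hx => ⟨inv_mem hx.1, by
        have h := hadd x x⁻¹ (inv_mem hx.1)
        rw [mul_inv_cancel, ha1, hx.2, zero_add] at h
        exact h.symm⟩ }
  have hNopen : IsOpen (N : Set GQ) := by
    refine Subgroup.isOpen_of_mem_nhds N (g := 1) ?_
    have hKo : IsOpen (K.fixingSubgroup : Set GQ) := by
      have : (K.fixingSubgroup : Set GQ) = {σ : GQ | σ ζ = ζ} := by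
        ext σ
        refine ⟨hz σ, fun (h : σ ζ = ζ) => (hKker σ).2 (Units.ext ?_)⟩
        rw [sigma_zeta_eq hζ.pow_eq_one σ] at h
        conv_rhs at h => rw [← pow_one ζ]
        have h2 := hζ.pow_inj (ZMod.val_lt _) hpp.one_lt h
        rw [Units.val_one, ← ZMod.natCast_zmod_val (ExtCitation.cycloChar p σ : ZMod p), h2, Nat.cast_one]
      rw [this]
      exact stabilizer_isOpen_of_isIntegral ζ
    exact Filter.mem_of_superset ((hU.inter hKo).mem_nhds ⟨hU1, one_mem _⟩)
      fun σ hσ => ⟨hσ.2, hUker σ hσ.1⟩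
  let Nc : ClosedSubgroup GQ := ⟨N, Subgroup.isClosed_of_isOpen N hNopen⟩
  set E := IntermediateField.fixedField N
  have hE : E.fixingSubgroup = N := InfiniteGalois.fixingSubgroup_fixedField Nc
  have hpow : ∀ n : ℕ, a (g₀ ^ n) = n := by
    intro n
    induction n with
    | zero => simp [ha1]
    | succ n ih => rw [pow_succ, hadd _ _ hg₀, ih, hg₀a, Nat.cast_succ]
  let χ : ZMod p → E →* Qbar := fun i => ((g₀ ^ i.val : GQ) : Qbar →* Qbar).comp (E.val : E →* Qbar)
  have hχ : Function.Injective χ := by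
    intro i j hij
    have hmem : (g₀ ^ j.val)⁻¹ * g₀ ^ i.val ∈ E.fixingSubgroup := by
      rw [IntermediateField.mem_fixingSubgroup_iff]
      intro x hx
      rw [AlgEquiv.mul_apply]
      have h := DFunLike.congr_fun hij ⟨x, hx⟩
      show (g₀ ^ j.val)⁻¹ ((g₀ ^ i.val) x) = x
      rw [show (g₀ ^ i.val) x = (g₀ ^ j.val) x from h]
      exact (g₀ ^ j.val).symm_apply_apply x
    rw [hE] at hmem
    have h1 := hadd (g₀ ^ j.val) ((g₀ ^ j.val)⁻¹ * g₀ ^ i.val) hmem.1
    rw [mul_inv_cancel_left, hmem.2, add_zero, hpow, hpow, ZMod.natCast_zmod_val,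
      ZMod.natCast_zmod_val] at h1
    exact h1
  have hli := (linearIndependent_monoidHom E Qbar).comp χ hχ
  obtain ⟨x, hx⟩ : ∃ x : E, ∑ i : ZMod p, ζ ^ (-i).val * (g₀ ^ i.val) (x : Qbar) ≠ 0 := by
    by_contra h
    push Not at h
    have h1 := Fintype.linearIndependent_iff.1 hli (fun i => ζ ^ (-i).val) (funext fun x => by
      simp only [Finset.sum_apply, Pi.smul_apply, smul_eq_mul, Pi.zero_apply, Function.comp_apply]
      exact h x) 0
    exact pow_ne_zero _ (hζ.ne_zero hpp.ne_zero) h1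
  refine ⟨_, hx, fun g hg => ?_⟩
  rw [map_sum, Finset.mul_sum, ← Equiv.sum_comp (Equiv.subRight (a g))]
  refine Finset.sum_congr rfl fun i _ => ?_
  rw [Equiv.subRight_apply, map_mul, map_pow, hz g hg, ← mul_assoc, ← pow_add]
  congr 1
  · exact pow_congr_of_pow_eq_one hζ.pow_eq_one (by simp; ring)
  · set m := g₀ ^ i.val with hm
    have hmK : g * g₀ ^ (i - a g).val ∈ K.fixingSubgroup := mul_mem hg (pow_mem hg₀ _)
    have hnK : m⁻¹ * (g * g₀ ^ (i - a g).val) ∈ K.fixingSubgroup :=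
      mul_mem (inv_mem (pow_mem hg₀ _)) hmK
    have h1 := hadd m _ hnK
    rw [mul_inv_cancel_left, hadd _ _ (pow_mem hg₀ _), hm, hpow, hpow, ZMod.natCast_zmod_val,
      ZMod.natCast_zmod_val, add_sub_cancel, left_eq_add] at h1
    have hN : m⁻¹ * (g * g₀ ^ (i - a g).val) ∈ E.fixingSubgroup := by
      rw [hE]
      exact ⟨hnK, h1⟩
    have h2 := (IntermediateField.mem_fixingSubgroup_iff E _).1 hN x x.2
    rw [AlgEquiv.mul_apply, AlgEquiv.mul_apply] at h2
    have h3 := congrArg m h2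
    rw [show m (m⁻¹ (g ((g₀ ^ (i - a g).val) x))) = g ((g₀ ^ (i - a g).val) x) from
      m.apply_symm_apply _] at h3
    exact h3

/-- The Kummer step: the cocycle vanishes on `Gal(Qbar/ℚ(ζ))`. -/
theorem cocycle_eq_zero (hp : 3 ≤ p) {a : GQ → ZMod p}
    (hmul : ∀ σ τ, a (σ * τ) = (ExtCitation.cycloChar p τ : ZMod p) * a σ + a τ)
    {U : Set GQ} (hU : IsOpen U) (hU1 : (1 : GQ) ∈ U) (hUker : ∀ σ ∈ U, a σ = 0)
    (hin : ∀ ℓ : ℕ, ℓ.Prime → ∀ A : ValuationSubring Qbar, A.LiesOverPrime ℓ →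
      ∀ σ ∈ A.inertiaSubgroupIn ℚ, ExtCitation.cycloChar p σ = 1 → a σ = 0) :
    ∀ σ, ExtCitation.cycloChar p σ = 1 → a σ = 0 := by
  classical
  by_contra hne
  push Not at hne
  obtain ⟨σ₀, hσ₀, hσ₀a⟩ := hne
  have hpp : p.Prime := Fact.out
  haveI : NeZero p := ⟨hpp.ne_zero⟩
  obtain ⟨ζ₀, hζ₀⟩ := HasEnoughRootsOfUnity.exists_primitiveRoot Qbar p
  let K : IntermediateField ℚ Qbar := IntermediateField.adjoin ℚ {ζ₀}
  haveI hcyc : IsCyclotomicExtension {p} ℚ K := by
    have h := hζ₀.intermediateField_adjoin_isCyclotomicExtension ℚ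
    convert h <;> first | rfl | exact Subsingleton.elim _ _ | exact (Subsingleton.elim _ _).symm
  haveI : NumberField K := IsCyclotomicExtension.numberField {p} ℚ K
  set ζ : Qbar := ((zF p K : K) : Qbar)
  have hζ : IsPrimitiveRoot ζ p := (zF_spec p K).map_of_injective (f := K.val) K.val.injective
  have hKker : ∀ σ : GQ, σ ∈ K.fixingSubgroup ↔ ExtCitation.cycloChar p σ = 1 := by
    intro σ
    constructor
    · intro h
      have h1 : σ ζ = ζ := (IntermediateField.mem_fixingSubgroup_iff K σ).1 h _ (zF p K).2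
      rw [sigma_zeta_eq hζ.pow_eq_one σ] at h1
      conv_rhs at h1 => rw [← pow_one ζ]
      have h2 := hζ.pow_inj (ZMod.val_lt _) hpp.one_lt h1
      refine Units.ext ?_
      rw [Units.val_one, ← ZMod.natCast_zmod_val (ExtCitation.cycloChar p σ : ZMod p), h2, Nat.cast_one]
    · intro h
      rw [IntermediateField.mem_fixingSubgroup_iff]
      have h1 : σ ζ₀ = ζ₀ := by
        rw [sigma_zeta_eq hζ₀.pow_eq_one σ, h, Units.val_one, ZMod.val_one, pow_one]
      intro x hx
      induction hx using IntermediateField.adjoin_induction with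
      | mem x hx => rw [Set.mem_singleton_iff.1 hx, h1]
      | algebraMap x => exact σ.commutes x
      | add x y _ _ hx hy => rw [map_add, hx, hy]
      | inv x _ hx => rw [map_inv₀, hx]
      | mul x y _ _ hx hy => rw [map_mul, hx, hy]
  have hadd : ∀ σ τ, τ ∈ K.fixingSubgroup → a (σ * τ) = a σ + a τ := fun σ τ hτ => by
    rw [hmul, (hKker τ).1 hτ, Units.val_one, one_mul]
  have ha1 : a 1 = 0 := hUker 1 hU1
  obtain ⟨g₀, hg₀, hg₀a⟩ : ∃ g₀ ∈ K.fixingSubgroup, a g₀ = 1 := by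
    have hpow : ∀ n : ℕ, a (σ₀ ^ n) = n * a σ₀ := by
      intro n
      induction n with
      | zero => simp [ha1]
      | succ n ih => rw [pow_succ, hadd _ _ ((hKker σ₀).2 hσ₀), ih]; push_cast; ring
    refine ⟨σ₀ ^ ((a σ₀)⁻¹).val, pow_mem ((hKker σ₀).2 hσ₀) _, ?_⟩
    rw [hpow, ZMod.natCast_zmod_val, inv_mul_cancel₀ hσ₀a]
  obtain ⟨β, hβ0, hβ⟩ := exists_radical hp hmul hU hU1 hUker K hKker hζ hg₀ hg₀a
  have hfix : ∀ x : Qbar, (∀ g ∈ K.fixingSubgroup, g x = x) → x ∈ K := fun x hx => by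
    rw [← InfiniteGalois.fixedField_fixingSubgroup K, IntermediateField.mem_fixedField_iff]
    exact hx
  have hKfix : ∀ g ∈ K.fixingSubgroup, ∀ c : K, g (c : Qbar) = c := fun g hg c =>
    (IntermediateField.mem_fixingSubgroup_iff K g).1 hg c c.2
  obtain ⟨α, hα⟩ : ∃ α : K, (α : Qbar) = β ^ p := ⟨⟨β ^ p, hfix _ fun g hg => by
    rw [map_pow, hβ g hg, mul_pow, ← pow_mul, mul_comm _ p, pow_mul, hζ.pow_eq_one, one_pow,
      one_mul]⟩, rfl⟩
  have hα0 : α ≠ 0 := fun h => pow_ne_zero p hβ0 (by rw [← hα, h]; rfl)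
  have hg₀β : g₀ β ≠ β := by
    rw [hβ g₀ hg₀, hg₀a, ZMod.val_one, pow_one]
    intro h
    exact hζ.ne_one hpp.one_lt (mul_eq_right₀ hβ0 |>.1 h)
  have hnomove : ∀ (ℓ : ℕ), ℓ.Prime → ∀ A : ValuationSubring Qbar, A.LiesOverPrime ℓ →
      ∀ σ ∈ K.fixingSubgroup, σ ∈ A.inertiaSubgroupIn ℚ → σ β = β := fun ℓ hℓ A hA σ hσK hσ => by
    rw [hβ σ hσK, hin ℓ hℓ A hA σ hσ ((hKker σ).1 hσK), ZMod.val_zero, pow_zero, one_mul]
  -- eigen
  have heig : IsEigen p α := by
    intro b
    haveI : Normal ℚ Qbar := inferInstance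
    set σ : GQ := AlgEquiv.liftNormal (sg p K b) Qbar
    have hσ : ∀ x : K, σ (x : Qbar) = ((sg p K b x : K) : Qbar) := fun x =>
      AlgEquiv.liftNormal_commutes (sg p K b) Qbar x
    have hωσ : (ExtCitation.cycloChar p σ : ZMod p) = (b : ZMod p) := by
      have h1 := sigma_zeta_eq hζ.pow_eq_one σ
      rw [hσ, sg_zF, SubmonoidClass.coe_pow] at h1
      have h2 := hζ.pow_inj (ZMod.val_lt _) (ZMod.val_lt _) h1
      exact (ZMod.val_injective p h2).symm
    have hy : σ β / β ^ ex p b ∈ K := by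
      refine hfix _ fun g hg => ?_
      have hg' : σ⁻¹ * g * σ ∈ K.fixingSubgroup := by
        rw [hKker, map_mul, map_mul, (hKker g).1 hg, mul_one, map_inv, inv_mul_cancel]
      have ha' : a (σ⁻¹ * g * σ) = (b : ZMod p) * a g := by
        have h1 := hmul σ (σ⁻¹ * g * σ)
        rw [(hKker _).1 hg', Units.val_one, one_mul, ← mul_assoc, ← mul_assoc, mul_inv_cancel,
          one_mul, hmul g σ, hωσ] at h1
        linear_combination -h1
      have h1 : g (σ β) = σ ((σ⁻¹ * g * σ) β) := by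
        show g (σ β) = σ (σ.symm (g (σ β)))
        rw [AlgEquiv.apply_symm_apply]
      rw [map_div₀, map_pow, h1, hβ _ hg', map_mul, map_pow, sigma_zeta_eq hζ.pow_eq_one σ, hβ g hg,
        mul_pow, ← pow_mul, ← pow_mul, ha', hωσ,
        show ζ ^ ((b : ZMod p).val * ((b : ZMod p) * a g).val) = ζ ^ ((a g).val * ex p b) from
          pow_congr_of_pow_eq_one hζ.pow_eq_one (by simp [ex]; ring),
        mul_div_mul_left _ _ (pow_ne_zero _ (hζ.ne_zero hpp.ne_zero))]
    refine ⟨⟨_, hy⟩, Subtype.ext ?_⟩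
    show ((sg p K b α : K) : Qbar) = (α : Qbar) ^ ex p b * (σ β / β ^ ex p b) ^ p
    rw [← hσ, hα, map_pow, div_pow, ← pow_mul, ← pow_mul, mul_comm p, mul_div_cancel₀]
    exact pow_ne_zero _ hβ0
  -- valuations
  have hval : ∀ v : HeightOneSpectrum (𝓞 K), ∃ n : ℤ,
      v.valuation K α = WithZero.exp ((p : ℤ) * n) := by
    intro v
    obtain ⟨A, ℓ, hℓ, -, hA, -, P, hP0, hP1, hP⟩ := exists_place K v
    have hvζ : ∀ n : ℕ, A.valuation (ζ ^ n) = 1 := fun n => by
      have hζ1 : A.valuation ζ = 1 := by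
        refine ((pow_eq_one_iff_of_nonneg zero_le hpp.ne_zero).1 ?_)
        rw [← map_pow, hζ.pow_eq_one, map_one]
      rw [map_pow, hζ1, one_pow]
    obtain ⟨c, hc⟩ : ∃ c : K, A.valuation β = A.valuation (c : Qbar) := by
      by_contra h
      push Not at h
      obtain ⟨σ, hσK, hσI, hσβ⟩ := exists_inertia_moving hℓ hA hpp K (β := β) (w := β)
        (fun τ hτ g hg hgw => by rw [hβ τ hτ, map_mul, map_pow, hgw, hKfix g hg (zF p K)])
        ⟨Polynomial.X ^ p - Polynomial.C α, Polynomial.monic_X_pow_sub_C _ hpp.ne_zero,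
          Polynomial.natDegree_X_pow_sub_C,
          by rw [map_sub, map_pow, Polynomial.aeval_X, Polynomial.aeval_C]; exact sub_eq_zero.2 hα.symm⟩
        ⟨α, by rw [hα, map_pow]⟩ h
        (fun τ hτ => by rw [hβ τ hτ, map_mul, hvζ, one_mul]) hg₀ hg₀β
      exact hσβ (hnomove ℓ hℓ A hA σ hσK hσI)
    have hc0 : c ≠ 0 := by
      rintro rfl
      exact hβ0 ((map_eq_zero A.valuation).1 (by simpa using hc))
    obtain ⟨m, hm⟩ : ∃ m : ℤ, v.valuation K c = WithZero.exp (-m) :=
      ⟨-WithZero.log (v.valuation K c), by rw [neg_neg, WithZero.exp_log (by simpa using hc0)]⟩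
    obtain ⟨n, hn⟩ : ∃ n : ℤ, v.valuation K α = WithZero.exp (-n) :=
      ⟨-WithZero.log (v.valuation K α), by rw [neg_neg, WithZero.exp_log (by simpa using hα0)]⟩
    have h1 : P ^ n = (P ^ m) ^ p := by
      rw [← hP _ _ hn, ← hP _ _ hm, hα, map_pow, hc]
    rw [← zpow_natCast, ← zpow_mul] at h1
    have h2 := zpow_right_injective₀ (zero_lt_iff.2 hP0) hP1.ne h1
    exact ⟨-m, by rw [hn, h2]; congr 1; ring⟩
  rcases exists_class_or_unit hα0 heig hval with ⟨x, hx1, hxp, hxe⟩ | ⟨u, y, hy0, hu⟩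
  · exact hx1 (eigen_class_eq_one hp hxp hxe)
  -- local condition at `ζ - 1`
  have hueig : IsEigen p ((u : 𝓞 K) : K) := by
    have h := heig.mul (isEigen_pow_p (inv_ne_zero hy0))
    rwa [hu, inv_pow, mul_inv_cancel_right₀ (pow_ne_zero _ hy0)] at h
  have hloc : ∃ k : ℤ, piK p K ^ 3 ∣ (u : 𝓞 K) - k := by
    obtain ⟨k, hk⟩ := exists_int_piK_dvd_sub p K (u : 𝓞 K)
    refine ⟨k ^ p, ?_⟩
    push_cast
    by_contra hndvd
    have hπ := prime_piK p K
    have hk1 : piK p K ∣ (u : 𝓞 K) - (k : 𝓞 K) ^ p := by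
      have h1 : piK p K ∣ ((k - k ^ p : ℤ) : 𝓞 K) := by
        rw [piK_dvd_intCast_iff, ← ZMod.intCast_zmod_eq_zero_iff_dvd]
        push_cast
        rw [ZMod.pow_card, sub_self]
      push_cast at h1
      simpa using dvd_add hk h1
    let v : HeightOneSpectrum (𝓞 K) := ⟨Ideal.span {piK p K},
      (Ideal.span_singleton_prime hπ.ne_zero).2 hπ, by simpa using hπ.ne_zero⟩
    have hvπ : v.intValuation (piK p K) = WithZero.exp (-1 : ℤ) :=
      v.intValuation_singleton hπ.ne_zero rfl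
    obtain ⟨A, ℓ, hℓ, -, hA, hle, P, hP0, hP1, hP⟩ := exists_place K v
    set V := A.valuation
    have hPπ : V (((piK p K : 𝓞 K) : K) : Qbar) = P := by
      rw [hP _ 1 (by rw [HeightOneSpectrum.valuation_of_algebraMap, hvπ]), zpow_one]
    have hVint : ∀ (t : ℕ) (r : 𝓞 K), ¬ piK p K ∣ r →
        V (((piK p K ^ t * r : 𝓞 K) : K) : Qbar) = P ^ t := by
      intro t r hr
      rw [hP _ (t : ℤ), zpow_natCast]
      rw [HeightOneSpectrum.valuation_of_algebraMap, map_mul, map_pow, hvπ,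
        (v.intValuation_eq_one_iff_mem_primeCompl _).2 (show r ∈ v.asIdeal.primeCompl from
          fun hmem => hr (Ideal.mem_span_singleton.1 hmem)), mul_one, ← WithZero.exp_nsmul]
      simp
    obtain ⟨t, r, ht, ht', hr, htr⟩ : ∃ (t : ℕ) (r : 𝓞 K), 1 ≤ t ∧ t ≤ 2 ∧ ¬ piK p K ∣ r ∧
        (u : 𝓞 K) - (k : 𝓞 K) ^ p = piK p K ^ t * r := by
      by_cases h2 : piK p K ^ 2 ∣ (u : 𝓞 K) - (k : 𝓞 K) ^ p
      · obtain ⟨r, hr⟩ := h2
        refine ⟨2, r, one_le_two, le_rfl, fun ⟨s, hs⟩ => hndvd ⟨s, ?_⟩, hr⟩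
        rw [hr, hs, pow_succ (piK p K) 2, mul_assoc]
      · obtain ⟨r, hr⟩ := hk1
        refine ⟨1, r, le_rfl, one_le_two, fun ⟨s, hs⟩ => h2 ⟨s, ?_⟩, by rw [pow_one]; exact hr⟩
        rw [hr, hs, pow_two, mul_assoc]
    set B : Qbar := β / (y : Qbar)
    have hy0' : (y : Qbar) ≠ 0 := by simpa using hy0
    have hBp : B ^ p = (((u : 𝓞 K) : K) : Qbar) := by
      rw [div_pow, ← hα, hu, div_eq_iff (pow_ne_zero _ hy0'), ← IntermediateField.coe_val, map_mul,
        map_pow]
    set w : Qbar := B - ((k : 𝓞 K) : K)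
    have hBint : V B ≤ 1 := by
      refine (pow_le_one_iff hpp.ne_zero).1 ?_
      rw [← map_pow, hBp]
      exact hle u
    have hwle : V w ≤ 1 := le_trans (Valuation.map_sub _ _ _) (max_le hBint (hle _))
    have hPt : V (((piK p K ^ t * r : 𝓞 K) : K) : Qbar) = P ^ t := hVint t r hr
    have hVp : V (p : Qbar) = P ^ (p - 1) := by
      obtain ⟨e, he⟩ := piK_pow_sub_one_associated p K
      have h1 := hVint (p - 1) (e : 𝓞 K) (fun h => hπ.not_unit (isUnit_of_dvd_unit h e.isUnit))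
      rw [he] at h1
      simpa using h1
    obtain ⟨S, hS, hexp⟩ : ∃ S : Qbar, V S ≤ 1 ∧
        B ^ p = w ^ p + (((k : 𝓞 K) : K) : Qbar) ^ p + p * w * (((k : 𝓞 K) : K) : Qbar) * S := by
      have hwA : w ∈ A := (A.valuation_le_one_iff _).1 hwle
      have hkA : (((k : 𝓞 K) : K) : Qbar) ∈ A := (A.valuation_le_one_iff _).1 (hle _)
      obtain ⟨S, hS⟩ := exists_add_pow_prime_eq hpp (⟨w, hwA⟩ : A) ⟨_, hkA⟩
      refine ⟨S, (A.valuation_le_one_iff _).2 S.2, ?_⟩
      have h := congrArg Subtype.val hS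
      push_cast at h
      rw [← h]
      simp [w]
    set R : Qbar := (p : Qbar) * w * (((k : 𝓞 K) : K) : Qbar) * S
    have heq : w ^ p + R = (((piK p K ^ t * r : 𝓞 K) : K) : Qbar) := by
      rw [← htr, show ((((u : 𝓞 K) - (k : 𝓞 K) ^ p : 𝓞 K) : K) : Qbar) =
        (((u : 𝓞 K) : K) : Qbar) - (((k : 𝓞 K) : K) : Qbar) ^ p by simp, ← hBp, hexp]
      ring
    have hR : V R ≤ P ^ (p - 1) * V w := by
      simp only [R, map_mul, hVp]
      exact le_trans (mul_le_of_le_one_right' hS) (mul_le_of_le_one_right' (hle _))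
    have hPlt : ∀ i j : ℕ, i < j → P ^ j < P ^ i := fun i j hij =>
      pow_lt_pow_right_of_lt_one₀ (zero_lt_iff.2 hP0) hP1 hij
    have hwp : V w ^ p = P ^ t := by
      rcases lt_trichotomy (V w ^ p) (P ^ t) with hlt | h | hgt
      · exfalso
        have hw1 : V w < 1 := by
          refine lt_of_le_of_ne hwle fun h => ?_
          rw [h, one_pow] at hlt
          exact absurd hlt (not_lt.2 (pow_le_one₀ zero_le hP1.le))
        have h2 : P ^ t = V R := by
          rw [← hPt, ← heq]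
          refine Valuation.map_add_eq_of_lt_right _ ?_
          rw [map_pow]
          refine lt_of_lt_of_le hlt (le_of_not_gt fun hR' => ?_)
          have h3 : V (w ^ p + R) < P ^ t := lt_of_le_of_lt (V.map_add _ _) (max_lt (by rwa [map_pow]) hR')
          rw [heq, hPt] at h3
          exact lt_irrefl _ h3
        have h3 : V R < P ^ (p - 1) :=
          lt_of_le_of_lt hR (mul_lt_of_lt_one_right (zero_lt_iff.2 (pow_ne_zero _ hP0)) hw1)
        rw [← h2] at h3
        exact absurd h3 (not_lt.2 (pow_le_pow_right_of_le_one' hP1.le (by omega)))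
      · exact h
      · exfalso
        have h2 : V w ^ p ≤ P ^ (p - 1) * V w := by
          refine le_trans (le_of_eq ?_) hR
          refine le_antisymm (le_of_not_gt fun hlt => ?_) (le_of_not_gt fun hlt => ?_)
          · have h3 : V (w ^ p + R) = V w ^ p := by
              rw [← map_pow] at hlt ⊢
              exact Valuation.map_add_eq_of_lt_left _ hlt
            rw [heq, hPt] at h3
            exact hgt.ne h3
          · have h3 : V (w ^ p + R) = V R := by
              rw [← map_pow] at hlt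
              exact Valuation.map_add_eq_of_lt_right _ hlt
            rw [heq, hPt] at h3
            exact absurd (hgt.trans hlt) (h3 ▸ lt_irrefl _)
        have hw0 : V w ≠ 0 := fun h => by
          rw [h, zero_pow hpp.ne_zero] at hgt
          exact not_lt_zero hgt
        have h3 : V w ^ (p - 1) ≤ P ^ (p - 1) := by
          rw [← Nat.sub_add_cancel hpp.one_le, pow_succ] at h2
          simpa using (mul_le_mul_iff_left₀ (zero_lt_iff.2 hw0)).1 h2
        have h4 : V w ≤ P := (pow_le_pow_iff_left₀ zero_le zero_le (by omega)).1 h3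
        exact absurd (hgt.trans_le ((pow_le_pow_left₀ zero_le h4 p))) (not_lt.2 (hPlt t p (by omega)).le)
    have hwv : ∀ c : K, V w ≠ V (c : Qbar) := by
      intro c hc
      have hc0 : c ≠ 0 := by
        rintro rfl
        rw [ZeroMemClass.coe_zero, map_zero] at hc
        rw [hc, zero_pow hpp.ne_zero] at hwp
        exact pow_ne_zero _ hP0 hwp.symm
      obtain ⟨m, hm⟩ : ∃ m : ℤ, v.valuation K c = WithZero.exp (-m) :=
        ⟨-WithZero.log (v.valuation K c), by rw [neg_neg, WithZero.exp_log (by simpa using hc0)]⟩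
      rw [hc, hP _ _ hm, ← zpow_natCast, ← zpow_mul, ← zpow_natCast P t] at hwp
      have h2 := zpow_right_injective₀ (zero_lt_iff.2 hP0) hP1.ne hwp
      have h3 : (p : ℤ) ∣ t := ⟨m, by rw [← h2, mul_comm]⟩
      rw [Int.natCast_dvd_natCast] at h3
      have := Nat.le_of_dvd ht h3
      omega
    have hwinv : ∀ τ ∈ K.fixingSubgroup, V (τ w) = V w := by
      intro τ hτ
      have hτw : τ w = (ζ ^ (a τ).val - 1) * B + w := by
        rw [show w = β / (y : Qbar) - ((k : 𝓞 K) : K) from rfl, map_sub, map_div₀, hKfix τ hτ,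
          hKfix τ hτ, hβ τ hτ]
        ring
      rw [hτw]
      refine Valuation.map_add_eq_of_lt_right _ (lt_of_le_of_lt (b := P) ?_ ?_)
      · rw [map_mul]
        refine le_trans (mul_le_of_le_one_right' hBint) ?_
        obtain ⟨s, hs⟩ : piK p K ∣ zK p K ^ (a τ).val - 1 := sub_one_dvd_pow_sub_one (zK p K) _
        have h1 : ζ ^ (a τ).val - 1 = (((piK p K * s : 𝓞 K) : K) : Qbar) := by
          rw [← hs]
          simp [ζ]
        rw [h1, show (((piK p K * s : 𝓞 K) : K) : Qbar) = (((piK p K : 𝓞 K) : K) : Qbar) * ((s : K) : Qbar) by simp, map_mul, hPπ]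
        exact mul_le_of_le_one_right' (hle s)
      · by_contra h
        push Not at h
        have h1 : V w ^ p ≤ P ^ p := pow_le_pow_left₀ zero_le h p
        rw [hwp] at h1
        exact absurd h1 (not_le.2 (hPlt t p (by omega)))
    obtain ⟨σ, hσK, hσI, hσβ⟩ := exists_inertia_moving hℓ hA hpp K (β := β) (w := w)
      (fun τ hτ g hg hgw => by
        have h1 : g β = β := by
          have h2 : g B = B := by
            rw [show B = w + ((k : 𝓞 K) : K) by simp [w], map_add, hgw, hKfix g hg]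
          rw [show β = B * (y : Qbar) by rw [div_mul_cancel₀ _ hy0'], map_mul, h2, hKfix g hg]
        rw [hβ τ hτ, map_mul, map_pow, h1, hKfix g hg (zF p K)])
      ⟨(Polynomial.X + Polynomial.C ((k : 𝓞 K) : K)) ^ p - Polynomial.C ((u : 𝓞 K) : K),
        Polynomial.Monic.sub_of_left ((Polynomial.monic_X_add_C _).pow p) (by
          rw [Polynomial.degree_pow, Polynomial.degree_X_add_C]
          refine lt_of_le_of_lt Polynomial.degree_C_le ?_
          simp [hpp.pos]),
        by rw [Polynomial.natDegree_sub_C, Polynomial.natDegree_pow, Polynomial.natDegree_X_add_C,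
          mul_one],
        by
          rw [map_sub, map_pow, map_add, Polynomial.aeval_X, Polynomial.aeval_C, Polynomial.aeval_C,
            IntermediateField.algebraMap_apply, IntermediateField.algebraMap_apply,
            sub_add_cancel, hBp, sub_self]⟩
      ⟨(((piK p K ^ t * r : 𝓞 K) : K)), by rw [hwp, hPt]⟩ hwv hwinv hg₀ hg₀β
    exact hσβ (hnomove ℓ hℓ A hA σ hσK hσI)
  obtain ⟨z, hz⟩ := unit_eigen_eq_pow hp hueig hloc
  have hβK : β ∈ K := by
    have hzy : z * y ≠ 0 := fun h => hα0 (by rw [hu, hz, ← mul_pow, h, zero_pow hpp.ne_zero])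
    have hzy' : ((z * y : K) : Qbar) ≠ 0 := by
      simpa only [ne_eq, ZeroMemClass.coe_eq_zero] using hzy
    have h1 : (β / ((z * y : K) : Qbar)) ^ p = 1 := by
      rw [div_pow, ← hα, hu, hz, ← mul_pow, SubmonoidClass.coe_pow, div_self (pow_ne_zero _ hzy')]
    obtain ⟨i, -, hi⟩ := hζ.eq_pow_of_pow_eq_one h1
    rw [eq_div_iff hzy'] at hi
    rw [← hi]
    exact mul_mem (pow_mem (zF p K).2 _) (z * y : K).2
  exact hg₀β (hKfix g₀ hg₀ ⟨β, hβK⟩)

end Fermat.Agent.ExtVanish
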